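import Fermat.Agent.IwasawaMinus.Poly
import Mathlib.NumberTheory.Padics.Hensel
import Mathlib.RingTheory.Polynomial.Cyclotomic.Eval
import Mathlib.RingTheory.RootsOfUnity.AlgebraicallyClosed
import Mathlib.FieldTheory.Finite.Basic

/-!
# Roots of unity in an algebraic closure of `ℚ_p`

A root of unity of order dividing `(p - 1) p^n` is a Teichmüller representative times one of order dividing `p^n`; for
`ζ` of order `p^n`, `n ≥ 1`, the absolute value of `ζ - 1` is `|p|^(1/φ(p^n))`.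
-/

set_option autoImplicit false
set_option linter.style.haveILetI false

noncomputable section

open Polynomial

namespace FA.IwasawaMinus

variable {p : ℕ} [hp : Fact p.Prime]

theorem norm_lt_one_iff_toZMod (a : ℤ_[p]) : ‖a‖ < 1 ↔ PadicInt.toZMod a = 0 := by
  rw [PadicInt.norm_lt_one_iff_dvd, ← RingHom.mem_ker, PadicInt.ker_toZMod, PadicInt.maximalIdeal_eq_span_p,
    Ideal.mem_span_singleton]

theorem norm_eq_one_of_toZMod_ne {a : ℤ_[p]} (h : PadicInt.toZMod a ≠ 0) : ‖a‖ = 1 :=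
  le_antisymm (PadicInt.norm_le_one a) (not_lt.mp fun hlt => h ((norm_lt_one_iff_toZMod a).mp hlt))

theorem exists_teich (u : (ZMod p)ˣ) : ∃ z : ℤ_[p], PadicInt.toZMod z = u ∧ z ^ (p - 1) = 1 := by
  set a : ℤ_[p] := (((u : ZMod p).val : ℕ) : ℤ_[p]) with ha
  have hau : PadicInt.toZMod a = u := by rw [ha, map_natCast, ZMod.natCast_zmod_val]
  set F : ℤ_[p][X] := X ^ (p - 1) - 1 with hF
  have h1 : ‖F.aeval a‖ < 1 := by
    rw [norm_lt_one_iff_toZMod, hF, map_sub, map_pow, aeval_X, map_one, map_sub, map_pow, hau, map_one,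
      ← Units.val_pow_eq_pow_val, ZMod.units_pow_card_sub_one_eq_one, Units.val_one, sub_self]
  have h2 : ‖F.derivative.aeval a‖ = 1 := by
    refine norm_eq_one_of_toZMod_ne ?_
    rw [hF, derivative_sub, derivative_X_pow, derivative_one, sub_zero, map_mul, aeval_C, map_pow, aeval_X,
      Algebra.algebraMap_self, RingHom.id_apply, map_mul, map_natCast, map_pow, hau]
    refine mul_ne_zero (fun e => ?_) (pow_ne_zero _ u.ne_zero)
    have := Nat.le_of_dvd (Nat.sub_pos_of_lt hp.out.one_lt) ((ZMod.natCast_eq_zero_iff _ _).mp e)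
    have := hp.out.one_lt
    omega
  obtain ⟨z, hz, hclose, -, -⟩ := hensels_lemma (F := F) (a := a) (by rw [h2, one_pow]; exact h1)
  refine ⟨z, ?_, ?_⟩
  · rw [h2, norm_lt_one_iff_toZMod, map_sub, sub_eq_zero, hau] at hclose
    exact hclose
  · rw [hF, map_sub, map_pow, aeval_X, map_one, sub_eq_zero] at hz
    exact hz

/-- The Teichmüller representative. -/
def teich (u : (ZMod p)ˣ) : ℤ_[p] := (exists_teich u).choose

theorem toZMod_teich (u : (ZMod p)ˣ) : PadicInt.toZMod (teich u) = u := (exists_teich u).choose_spec.1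

theorem teich_pow_card (u : (ZMod p)ˣ) : teich u ^ (p - 1) = 1 := (exists_teich u).choose_spec.2

/-- Its image. -/
def theta (u : (ZMod p)ˣ) : PadicAlgCl p := emb (teich u)

theorem theta_pow_card (u : (ZMod p)ˣ) : theta u ^ (p - 1) = 1 := by
  rw [theta, ← map_pow, teich_pow_card, map_one]

theorem emb_injective : Function.Injective (emb (p := p)) :=
  (algebraMap ℚ_[p] (PadicAlgCl p)).injective.comp Subtype.val_injective

theorem theta_injective : Function.Injective (theta (p := p)) := fun u v h => Units.ext <| by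
  rw [← toZMod_teich u, ← toZMod_teich v, emb_injective h]

theorem theta_pow_prime_pow (u : (ZMod p)ˣ) (n : ℕ) : theta u ^ p ^ n = theta u := by
  induction n with
  | zero => simp
  | succ n ih =>
    rw [pow_succ, pow_mul, ih]
    conv_lhs => arg 2; rw [← Nat.sub_add_cancel hp.out.one_le]
    rw [pow_succ, theta_pow_card, one_mul]

theorem theta_ne_zero (u : (ZMod p)ˣ) : theta u ≠ 0 := fun e => by
  have h := theta_pow_card u
  rw [e, zero_pow (Nat.sub_pos_of_lt hp.out.one_lt).ne'] at h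
  exact zero_ne_one h

theorem theta_pow_half (hp2 : p ≠ 2) (u : (ZMod p)ˣ) :
    theta u ^ ((p - 1) / 2) = -1 ↔ (u : ZMod p) ^ ((p - 1) / 2) = -1 := by
  have h2 : (2 : ZMod p) ≠ 0 := fun e => hp2 <| by
    have := (ZMod.natCast_eq_zero_iff 2 p).mp (by exact_mod_cast e)
    exact (Nat.prime_dvd_prime_iff_eq hp.out Nat.prime_two).mp this
  have heven : (p - 1) / 2 * 2 = p - 1 :=
    Nat.div_mul_cancel (hp.out.odd_of_ne_two hp2 |>.tsub_odd odd_one).two_dvd
  have hsq : (teich u ^ ((p - 1) / 2)) ^ 2 = 1 := by rw [← pow_mul, heven, teich_pow_card]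
  rw [theta, ← map_pow, ← toZMod_teich u, ← map_pow]
  rcases sq_eq_one_iff.mp hsq with h | h <;> rw [h]
  · simp only [map_one]
    refine iff_of_false (fun e => ?_) fun e => h2 ?_
    · exact two_ne_zero (α := PadicAlgCl p) (by linear_combination e)
    · linear_combination e
  · simp

theorem norm_eq_one_of_pow {x : PadicAlgCl p} {k : ℕ} (h : x ^ k = 1) (hk : k ≠ 0) : ‖x‖ = 1 :=
  (pow_eq_one_iff_of_nonneg (norm_nonneg x) hk).mp (by rw [← norm_pow, h, norm_one])

theorem norm_natCast (k : ℕ) : ‖(k : PadicAlgCl p)‖ = ‖(k : ℤ_[p])‖ := by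
  rw [← norm_emb, map_natCast]

theorem norm_natCast_eq_pow {k : ℕ} (hk : k ≠ 0) :
    ‖(k : PadicAlgCl p)‖ = (p : ℝ)⁻¹ ^ padicValNat p k := by
  rw [← map_natCast (emb (p := p)) k]
  have h1 : ((p ^ padicValNat p k : ℕ) : ℤ_[p]) ∣ (k : ℤ_[p]) := Nat.cast_dvd_cast pow_padicValNat_dvd
  have h2 : ¬ (p : ℤ_[p]) ^ (padicValNat p k + 1) ∣ (k : ℤ_[p]) := fun h => by
    rw [← Int.cast_natCast k, PadicInt.pow_p_dvd_int_iff] at h
    exact pow_succ_padicValNat_not_dvd hk (by exact_mod_cast h)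
  exact norm_emb_eq_pow (by exact_mod_cast h1) h2

theorem norm_natCast_of_not_dvd {k : ℕ} (h : ¬ p ∣ k) : ‖(k : PadicAlgCl p)‖ = 1 := by
  rw [norm_natCast, norm_eq_one_of_toZMod_ne]
  rwa [map_natCast, Ne, ZMod.natCast_eq_zero_iff]

theorem norm_p : ‖(p : PadicAlgCl p)‖ = (p : ℝ)⁻¹ := by
  rw [norm_natCast, PadicInt.norm_p]

/-- Conjugate differences have the same size. -/
theorem norm_pow_sub_one_le {ζ : PadicAlgCl p} (h : ‖ζ‖ ≤ 1) (i : ℕ) : ‖ζ ^ i - 1‖ ≤ ‖ζ - 1‖ := by
  rw [← geom_sum_mul, norm_mul]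
  refine mul_le_of_le_one_left (norm_nonneg _)
    (IsUltrametricDist.norm_sum_le_of_forall_le_of_nonneg zero_le_one fun j _ => ?_)
  rw [norm_pow]
  exact pow_le_one₀ (norm_nonneg _) h

/-- **The size of `ζ - 1`.** -/
theorem norm_sub_one_pow {k : ℕ} {ζ : PadicAlgCl p} (hζ : IsPrimitiveRoot ζ (p ^ (k + 1))) :
    ‖ζ - 1‖ ^ ((p - 1) * p ^ k) = (p : ℝ)⁻¹ := by
  have hN : p ^ (k + 1) ≠ 0 := pow_ne_zero _ hp.out.ne_zero
  haveI : NeZero (p ^ (k + 1)) := ⟨hN⟩
  have h := congrArg (eval 1) (cyclotomic_eq_prod_X_sub_primitiveRoots hζ)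
  rw [eval_one_cyclotomic_prime_pow, eval_prod] at h
  have h' := congrArg (fun x => ‖x‖) h
  simp only [norm_prod, eval_sub, eval_X, eval_C, norm_p] at h'
  rw [h', Finset.prod_congr rfl (g := fun _ => ‖ζ - 1‖) fun μ hμ => ?_, Finset.prod_const, hζ.card_primitiveRoots,
    Nat.totient_prime_pow_succ hp.out, mul_comm]
  have hμ' := (mem_primitiveRoots (NeZero.pos _)).mp hμ
  rw [norm_sub_rev]
  obtain ⟨i, -, rfl⟩ := hζ.eq_pow_of_pow_eq_one hμ'.pow_eq_one
  obtain ⟨j, -, hj⟩ := hμ'.eq_pow_of_pow_eq_one hζ.pow_eq_one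
  refine le_antisymm (norm_pow_sub_one_le (norm_eq_one_of_pow hζ.pow_eq_one hN).le i) ?_
  conv_lhs => rw [← hj]
  exact norm_pow_sub_one_le (norm_eq_one_of_pow hμ'.pow_eq_one hN).le j

theorem norm_sub_one_lt {k : ℕ} {ζ : PadicAlgCl p} (hζ : IsPrimitiveRoot ζ (p ^ (k + 1))) : ‖ζ - 1‖ < 1 := by
  refine not_le.mp fun h => ?_
  have := (one_le_pow₀ h (n := (p - 1) * p ^ k)).trans (norm_sub_one_pow hζ).le
  exact absurd this (not_le.mpr (inv_lt_one_of_one_lt₀ (by exact_mod_cast hp.out.one_lt)))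

/-- Every root of unity of order dividing `p - 1` is a Teichmüller representative. -/
theorem exists_theta_eq {x : PadicAlgCl p} (hx : x ^ (p - 1) = 1) : ∃ u, theta u = x := by
  classical
  have hp1 : 0 < p - 1 := Nat.sub_pos_of_lt hp.out.one_lt
  haveI : NeZero (p - 1) := ⟨hp1.ne'⟩
  obtain ⟨z, hz⟩ := HasEnoughRootsOfUnity.exists_primitiveRoot (PadicAlgCl p) (p - 1)
  have himage : (Finset.univ : Finset (ZMod p)ˣ).image theta = nthRootsFinset (p - 1) (1 : PadicAlgCl p) := by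
    refine Finset.eq_of_subset_of_card_le (Finset.image_subset_iff.mpr fun u _ =>
      (mem_nthRootsFinset hp1 _).mpr (theta_pow_card u)) ?_
    rw [hz.card_nthRootsFinset, Finset.card_image_of_injective _ theta_injective, Finset.card_univ, ZMod.card_units]
  obtain ⟨u, -, hu⟩ := Finset.mem_image.mp (himage ▸ (mem_nthRootsFinset hp1 _).mpr hx)
  exact ⟨u, hu⟩

end FA.IwasawaMinus
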