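import Fermat.Agent.IwasawaMinus.Branch

/-!
# The growth of the relative class number

The size of the product over the odd characters of conductor `p^(k+2)` is `|p|^(μ φ(p^(k+1)) + λ - 1)` for large `k`.
-/

set_option autoImplicit false
set_option linter.style.haveILetI false

noncomputable section

open NumberField
open scoped Classical

namespace FA.IwasawaMinus

variable {p : ℕ} [hp : Fact p.Prime] {g : ℕ}

theorem theta_mul_pow_half (hp2 : p ≠ 2) (u : (ZMod p)ˣ) {n : ℕ} {ζ : PadicAlgCl p} (hζ : ζ ^ p ^ n = 1) :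
    (theta u * ζ) ^ ((p - 1) * p ^ n / 2) = -1 ↔ u ∈ oddU p := by
  have hodd := hp.out.odd_of_ne_two hp2
  rw [Nat.mul_div_right_comm (hodd.tsub_odd odd_one).two_dvd, mul_pow, mul_comm ((p - 1) / 2), pow_mul ζ, hζ,
    one_pow, mul_one, pow_mul, theta_pow_prime_pow, theta_pow_half hp2, oddU, Finset.mem_filter]
  exact (and_iff_right (Finset.mem_univ _)).symm

theorem theta_mul_pow_phi (u : (ZMod p)ˣ) {n : ℕ} {ζ : PadicAlgCl p} (hζ : ζ ^ p ^ n = 1) :
    (theta u * ζ) ^ ((p - 1) * p ^ n) = 1 := by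
  rw [mul_pow, pow_mul (theta u), theta_pow_card, one_pow, one_mul, mul_comm (p - 1), pow_mul, hζ, one_pow]

/-- A root of unity as a product. -/
theorem exists_decomposition {n : ℕ} {η : PadicAlgCl p} (hη : η ^ ((p - 1) * p ^ n) = 1) :
    ∃ u ζ, ζ ^ p ^ n = 1 ∧ theta u * ζ = η := by
  obtain ⟨u, hu⟩ := exists_theta_eq (p := p) (x := η ^ p ^ n) (by rw [← pow_mul, mul_comm, hη])
  refine ⟨u, η / theta u, ?_, mul_div_cancel₀ _ (theta_ne_zero u)⟩
  rw [div_pow, theta_pow_prime_pow, ← hu, div_self (theta_ne_zero u)]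

theorem levelRoots_succ_eq (hp2 : p ≠ 2) (k : ℕ) :
    levelRoots (PadicAlgCl p) p (k + 1) =
      (oddU p ×ˢ primitiveRoots (p ^ (k + 1)) (PadicAlgCl p)).image fun x => theta x.1 * x.2 := by
  have hpos : 0 < p ^ (k + 1) := pow_pos hp.out.pos _
  ext η
  rw [levelRoots, Finset.mem_filter, mem_oddRoots, Finset.mem_image]
  constructor
  · rintro ⟨⟨h1, h2⟩, h3⟩
    obtain ⟨u, ζ, hζ, rfl⟩ := exists_decomposition h1
    refine ⟨(u, ζ), Finset.mem_product.mpr ⟨(theta_mul_pow_half hp2 u hζ).mp h2, ?_⟩, rfl⟩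
    rw [mem_primitiveRoots hpos]
    have hne : ¬ ζ ^ p ^ k = 1 := fun e => h3 (theta_mul_pow_phi u e)
    exact IsPrimitiveRoot.iff_orderOf.mpr (orderOf_eq_prime_pow hne hζ)
  · rintro ⟨⟨u, ζ⟩, hx, rfl⟩
    obtain ⟨hu, hζ⟩ := Finset.mem_product.mp hx
    rw [mem_primitiveRoots hpos] at hζ
    refine ⟨⟨theta_mul_pow_phi u hζ.pow_eq_one, (theta_mul_pow_half hp2 u hζ.pow_eq_one).mpr hu⟩, fun e => ?_⟩
    rw [mul_pow, pow_mul (theta u), theta_pow_card, one_pow, one_mul, ← orderOf_dvd_iff_pow_eq_one,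
      ← hζ.eq_orderOf, pow_succ] at e
    rw [mul_comm (p - 1)] at e
    have h := (mul_dvd_mul_iff_left (pow_ne_zero k hp.out.ne_zero)).mp e
    have h' := Nat.le_of_dvd (Nat.sub_pos_of_lt hp.out.one_lt) h
    have := hp.out.one_lt
    omega

theorem levelRoots_zero_eq (hp2 : p ≠ 2) :
    levelRoots (PadicAlgCl p) p 0 = (oddU p).image theta := by
  ext η
  rw [levelRoots, mem_oddRoots, Finset.mem_image]
  constructor
  · rintro ⟨h1, h2⟩
    obtain ⟨u, ζ, hζ, rfl⟩ := exists_decomposition h1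
    rw [pow_zero, pow_one] at hζ
    subst hζ
    exact ⟨u, (theta_mul_pow_half hp2 u (one_pow _)).mp h2, (mul_one _).symm⟩
  · rintro ⟨u, hu, rfl⟩
    rw [← mul_one (theta u)]
    exact ⟨theta_mul_pow_phi u (one_pow _), (theta_mul_pow_half hp2 u (one_pow _)).mpr hu⟩

/-- The pole contributes `|p|`. -/
theorem prod_den (hp2 : p ≠ 2) (hg : IsGen p g) (k : ℕ) :
    ∏ u ∈ oddU p, ∏ ζ ∈ primitiveRoots (p ^ (k + 1)) (PadicAlgCl p), den hg u ‖ζ - 1‖ = (p : ℝ)⁻¹ := by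
  refine (Finset.prod_eq_single_of_mem (poleU hg) (poleU_mem hp2 hg)
    fun u _ hu => Finset.prod_eq_one fun ζ _ => if_neg hu).trans ?_
  haveI : NeZero (p ^ (k + 1)) := ⟨pow_ne_zero _ hp.out.ne_zero⟩
  obtain ⟨z, hz⟩ := HasEnoughRootsOfUnity.exists_primitiveRoot (PadicAlgCl p) (p ^ (k + 1))
  rw [← norm_sub_one_pow hz, show (p - 1) * p ^ k = (primitiveRoots (p ^ (k + 1)) (PadicAlgCl p)).card by
    rw [hz.card_primitiveRoots, Nat.totient_prime_pow_succ hp.out, mul_comm], ← Finset.prod_const]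
  refine Finset.prod_congr rfl fun ζ hζ => ?_
  refine Eq.trans (if_pos rfl) ?_
  have hζ' := (mem_primitiveRoots (NeZero.pos _)).mp hζ
  exact (pow_left_inj₀ (norm_nonneg _) (norm_nonneg _) (phi_pos k).ne').mp
    ((norm_sub_one_pow hζ').trans (norm_sub_one_pow hz).symm)

/-- The product at one level through the branches. -/
theorem norm_level_mul_eq (hp2 : p ≠ 2) (hg : IsGen p g) (k : ℕ) :
    ‖∏ η ∈ levelRoots (PadicAlgCl p) p (k + 1), bval p g (k + 1) η‖ * (p : ℝ)⁻¹ =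
      ∏ u ∈ oddU p, ∏ ζ ∈ primitiveRoots (p ^ (k + 1)) (PadicAlgCl p), ‖ev (ζ - 1) (sys hg u (k + 1))‖ := by
  haveI : NeZero (p ^ (k + 1)) := ⟨pow_ne_zero _ hp.out.ne_zero⟩
  have hinj : Set.InjOn (fun x : (ZMod p)ˣ × PadicAlgCl p => theta x.1 * x.2)
      ((oddU p ×ˢ primitiveRoots (p ^ (k + 1)) (PadicAlgCl p) : Finset _) : Set _) := by
    rintro ⟨u, ζ⟩ hx ⟨u', ζ'⟩ hx' e
    have h1 := ((mem_primitiveRoots (NeZero.pos _)).mp (Finset.mem_product.mp (Finset.mem_coe.mp hx)).2).pow_eq_one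
    have h2 := ((mem_primitiveRoots (NeZero.pos _)).mp (Finset.mem_product.mp (Finset.mem_coe.mp hx')).2).pow_eq_one
    have e' := congrArg (fun x => x ^ p ^ (k + 1)) e
    simp only [mul_pow, h1, h2, mul_one, theta_pow_prime_pow] at e'
    obtain rfl := theta_injective e'
    simpa [theta_ne_zero] using e
  rw [norm_prod, levelRoots_succ_eq hp2, Finset.prod_image hinj, Finset.prod_product]
  conv_lhs => arg 2; rw [← prod_den hp2 hg k]
  rw [← Finset.prod_mul_distrib]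
  refine Finset.prod_congr rfl fun u hu => ?_
  rw [← Finset.prod_mul_distrib]
  exact Finset.prod_congr rfl fun ζ hζ =>
    norm_bval_level hp2 hg hu ((mem_primitiveRoots (NeZero.pos _)).mp hζ)

/-- **The product at one level.** -/
theorem norm_level_mul (hp2 : p ≠ 2) (hg : IsGen p g) {μ lam : (ZMod p)ˣ → ℕ}
    (hD : ∀ u ∈ oddU p, Dominant (sys hg u) (μ u) (lam u)) {k : ℕ}
    (hk : ∀ u ∈ oddU p, lam u < (p - 1) * p ^ k) :
    ‖∏ η ∈ levelRoots (PadicAlgCl p) p (k + 1), bval p g (k + 1) η‖ * (p : ℝ)⁻¹ =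
      (p : ℝ)⁻¹ ^ ((∑ u ∈ oddU p, μ u) * ((p - 1) * p ^ k) + ∑ u ∈ oddU p, lam u) := by
  haveI : NeZero (p ^ (k + 1)) := ⟨pow_ne_zero _ hp.out.ne_zero⟩
  rw [norm_level_mul_eq hp2 hg, Finset.sum_mul, ← Finset.sum_add_distrib, ← Finset.prod_pow_eq_pow_sum]
  refine Finset.prod_congr rfl fun u hu => ?_
  have hterm : ∀ ζ ∈ primitiveRoots (p ^ (k + 1)) (PadicAlgCl p),
      ‖ev (ζ - 1) (sys hg u (k + 1))‖ = (p : ℝ)⁻¹ ^ μ u * ‖ζ - 1‖ ^ lam u := fun ζ hζ => by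
    have hζ' := (mem_primitiveRoots (NeZero.pos _)).mp hζ
    rw [norm_ev_eq (sys_compatible hg u) (hD u hu) (hk u hu)
      (by rw [add_sub_cancel]; exact hζ'.pow_eq_one) (norm_sub_one_pow hζ')]
  obtain ⟨z, hz⟩ := HasEnoughRootsOfUnity.exists_primitiveRoot (PadicAlgCl p) (p ^ (k + 1))
  rw [Finset.prod_congr rfl hterm, Finset.prod_congr rfl (g := fun _ => (p : ℝ)⁻¹ ^ μ u * ‖z - 1‖ ^ lam u)
    fun ζ hζ => by rw [(pow_left_inj₀ (norm_nonneg _) (norm_nonneg _) (phi_pos k).ne').mp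
      ((norm_sub_one_pow ((mem_primitiveRoots (NeZero.pos _)).mp hζ)).trans (norm_sub_one_pow hz).symm)],
    Finset.prod_const, hz.card_primitiveRoots, Nat.totient_prime_pow_succ hp.out, mul_comm (p ^ k),
    mul_pow, ← pow_mul, ← pow_mul, mul_comm (lam u), pow_mul ‖z - 1‖, norm_sub_one_pow hz, ← pow_add]

theorem norm_base_mul (hp2 : p ≠ 2) (hg : IsGen p g) :
    ‖∏ η ∈ levelRoots (PadicAlgCl p) p 0, bval p g 0 η‖ * (p : ℝ)⁻¹ =
      ∏ u ∈ oddU p, ‖(sys hg u 0).coeff 0‖ := by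
  rw [norm_prod, levelRoots_zero_eq hp2, Finset.prod_image fun u _ v _ e => theta_injective e,
    ← Finset.prod_congr rfl fun u hu => norm_bval_base hp2 hg hu, Finset.prod_mul_distrib]
  congr 1
  refine Eq.trans ?_ (Finset.prod_eq_single_of_mem (poleU hg) (poleU_mem hp2 hg) fun u _ hu => if_neg hu).symm
  exact (if_pos rfl).symm

/-- The size of `w` times the product up to level `n`. -/
def ratio (p g n : ℕ) [Fact p.Prime] : ℝ :=
  (p : ℝ)⁻¹ ^ (n + 1) * ‖∏ m ∈ Finset.range (n + 1), ∏ η ∈ levelRoots (PadicAlgCl p) p m, bval p g m η‖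

theorem ratio_succ (hp2 : p ≠ 2) (hg : IsGen p g) {μ lam : (ZMod p)ˣ → ℕ}
    (hD : ∀ u ∈ oddU p, Dominant (sys hg u) (μ u) (lam u)) {k : ℕ}
    (hk : ∀ u ∈ oddU p, lam u < (p - 1) * p ^ k) :
    ratio p g (k + 1) = ratio p g k *
      (p : ℝ)⁻¹ ^ ((∑ u ∈ oddU p, μ u) * ((p - 1) * p ^ k) + ∑ u ∈ oddU p, lam u) := by
  rw [ratio, ratio, Finset.prod_range_succ _ (k + 1), norm_mul, ← norm_level_mul hp2 hg hD hk, pow_succ]
  ring

theorem ratio_zero_eq (hp2 : p ≠ 2) (hg : IsGen p g) :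
    ratio p g 0 = ∏ u ∈ oddU p, ‖(sys hg u 0).coeff 0‖ := by
  rw [ratio, zero_add, Finset.prod_range_one, pow_one, mul_comm, norm_base_mul hp2 hg]

/-- The exponent of `p` in `h / h⁺`. -/
def minusExp (p : ℕ) (K : Type*) [Field K] [NumberField K] : ℤ :=
  (padicValNat p (classNumber K) : ℤ) - padicValNat p (classNumber (maximalRealSubfield K))

/-- **The size of `h / h⁺`.** -/
theorem zpow_minusExp (hp2 : p ≠ 2) (hg : IsGen p g) (n : ℕ) (K : Type*) [Field K] [NumberField K]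
    [IsCyclotomicExtension {p ^ (n + 1)} ℚ K] : (p : ℝ)⁻¹ ^ minusExp p K = ratio p g n := by
  haveI : NeZero (p ^ (n + 1)) := ⟨pow_ne_zero _ hp.out.ne_zero⟩
  haveI : IsCMField K := IsCyclotomicExtension.Rat.isCMField K (S := {p ^ (n + 1)}) ⟨_, rfl, lt_of_lt_of_le
    (show 2 < p by have := hp.out.two_le; omega) (Nat.le_self_pow (Nat.succ_ne_zero n) p)⟩
  have h := congrArg (fun x => ‖x‖) (classNumber_padic hp2 hg n K)
  have h2 : ‖(2 : PadicAlgCl p)‖ = 1 := by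
    simpa using norm_natCast_of_not_dvd (p := p) (k := 2)
      fun h => hp2 ((Nat.prime_dvd_prime_iff_eq hp.out Nat.prime_two).mp h)
  have hQ : ‖(IsCMField.indexRealUnits K : PadicAlgCl p)‖ = 1 := by
    rcases IsCMField.indexRealUnits_eq_one_or_two K with q | q <;> rw [q] <;> simp [h2]
  have hw : ‖(Units.torsionOrder K : PadicAlgCl p)‖ = (p : ℝ)⁻¹ ^ (n + 1) := by
    rw [IsCyclotomicExtension.Rat.torsionOrder_eq (n := p ^ (n + 1)) (K := K),
      if_neg (Nat.not_even_iff_odd.mpr (hp.out.odd_of_ne_two hp2).pow), Nat.cast_mul, norm_mul, Nat.cast_ofNat,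
      h2, one_mul, Nat.cast_pow, norm_pow, norm_p]
  simp only [norm_mul, hQ, hw, norm_natCast_eq_pow (classNumber_pos K).ne',
    norm_natCast_eq_pow (classNumber_pos (maximalRealSubfield K)).ne', mul_assoc] at h
  have hπ : (p : ℝ)⁻¹ ≠ 0 := inv_ne_zero (Nat.cast_ne_zero.mpr hp.out.ne_zero)
  rw [minusExp, zpow_sub₀ hπ, zpow_natCast, zpow_natCast, div_eq_iff (pow_ne_zero _ hπ), h, ratio]
  ring

/-- Two levels. -/
theorem minusExp_succ (hp2 : p ≠ 2) (hg : IsGen p g) {μ lam : (ZMod p)ˣ → ℕ}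
    (hD : ∀ u ∈ oddU p, Dominant (sys hg u) (μ u) (lam u)) {k : ℕ}
    (hk : ∀ u ∈ oddU p, lam u < (p - 1) * p ^ k) (K L : Type*) [Field K] [NumberField K] [Field L]
    [NumberField L] [IsCyclotomicExtension {p ^ (k + 1)} ℚ K] [IsCyclotomicExtension {p ^ (k + 1 + 1)} ℚ L] :
    minusExp p L = minusExp p K +
      (((∑ u ∈ oddU p, μ u) * ((p - 1) * p ^ k) + ∑ u ∈ oddU p, lam u : ℕ) : ℤ) := by
  have hπ : (p : ℝ)⁻¹ ≠ 0 := inv_ne_zero (Nat.cast_ne_zero.mpr hp.out.ne_zero)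
  refine zpow_right_injective₀ (inv_pos.mpr (Nat.cast_pos.mpr hp.out.pos))
    (inv_lt_one_of_one_lt₀ (show (1 : ℝ) < (p : ℝ) by exact_mod_cast hp.out.one_lt)).ne ?_
  show (p : ℝ)⁻¹ ^ minusExp p L = _
  rw [zpow_minusExp hp2 hg (k + 1), ratio_succ hp2 hg hD hk, ← zpow_minusExp hp2 hg k K, ← zpow_natCast,
    ← zpow_add₀ hπ]

/-- Fields of one level agree. -/
theorem minusExp_congr (hp2 : p ≠ 2) (hg : IsGen p g) (n : ℕ) (K L : Type*) [Field K] [NumberField K] [Field L]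
    [NumberField L] [IsCyclotomicExtension {p ^ (n + 1)} ℚ K] [IsCyclotomicExtension {p ^ (n + 1)} ℚ L] :
    minusExp p K = minusExp p L :=
  zpow_right_injective₀ (inv_pos.mpr (Nat.cast_pos.mpr hp.out.pos))
    (inv_lt_one_of_one_lt₀ (show (1 : ℝ) < (p : ℝ) by exact_mod_cast hp.out.one_lt)).ne
    ((zpow_minusExp hp2 hg n K).trans (zpow_minusExp hp2 hg n L).symm)

end FA.IwasawaMinus
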