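import Mathlib.NumberTheory.NumberField.Cyclotomic.Basic
import Mathlib.NumberTheory.NumberField.CMField

/-!
# The unit index at prime power conductors

Every unit of `ℚ(ζ_{p^(n+1)})`, `p` odd, is real up to a root of unity: the residue field at `ζ - 1` is `𝔽_p`, fixed
by conjugation, so `u / ū` is no generator of the roots of unity.
-/

set_option autoImplicit false
set_option linter.style.haveILetI false

noncomputable section

open NumberField

namespace FA.IwasawaMinus

set_option backward.isDefEq.respectTransparency false in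
/-- **The index is one.** -/
theorem indexRealUnits_primePower {p : ℕ} [hp : Fact p.Prime] (hp2 : p ≠ 2) (n : ℕ) (K : Type*) [Field K]
    [NumberField K] [IsCyclotomicExtension {p ^ (n + 1)} ℚ K] [IsCMField K] : IsCMField.indexRealUnits K = 1 := by
  refine (IsCMField.indexRealUnits_eq_one_or_two K).resolve_right fun h => ?_
  obtain ⟨u, hu⟩ := (IsCMField.indexRealUnits_eq_two_iff K).mp h
  haveI : NeZero (p ^ (n + 1)) := ⟨pow_ne_zero _ hp.out.ne_zero⟩
  set hζ := IsCyclotomicExtension.zeta_spec (p ^ (n + 1)) ℚ K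
  set ζ := hζ.toInteger
  set π := Ideal.Quotient.mk (Ideal.span {ζ - 1})
  set cc := IsCMField.ringOfIntegersComplexConj K
  obtain ⟨j, hj⟩ : ∃ j, cc ζ = ζ ^ j := by
    have hc : IsPrimitiveRoot (cc ζ) (p ^ (n + 1)) :=
      hζ.toInteger_isPrimitiveRoot.map_of_injective (f := cc.toAlgHom) cc.injective
    obtain ⟨j, -, hj⟩ := hζ.toInteger_isPrimitiveRoot.eq_pow_of_pow_eq_one hc.pow_eq_one
    exact ⟨j, hj.symm⟩
  have hπζ : π ζ = 1 := by
    rw [← map_one π, Ideal.Quotient.eq]
    exact Ideal.mem_span_singleton_self _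
  have hfix : ∀ x, π (cc x) = π x := by
    have hext : ((π.comp cc.toAlgHom.toRingHom).toIntAlgHom) = π.toIntAlgHom := by
      refine hζ.integralPowerBasis.algHom_ext ?_
      rw [IsPrimitiveRoot.integralPowerBasis_gen]
      show π (cc ζ) = π ζ
      rw [hj, map_pow, hπζ, one_pow]
    exact fun x => DFunLike.congr_fun hext x
  set w := IsCMField.unitsMulComplexConjInv K u
  have hw : π (((w : (𝓞 K)ˣ) : 𝓞 K)) = 1 := by
    rw [IsCMField.unitsMulComplexConjInv_apply, Units.val_mul, map_mul]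
    have e : π ((IsCMField.unitsComplexConj K u : (𝓞 K)ˣ) : 𝓞 K) = π (u : 𝓞 K) := hfix (u : 𝓞 K)
    rw [← e, ← map_mul, ← Units.val_mul, mul_inv_cancel, Units.val_one, map_one]
  have hneg : (-1 : (𝓞 K)ˣ) ∈ Units.torsion K := by
    rw [Units.torsion, CommGroup.mem_torsion]
    exact isOfFinOrder_iff_pow_eq_one.mpr ⟨2, two_pos, by simp⟩
  obtain ⟨k, hk⟩ := Subgroup.mem_zpowers_iff.mp (hu ▸ Subgroup.mem_top (⟨-1, hneg⟩ : Units.torsion K))
  have h1 : π (-1) = 1 := by
    have e : ((w : (𝓞 K)ˣ)) ^ k = -1 := by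
      have := congrArg (fun x : Units.torsion K => (x : (𝓞 K)ˣ)) hk
      simpa using this
    have hker : (w : (𝓞 K)ˣ) ∈ (Units.map π.toMonoidHom).ker := Units.ext hw
    have := Subgroup.zpow_mem _ hker k
    rw [e] at this
    exact congrArg Units.val this
  rw [map_neg, map_one, eq_comm, eq_neg_iff_add_eq_zero, ← map_one π, ← map_add, Ideal.Quotient.eq_zero_iff_mem,
    Ideal.mem_span_singleton] at h1
  obtain ⟨x, hx⟩ := h1
  have hN := congrArg (Algebra.norm ℤ) hx
  rw [map_mul, hζ.norm_toInteger_sub_one_of_prime_ne_two hp2, one_add_one_eq_two,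
    show (2 : 𝓞 K) = algebraMap ℤ (𝓞 K) 2 by simp, Algebra.norm_algebraMap] at hN
  have hdvd : (p : ℤ) ∣ (2 : ℤ) ^ Module.finrank ℤ (𝓞 K) := Dvd.intro _ hN.symm
  have h2 := (Nat.prime_iff_prime_int.mp hp.out).dvd_of_dvd_pow hdvd
  exact hp2 ((Nat.prime_dvd_prime_iff_eq hp.out Nat.prime_two).mp (Int.natCast_dvd_natCast.mp (by exact_mod_cast h2)))

end FA.IwasawaMinus
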