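import Fermat.Agent.IwasawaMinus.Transfer

/-!
# The branches

For each odd residue `u` mod `p` the values `-B_{1,χ}/2`, `χ(g) = θ(u) ζ`, are the values at `ζ - 1` of a compatible
system, up to a unit, or up to `ζ - 1` at the residue with `g u = 1`.
-/

set_option autoImplicit false
set_option linter.style.haveILetI false

noncomputable section

open Polynomial
open scoped Classical

namespace FA.IwasawaMinus

variable {p : ℕ} [hp : Fact p.Prime] {g : ℕ}

/-- The residues of the odd characters. -/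
def oddU (p : ℕ) [Fact p.Prime] : Finset (ZMod p)ˣ :=
  Finset.univ.filter fun u => (u : ZMod p) ^ ((p - 1) / 2) = -1

theorem generator_pow_eq {n k : ℕ} {z : ℤ} (h : (g : ZMod (p ^ (n + 1))) ^ k = (z : ZMod _)) :
    (g : ZMod p) ^ k = (z : ZMod p) := by
  have h' := congrArg (ZMod.castHom (dvd_pow_self p (Nat.succ_ne_zero n)) (ZMod p)) h
  rwa [map_pow, map_natCast, map_intCast] at h'

theorem orderOf_gen_mod (hg : IsGen p g) : orderOf (g : ZMod p) = p - 1 := by
  have h := hg.2 0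
  rw [pow_zero, mul_one, zero_add, pow_one] at h
  exact h

theorem gen_ne_zero (hg : IsGen p g) : (g : ZMod p) ≠ 0 := fun e => by
  have h := orderOf_gen_mod hg
  rw [e, orderOf_eq_zero (by
    rintro h
    obtain ⟨k, hk, hk'⟩ := isOfFinOrder_iff_pow_eq_one.mp h
    rw [zero_pow hk.ne'] at hk'
    exact zero_ne_one hk')] at h
  have := hp.out.two_le
  omega

/-- The residue of the pole. -/
def poleU (hg : IsGen p g) : (ZMod p)ˣ := (Units.mk0 (g : ZMod p) (gen_ne_zero hg))⁻¹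

theorem eq_poleU_iff (hg : IsGen p g) (u : (ZMod p)ˣ) : u = poleU hg ↔ (g : ZMod p) * u = 1 := by
  rw [poleU, eq_inv_iff_mul_eq_one, Units.ext_iff, Units.val_mul, Units.val_mk0, Units.val_one, mul_comm]

theorem poleU_mem (hp2 : p ≠ 2) (hg : IsGen p g) : poleU hg ∈ oddU p := by
  refine Finset.mem_filter.mpr ⟨Finset.mem_univ _, ?_⟩
  have h := pow_half_eq_neg_one hp2 hg 0
  rw [pow_zero, mul_one] at h
  have h' := generator_pow_eq (z := -1) (h.trans (by simp))
  rw [poleU, Units.val_inv_eq_inv_val, Units.val_mk0, inv_pow, h']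
  simp

/-- The regulariser. -/
def cOf (hg : IsGen p g) (u : (ZMod p)ˣ) : ℕ := if u = poleU hg then p + 1 else g

theorem not_dvd_cOf (hg : IsGen p g) (u : (ZMod p)ˣ) : ¬ p ∣ cOf hg u := by
  rw [cOf]
  split_ifs
  · intro h
    exact hp.out.ne_one (Nat.dvd_one.mp ((Nat.dvd_add_right dvd_rfl).mp h))
  · exact fun h => gen_ne_zero hg ((ZMod.natCast_eq_zero_iff _ _).mpr h)

/-- The compatible system of a branch. -/
def sys (hg : IsGen p g) (u : (ZMod p)ˣ) (n : ℕ) : ℤ_[p][X] :=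
  ((poly p g (cOf hg u) n).map (Int.castRingHom ℤ_[p])).comp (C (teich u) * (1 + X))

theorem sys_compatible (hg : IsGen p g) (u : (ZMod p)ˣ) : Compatible (sys hg u) := fun n => by
  obtain ⟨q, hq⟩ := poly_compatible hg (not_dvd_cOf hg u) n
  have h := congrArg (fun f : ℤ[X] => (f.map (Int.castRingHom ℤ_[p])).comp (C (teich u) * (1 + X))) hq
  simp only [Polynomial.map_sub, Polynomial.map_mul, Polynomial.map_pow, map_X, Polynomial.map_one, sub_comp,
    mul_comp, pow_comp, X_comp, one_comp] at h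
  rw [sys, sys, h]
  refine Dvd.dvd.mul_right ?_ _
  rw [mul_pow, ← map_pow, pow_mul (teich u), teich_pow_card, one_pow, map_one, one_mul, omega, mul_comm (p - 1),
    pow_mul]
  exact sub_one_dvd_pow_sub_one _ _

theorem ev_sys (hg : IsGen p g) (u : (ZMod p)ˣ) (n : ℕ) (x : PadicAlgCl p) :
    ev x (sys hg u n) = aeval (theta u * (1 + x)) (poly p g (cOf hg u) n) := by
  rw [ev, sys, eval₂_comp, eval₂_map, aeval_def, eval₂_mul, eval₂_C, eval₂_add, eval₂_one, eval₂_X, ← theta]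
  exact congrArg (fun f : ℤ →+* PadicAlgCl p => eval₂ f _ _) (RingHom.ext_int _ _)

/-- **The value of a branch**, with `den` the size of the regularising factor. -/
theorem norm_bval_mul (hp2 : p ≠ 2) (hg : IsGen p g) (u : (ZMod p)ˣ) {n : ℕ} {ζ : PadicAlgCl p}
    (hζ : ζ ^ p ^ n = 1) (hne : theta u * ζ ≠ 1) {s : ℕ}
    (hs : (cOf hg u : ZMod (p ^ (n + 1))) = (g : ZMod (p ^ (n + 1))) ^ s) :
    ‖bval p g n (theta u * ζ)‖ * ‖(cOf hg u : PadicAlgCl p) * (theta u * ζ) ^ s - 1‖ =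
      ‖ev (ζ - 1) (sys hg u n)‖ := by
  set η := theta u * ζ with hη
  have hηφ : η ^ ((p - 1) * p ^ n) = 1 := by
    rw [hη, mul_pow, pow_mul (theta u), theta_pow_card, one_pow, one_mul, mul_comm (p - 1), pow_mul, hζ, one_pow]
  have hval := poly_value hg hηφ hne hs
  have hη1 : ‖η‖ = 1 := norm_eq_one_of_pow hηφ (phi_pos n).ne'
  have h2 : ‖(2 : PadicAlgCl p)‖ = 1 := by
    simpa using norm_natCast_of_not_dvd (p := p) (k := 2)
      fun h => hp2 ((Nat.prime_dvd_prime_iff_eq hp.out Nat.prime_two).mp h)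
  have hN : ((p ^ (n + 1) : ℕ) : PadicAlgCl p) ≠ 0 := Nat.cast_ne_zero.mpr (pow_ne_zero _ hp.out.ne_zero)
  have e : bval p g n η * ((cOf hg u : PadicAlgCl p) * η ^ s - 1) * (-(2 * 2)) =
      η ^ s * aeval η (poly p g (cOf hg u) n) := by
    clear_value η
    refine mul_left_cancel₀ hN ?_
    rw [bval]
    field_simp
    simp only [aeval_def, algebraMap_int_eq] at hval ⊢
    rw [RingHom.ext_int (algebraMap ℤ (PadicAlgCl p)) (Int.castRingHom _)]
    linear_combination -hval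
  have e' := congrArg (fun x => ‖x‖) e
  simp only [norm_mul, norm_neg, norm_pow, h2, hη1, one_pow, mul_one, one_mul] at e'
  rw [e', ev_sys, hη, add_sub_cancel]

theorem exists_pow_gen (hg : IsGen p g) {c : ℕ} (hc : ¬ p ∣ c) (n : ℕ) :
    ∃ s, (c : ZMod (p ^ (n + 1))) = (g : ZMod (p ^ (n + 1))) ^ s := by
  have hu : IsUnit (c : ZMod (p ^ (n + 1))) := by
    rw [ZMod.isUnit_iff_coprime]
    exact Nat.Coprime.pow_right _ (Nat.coprime_comm.mp (hp.out.coprime_iff_not_dvd.mpr hc))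
  obtain ⟨k, -, hk⟩ := exists_pow_genUnit hg n hu.unit
  refine ⟨k, ?_⟩
  rw [← genUnit_val hg n, ← Units.val_pow_eq_pow_val, hk, IsUnit.unit_spec]

theorem ne_one_of_odd (hp2 : p ≠ 2) {u : (ZMod p)ˣ} (hu : u ∈ oddU p) {n : ℕ} {ζ : PadicAlgCl p}
    (hζ : ζ ^ p ^ n = 1) : theta u * ζ ≠ 1 := fun h => by
  have h1 : theta u = 1 := by
    have h' := congrArg (fun x => x ^ p ^ n) h
    simp only [mul_pow, hζ, mul_one, one_pow, theta_pow_prime_pow] at h'
    exact h'
  have h2 := (theta_pow_half hp2 u).mpr (Finset.mem_filter.mp hu).2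
  rw [h1, one_pow] at h2
  exact two_ne_zero (α := PadicAlgCl p) (by linear_combination h2)

/-- Away from the pole the regularising factor is a unit. -/
theorem norm_den_regular (hg : IsGen p g) {u : (ZMod p)ˣ} (hu : u ≠ poleU hg) {ζ : PadicAlgCl p}
    (hζ : ‖ζ - 1‖ < 1) : ‖(g : PadicAlgCl p) * (theta u * ζ) - 1‖ = 1 := by
  have h1 : ‖(g : PadicAlgCl p) * theta u - 1‖ = 1 := by
    have e : (g : PadicAlgCl p) * theta u - 1 = emb ((g : ℤ_[p]) * teich u - 1) := by
      rw [map_sub, map_mul, map_natCast, map_one, theta]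
    rw [e, norm_emb]
    refine norm_eq_one_of_toZMod_ne ?_
    rw [map_sub, map_mul, map_natCast, map_one, toZMod_teich, sub_ne_zero]
    exact fun h => hu ((eq_poleU_iff hg u).mpr h)
  have h2 : ‖(g : PadicAlgCl p) * theta u * (ζ - 1)‖ < 1 := by
    rw [norm_mul, norm_mul, norm_natCast_of_not_dvd fun h => gen_ne_zero hg ((ZMod.natCast_eq_zero_iff _ _).mpr h),
      norm_eq_one_of_pow (theta_pow_card u) (Nat.sub_pos_of_lt hp.out.one_lt).ne', one_mul, one_mul]
    exact hζ
  rw [show (g : PadicAlgCl p) * (theta u * ζ) - 1 = ((g : PadicAlgCl p) * theta u - 1) +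
    (g : PadicAlgCl p) * theta u * (ζ - 1) by ring,
    IsUltrametricDist.norm_add_eq_max_of_norm_ne_norm (by rw [h1]; exact h2.ne'), h1, max_eq_left h2.le]

/-- The factor of the branch at level `p^(k+2)`, with `ρ = ‖ζ - 1‖`. -/
def den (hg : IsGen p g) (u : (ZMod p)ˣ) (ρ : ℝ) : ℝ := if u = poleU hg then ρ else 1

theorem norm_bval_level (hp2 : p ≠ 2) (hg : IsGen p g) {u : (ZMod p)ˣ} (hu : u ∈ oddU p) {k : ℕ}
    {ζ : PadicAlgCl p} (hζ : IsPrimitiveRoot ζ (p ^ (k + 1))) :
    ‖bval p g (k + 1) (theta u * ζ)‖ * den hg u ‖ζ - 1‖ = ‖ev (ζ - 1) (sys hg u (k + 1))‖ := by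
  have hne := ne_one_of_odd hp2 hu hζ.pow_eq_one
  obtain ⟨s, hs⟩ := exists_pow_gen hg (not_dvd_cOf hg u) (k + 1)
  by_cases hpole : u = poleU hg
  · rw [← norm_bval_mul hp2 hg u hζ.pow_eq_one hne hs, den, if_pos hpole]
    congr 1
    have hc : cOf hg u = p + 1 := by rw [cOf, if_pos hpole]
    rw [hc] at hs ⊢
    have hs1 : p - 1 ∣ s := by
      have h := generator_pow_eq (z := ((p + 1 : ℕ) : ℤ)) (hs.symm.trans (by simp))
      rw [← orderOf_gen_mod hg, orderOf_dvd_iff_pow_eq_one, h]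
      simp
    have hord : orderOf ((g : ZMod (p ^ (k + 1 + 1))) ^ s) = p ^ (k + 1) := by
      rw [← hs]
      have h := ZMod.orderOf_one_add_prime hp.out hp2 (k + 1)
      rwa [show ((p + 1 : ℕ) : ZMod (p ^ (k + 1 + 1))) = 1 + p by push_cast; ring]
    have hco : p.Coprime s := by
      refine hp.out.coprime_iff_not_dvd.mpr fun hps => ?_
      have hdvd : (p - 1) * p ∣ s := by
        refine Nat.Coprime.mul_dvd_of_dvd_of_dvd ?_ hs1 hps
        rw [Nat.coprime_comm, hp.out.coprime_iff_not_dvd]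
        intro h
        have := Nat.le_of_dvd (Nat.sub_pos_of_lt hp.out.one_lt) h
        have := hp.out.one_lt
        omega
      have h : ((g : ZMod (p ^ (k + 1 + 1))) ^ s) ^ p ^ k = 1 := by
        rw [← pow_mul, ← orderOf_dvd_iff_pow_eq_one, hg.2 (k + 1), pow_succ, mul_comm (p ^ k) p, ← mul_assoc]
        exact mul_dvd_mul_right hdvd _
      rw [← orderOf_dvd_iff_pow_eq_one, hord, Nat.pow_dvd_pow_iff_le_right hp.out.one_lt] at h
      omega
    obtain ⟨t, rfl⟩ := hs1
    rw [mul_pow, pow_mul (theta u), theta_pow_card, one_pow, one_mul]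
    set ζ' := ζ ^ ((p - 1) * t) with hζ'
    have hζ'p : IsPrimitiveRoot ζ' (p ^ (k + 1)) := hζ.pow_of_coprime _ (hco.symm.pow_right _)
    have h1 := norm_sub_one_pow hζ'p
    have h2 := norm_sub_one_pow hζ
    have hρ : ‖ζ' - 1‖ = ‖ζ - 1‖ :=
      (pow_left_inj₀ (norm_nonneg _) (norm_nonneg _) (phi_pos k).ne').mp (h1.trans h2.symm)
    have hsmall : ‖(p : PadicAlgCl p) * ζ'‖ < ‖ζ' - 1‖ := by
      rw [norm_mul, norm_p, norm_eq_one_of_pow hζ'p.pow_eq_one (pow_ne_zero _ hp.out.ne_zero), mul_one, ← h1]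
      have hlt := norm_sub_one_lt hζ'p
      refine pow_lt_self_of_lt_one₀ ((norm_nonneg _).lt_of_ne fun e => ?_) hlt ?_
      · rw [← e, zero_pow (phi_pos k).ne', eq_comm, inv_eq_zero, Nat.cast_eq_zero] at h1
        exact hp.out.ne_zero h1
      · have h3 : 2 ≤ p - 1 := by
          have := hp.out.two_le
          omega
        calc 1 < 2 * 1 := by norm_num
          _ ≤ (p - 1) * p ^ k := Nat.mul_le_mul h3 (pow_pos hp.out.pos k)
    rw [← hρ, show ((p + 1 : ℕ) : PadicAlgCl p) * ζ' - 1 = (ζ' - 1) + (p : PadicAlgCl p) * ζ' by push_cast; ring,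
      IsUltrametricDist.norm_add_eq_max_of_norm_ne_norm hsmall.ne', max_eq_left hsmall.le]
  · have hc : cOf hg u = g := by rw [cOf, if_neg hpole]
    rw [← norm_bval_mul hp2 hg u hζ.pow_eq_one hne (s := 1) (by rw [hc, pow_one]), hc, pow_one,
      norm_den_regular hg hpole (norm_sub_one_lt hζ), den, if_neg hpole]

theorem norm_bval_base (hp2 : p ≠ 2) (hg : IsGen p g) {u : (ZMod p)ˣ} (hu : u ∈ oddU p) :
    ‖bval p g 0 (theta u)‖ * den hg u (p : ℝ)⁻¹ = ‖(sys hg u 0).coeff 0‖ := by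
  have hev : ev (0 : PadicAlgCl p) (sys hg u 0) = emb ((sys hg u 0).coeff 0) := eval₂_at_zero ..
  have hne := ne_one_of_odd hp2 hu (n := 0) (one_pow _ : (1 : PadicAlgCl p) ^ p ^ 0 = 1)
  have h := fun s => norm_bval_mul hp2 hg u (n := 0) (one_pow _ : (1 : PadicAlgCl p) ^ p ^ 0 = 1) hne (s := s)
  rw [← norm_emb, ← hev, den]
  simp only [sub_self, mul_one] at h
  split_ifs with hpole
  · have hc : cOf hg u = p + 1 := by rw [cOf, if_pos hpole]
    have h' := h 0 (by
      rw [hc, pow_zero]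
      rw [show p + 1 = p ^ (0 + 1) + 1 by ring, Nat.cast_add, ZMod.natCast_self, Nat.cast_one]
      exact zero_add _)
    rwa [hc, pow_zero, mul_one, Nat.cast_add, Nat.cast_one, add_sub_cancel_right, norm_p] at h'
  · have hc : cOf hg u = g := by rw [cOf, if_neg hpole]
    have h' := h 1 (by rw [hc]; exact (pow_one _).symm)
    have h1 := norm_den_regular hg hpole (ζ := 1) (by simp)
    rw [mul_one] at h1
    rwa [hc, pow_one, h1] at h'

/-- **The invariants of a branch exist.** -/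
theorem exists_dominant_sys (hp2 : p ≠ 2) (hg : IsGen p g) {u : (ZMod p)ˣ} (hu : u ∈ oddU p) :
    ∃ μ lam, Dominant (sys hg u) μ lam := by
  haveI : NeZero (p ^ (0 + 1)) := ⟨pow_ne_zero _ hp.out.ne_zero⟩
  obtain ⟨ζ, hζ⟩ := HasEnoughRootsOfUnity.exists_primitiveRoot (PadicAlgCl p) (p ^ (0 + 1))
  refine exists_dominant (sys_compatible hg u) (exists_witness (sys_compatible hg u) (n₀ := 0 + 1) (x := ζ - 1)
    (by rw [add_sub_cancel]; exact hζ.pow_eq_one) (norm_sub_one_lt hζ) fun h0 => ?_)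
  have h := norm_bval_level hp2 hg hu hζ
  rw [h0, norm_zero, mul_eq_zero] at h
  rcases h with h | h
  · refine bval_ne_zero hp2 hg ?_ (norm_eq_zero.mp h)
    refine Finset.mem_filter.mpr ⟨mem_oddRoots.mpr ⟨?_, ?_⟩, ?_⟩
    · rw [mul_pow, pow_mul (theta u), theta_pow_card, one_pow, one_mul, mul_comm (p - 1), pow_mul, hζ.pow_eq_one,
        one_pow]
    · rw [Nat.mul_div_right_comm ((hp.out.odd_of_ne_two hp2).tsub_odd odd_one).two_dvd, mul_pow, pow_mul (theta u),
        (theta_pow_half hp2 u).mpr (Finset.mem_filter.mp hu).2, (hp.out.odd_of_ne_two hp2).pow.neg_one_pow,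
        mul_comm ((p - 1) / 2), pow_mul, hζ.pow_eq_one, one_pow, mul_one]
    · rw [pow_zero, mul_one, mul_pow, theta_pow_card, one_mul]
      refine hζ.pow_ne_one_of_pos_of_lt (Nat.sub_pos_of_lt hp.out.one_lt).ne' ?_
      rw [zero_add, pow_one]
      have := hp.out.pos
      omega
  · rw [den] at h
    split_ifs at h
    · exact hζ.sub_one_ne_zero (Nat.one_lt_pow (Nat.succ_ne_zero 0) hp.out.one_lt) (norm_eq_zero.mp h)
    · exact one_ne_zero h

end FA.IwasawaMinus
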