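import Mathlib.Analysis.SpecialFunctions.Complex.CircleAddChar
import Mathlib.Analysis.SpecialFunctions.Trigonometric.Bounds
import Mathlib.NumberTheory.LegendreSymbol.AddCharacter

/-!
# Points of a progression near a target on the torus

If the combinations `P ∑ k_j e_j`, `0 ≤ k_j < K`, are distinct modulo `N`, the points `(1 + P b) e / N` come within
`ε` of every target as soon as `r < 4 ε² K` (Parseval for products of geometric sums).
-/

set_option autoImplicit false
set_option linter.style.haveILetI false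

noncomputable section

open scoped ComplexConjugate

namespace FA.IwasawaMinus

variable {N : ℕ} [NeZero N]

theorem map_sum_stdAddChar {κ : Type*} (s : Finset κ) (f : κ → ZMod N) :
    ZMod.stdAddChar (∑ j ∈ s, f j) = ∏ j ∈ s, (ZMod.stdAddChar (f j) : ℂ) := by
  classical
  induction s using Finset.induction_on with
  | empty => simp
  | insert a s ha ih => rw [Finset.sum_insert ha, Finset.prod_insert ha, AddChar.map_add_eq_mul, ih]

/-- Parseval. -/
theorem sum_normSq_combination {κ : Type*} [Fintype κ] (C : κ → ℂ) (m : κ → ZMod N) (hm : Function.Injective m) :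
    ∑ b : ZMod N, ‖∑ k, C k * ZMod.stdAddChar (b * m k)‖ ^ 2 = N * ∑ k, ‖C k‖ ^ 2 := by
  have h : ∑ b : ZMod N, (∑ k, C k * ZMod.stdAddChar (b * m k)) * conj (∑ k, C k * ZMod.stdAddChar (b * m k)) =
      (N : ℂ) * ∑ k, C k * conj (C k) := by
    simp only [map_sum, map_mul, ← AddChar.map_neg_eq_conj, Finset.sum_mul_sum]
    rw [Finset.sum_comm, Finset.mul_sum]
    refine Finset.sum_congr rfl fun k _ => ?_
    rw [Finset.sum_comm, Finset.sum_eq_single k]
    · simp only [mul_mul_mul_comm (C k), ← AddChar.map_add_eq_mul, add_neg_cancel, AddChar.map_zero_eq_one, mul_one,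
        Finset.sum_const, Finset.card_univ, ZMod.card, nsmul_eq_mul]
    · intro l _ hl
      rw [Finset.sum_congr rfl fun b _ => show C k * ZMod.stdAddChar (b * m k) *
          (conj (C l) * ZMod.stdAddChar (-(b * m l))) =
          C k * conj (C l) * ZMod.stdAddChar (b * (m k - m l)) by
        rw [mul_mul_mul_comm, ← AddChar.map_add_eq_mul, ← sub_eq_add_neg, mul_sub],
        ← Finset.mul_sum, AddChar.sum_mulShift _ (ZMod.isPrimitive_stdAddChar N),
        if_neg (sub_ne_zero.mpr fun e => hl (hm e).symm), Nat.cast_zero, mul_zero]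
    · exact fun h => absurd (Finset.mem_univ k) h
  simp only [Complex.mul_conj'] at h
  exact_mod_cast h

theorem sum_normSq_prod {ι : Type*} [Fintype ι] {K : ℕ} (e : ι → ZMod N) (P : ZMod N) (z : ι → ℂ)
    (hz : ∀ j, ‖z j‖ = 1) (hsep : Function.Injective fun k : ι → Fin K => P * ∑ j, (k j : ℕ) • e j) :
    ∑ b : ZMod N, ‖∏ j, ∑ k : Fin K, (z j * ZMod.stdAddChar ((1 + P * b) * e j)) ^ (k : ℕ)‖ ^ 2 =
      N * (K : ℝ) ^ Fintype.card ι := by
  classical
  set C : (ι → Fin K) → ℂ := fun k =>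
    (∏ j, z j ^ (k j : ℕ)) * ZMod.stdAddChar (∑ j, (k j : ℕ) • e j) with hC
  have hexp : ∀ b : ZMod N, (∏ j, ∑ k : Fin K, (z j * ZMod.stdAddChar ((1 + P * b) * e j)) ^ (k : ℕ)) =
      ∑ k : ι → Fin K, C k * ZMod.stdAddChar (b * (P * ∑ j, (k j : ℕ) • e j)) := fun b => by
    rw [Finset.prod_univ_sum, Fintype.piFinset_univ]
    refine Finset.sum_congr rfl fun k _ => ?_
    rw [hC]
    simp only [mul_pow, Finset.prod_mul_distrib, mul_assoc, ← AddChar.map_add_eq_mul]
    congr 1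
    rw [Finset.prod_congr rfl fun j _ => (AddChar.map_nsmul_eq_pow _ _ _).symm, ← map_sum_stdAddChar]
    congr 1
    rw [Finset.mul_sum, Finset.mul_sum, ← Finset.sum_add_distrib]
    refine Finset.sum_congr rfl fun j _ => ?_
    simp only [nsmul_eq_mul]
    ring
  simp only [hexp]
  rw [sum_normSq_combination C _ hsep]
  have h1 : ∀ k, ‖C k‖ = 1 := fun k => by
    rw [hC, norm_mul, norm_prod, AddChar.norm_apply, mul_one]
    exact Finset.prod_eq_one fun j _ => by rw [norm_pow, hz, one_pow]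
  simp [h1]

/-- Jordan's bound on the circle. -/
theorem exists_int_near (t : ℝ) :
    ∃ m : ℤ, 4 * |t + m| ≤ ‖Complex.exp ((2 * Real.pi * t : ℝ) * Complex.I) - 1‖ := by
  refine ⟨-round t, ?_⟩
  have hexp : Complex.exp ((2 * Real.pi * t : ℝ) * Complex.I) =
      Complex.exp (Complex.I * (2 * Real.pi * (t + (-round t : ℤ)) : ℝ)) := by
    refine Complex.exp_eq_exp_iff_exists_int.mpr ⟨round t, ?_⟩
    push_cast
    ring
  rw [hexp, Complex.norm_exp_I_mul_ofReal_sub_one, Real.norm_eq_abs, abs_mul, abs_two,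
    show 2 * Real.pi * (t + (-round t : ℤ)) / 2 = Real.pi * (t + (-round t : ℤ)) by ring]
  have habs : |t + ((-round t : ℤ) : ℝ)| ≤ 1 / 2 := by
    push_cast
    rw [← sub_eq_add_neg]
    exact abs_sub_round t
  have h := Real.mul_abs_le_abs_sin (x := Real.pi * (t + (-round t : ℤ)))
    (by rw [abs_mul, abs_of_pos Real.pi_pos]; nlinarith [Real.pi_pos])
  rw [abs_mul, abs_of_pos Real.pi_pos, ← mul_assoc, div_mul_cancel₀ _ Real.pi_ne_zero] at h
  linarith

/-- **A point near the target.** -/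
theorem exists_near {r K : ℕ} (e : Fin r → ZMod N) (P : ZMod N) (a : Fin r → ℝ) {ε : ℝ} (hε : 0 < ε)
    (hK : (r : ℝ) < 4 * ε ^ 2 * K)
    (hsep : Function.Injective fun k : Fin r → Fin K => P * ∑ j, (k j : ℕ) • e j) :
    ∃ b : ZMod N, ∀ j, ∃ m : ℤ, |((((1 + P * b) * e j).val : ℝ) / N + m) - a j| < ε := by
  classical
  have hK0 : 0 < K := Nat.pos_of_ne_zero fun h => by
    rw [h, Nat.cast_zero, mul_zero] at hK
    exact hK.not_ge (Nat.cast_nonneg r)
  set z : Fin r → ℂ := fun j => Complex.exp ((2 * Real.pi * (-a j) : ℝ) * Complex.I) with hzdef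
  have hz : ∀ j, ‖z j‖ = 1 := fun j => Complex.norm_exp_ofReal_mul_I _
  by_contra! hfar
  set w : ZMod N → Fin r → ℂ := fun b j => z j * ZMod.stdAddChar ((1 + P * b) * e j) with hw
  have hnorm : ∀ b j, ‖w b j‖ = 1 := fun b j => by rw [hw, norm_mul, hz, AddChar.norm_apply, one_mul]
  have hdist : ∀ b, ∃ j, 4 * ε ≤ ‖w b j - 1‖ := fun b => by
    obtain ⟨j, hj⟩ := hfar b
    refine ⟨j, ?_⟩
    have e1 : w b j = Complex.exp ((2 * Real.pi * ((((1 + P * b) * e j).val : ℝ) / N - a j) : ℝ) * Complex.I) := by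
      have h : ZMod.stdAddChar ((1 + P * b) * e j) =
          Complex.exp (2 * Real.pi * Complex.I * (((1 + P * b) * e j).val : ℂ) / N) := by
        conv_lhs => rw [← ZMod.natCast_zmod_val ((1 + P * b) * e j)]
        exact_mod_cast ZMod.stdAddChar_coe (N := N) (((1 + P * b) * e j).val : ℤ)
      rw [hw, hzdef]
      simp only
      rw [h, ← Complex.exp_add]
      congr 1
      push_cast
      ring
    obtain ⟨m, hm⟩ := exists_int_near ((((1 + P * b) * e j).val : ℝ) / N - a j)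
    rw [← e1, sub_add_eq_add_sub] at hm
    linarith [hj m]
  have hgeom : ∀ b j, 4 * ε ≤ ‖w b j - 1‖ → ‖∑ k : Fin K, w b j ^ (k : ℕ)‖ ≤ (2 * ε)⁻¹ := fun b j h => by
    have hne : w b j - 1 ≠ 0 := norm_pos_iff.mp (lt_of_lt_of_le (by positivity) h)
    rw [Fin.sum_univ_eq_sum_range (fun k => w b j ^ k), geom_sum_eq (sub_ne_zero.mp hne), norm_div]
    have h2 : ‖w b j ^ K - 1‖ ≤ 2 := by
      refine (norm_sub_le _ _).trans ?_
      rw [norm_pow, hnorm, one_pow, norm_one]
      norm_num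
    calc ‖w b j ^ K - 1‖ / ‖w b j - 1‖ ≤ 2 / (4 * ε) := div_le_div₀ zero_le_two h2 (by positivity) h
      _ = (2 * ε)⁻¹ := by field_simp; ring
  have hup : ∑ b : ZMod N, ‖∏ j, ∑ k : Fin K, w b j ^ (k : ℕ)‖ ^ 2 ≤
      ∑ b : ZMod N, ∑ j, (2 * ε)⁻¹ ^ 2 * ‖∏ i : {i // i ≠ j}, ∑ k : Fin K, w b i.1 ^ (k : ℕ)‖ ^ 2 :=
    Finset.sum_le_sum fun b _ => by
      obtain ⟨j, hj⟩ := hdist b
      refine le_trans ?_ (Finset.single_le_sum (f := fun j => (2 * ε)⁻¹ ^ 2 *
        ‖∏ i : {i // i ≠ j}, ∑ k : Fin K, w b i.1 ^ (k : ℕ)‖ ^ 2) (fun i _ => by positivity) (Finset.mem_univ j))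
      rw [Fintype.prod_eq_mul_prod_subtype_ne (fun i => ∑ k : Fin K, w b i ^ (k : ℕ)) j, norm_mul, mul_pow]
      exact mul_le_mul_of_nonneg_right (pow_le_pow_left₀ (norm_nonneg _) (hgeom b j hj) 2) (by positivity)
  have hall := sum_normSq_prod (N := N) e P z hz hsep
  have hsub : ∀ j, ∑ b : ZMod N, ‖∏ i : {i // i ≠ j}, ∑ k : Fin K, w b i.1 ^ (k : ℕ)‖ ^ 2 =
      N * (K : ℝ) ^ (r - 1) := fun j => by
    have h := sum_normSq_prod (N := N) (fun i : {i // i ≠ j} => e i.1) P (fun i => z i.1) (fun i => hz i.1)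
      (K := K) ?_
    · simpa [Fintype.card_subtype_compl] using h
    intro k k' hkk
    let ext : ({i // i ≠ j} → Fin K) → Fin r → Fin K := fun f i => if h : i = j then ⟨0, hK0⟩ else f ⟨i, h⟩
    have hext : ∀ f, ∑ i, (ext f i : ℕ) • e i = ∑ i : {i // i ≠ j}, (f i : ℕ) • e i.1 := fun f => by
      rw [Fintype.sum_eq_add_sum_subtype_ne _ j]
      simp only [ext, dif_pos, zero_smul, zero_add]
      exact Finset.sum_congr rfl fun i _ => by rw [dif_neg i.2]
    have he := hsep (a₁ := ext k) (a₂ := ext k') (by simp only [hext]; exact hkk)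
    funext i
    simpa [ext, i.2] using congrFun he i.1
  rw [hall, Finset.sum_comm, Fintype.card_fin] at hup
  simp only [← Finset.mul_sum, hsub, Finset.sum_const, Finset.card_univ, Fintype.card_fin, nsmul_eq_mul] at hup
  rcases r with _ | r
  · obtain ⟨j, -⟩ := hdist 0
    exact j.elim0
  have hN : (0 : ℝ) < N := Nat.cast_pos.mpr (NeZero.pos N)
  have hKp : (0 : ℝ) < (K : ℝ) ^ r := pow_pos (Nat.cast_pos.mpr hK0) _
  rw [Nat.add_sub_cancel, pow_succ] at hup
  have h2 : (N : ℝ) * (K : ℝ) ^ r * K ≤ (N : ℝ) * (K : ℝ) ^ r * (((r + 1 : ℕ) : ℝ) * (2 * ε)⁻¹ ^ 2) := by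
    linarith
  have h3 := le_of_mul_le_mul_left h2 (mul_pos hN hKp)
  rw [inv_pow, ← div_eq_mul_inv, le_div_iff₀ (by positivity)] at h3
  nlinarith

end FA.IwasawaMinus
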