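import Fermat.Agent.IwasawaMinus.Characters
import Fermat.Agent.IwasawaMinus.Equidistribution
import Mathlib.NumberTheory.Transcendental.Liouville.LiouvilleNumber
import Mathlib.RingTheory.Polynomial.Cyclotomic.Roots

/-!
# A jump of the branch coefficients

The integers `val(β ζ^i)`, `ζ` the roots of unity of order `p - 1` modulo `p^(n+1)`, are integer combinations of
`r = φ(p - 1)` free coordinates. Across `val β / p^(n+1) = 1/c` only the terms of `1` and `-1` jump.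
-/

set_option autoImplicit false
set_option linter.style.haveILetI false

noncomputable section

open Polynomial
open scoped Classical

namespace FA.IwasawaMinus

variable {p : ℕ} [hp : Fact p.Prime] {g : ℕ}

/-- The root of unity of order `p - 1` modulo `p^(n+1)`. -/
def gzeta (p g n : ℕ) : ZMod (p ^ (n + 1)) := (g : ZMod (p ^ (n + 1))) ^ p ^ n

theorem isUnit_of_castHom_ne_zero {n : ℕ} (x : ZMod (p ^ (n + 1)))
    (h : ZMod.castHom (dvd_pow_self p (Nat.succ_ne_zero n)) (ZMod p) x ≠ 0) : IsUnit x := by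
  haveI : NeZero (p ^ (n + 1)) := ⟨pow_ne_zero _ hp.out.ne_zero⟩
  rw [← ZMod.natCast_zmod_val x] at h ⊢
  rw [map_natCast, Ne, ZMod.natCast_eq_zero_iff] at h
  rw [ZMod.isUnit_iff_coprime]
  exact Nat.Coprime.pow_right _ (Nat.coprime_comm.mp (hp.out.coprime_iff_not_dvd.mpr h))

omit hp in
theorem gzeta_pow_card (hg : IsGen p g) (n : ℕ) : gzeta p g n ^ (p - 1) = 1 := by
  rw [gzeta, ← pow_mul, mul_comm, ← hg.2 n, pow_orderOf_eq_one]

theorem gzeta_pow_half (hp2 : p ≠ 2) (hg : IsGen p g) (n : ℕ) : gzeta p g n ^ ((p - 1) / 2) = -1 := by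
  rw [gzeta, ← pow_mul, ← pow_half_eq_neg_one hp2 hg n, mul_comm (p ^ n),
    Nat.mul_div_right_comm ((hp.out.odd_of_ne_two hp2).tsub_odd odd_one).two_dvd]

/-- `ζ` is a root of the cyclotomic polynomial. -/
theorem aeval_gzeta_cyclotomic (hg : IsGen p g) (n : ℕ) :
    aeval (gzeta p g n) (cyclotomic (p - 1) ℤ) = 0 := by
  have hp1 : 0 < p - 1 := Nat.sub_pos_of_lt hp.out.one_lt
  have h := congrArg (aeval (gzeta p g n)) (prod_cyclotomic_eq_X_pow_sub_one hp1 ℤ)
  rw [map_sub, map_pow, aeval_X, map_one, gzeta_pow_card hg, sub_self, map_prod,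
    ← Finset.mul_prod_erase _ _ (Nat.mem_divisors_self _ hp1.ne')] at h
  refine (IsUnit.mul_left_eq_zero ?_).mp h
  rw [IsUnit.prod_iff]
  intro d hd
  obtain ⟨hd1, hd2⟩ := Finset.mem_erase.mp hd
  refine isUnit_of_castHom_ne_zero _ fun h0 => hd1 ?_
  set π := ZMod.castHom (dvd_pow_self p (Nat.succ_ne_zero n)) (ZMod p) with hπ
  have h1 := congrArg (fun f : ℤ[X] => π (aeval (gzeta p g n) f))
    (prod_cyclotomic_eq_X_pow_sub_one (Nat.pos_of_mem_divisors hd2) ℤ)
  simp only [map_prod, map_sub, map_pow, aeval_X, map_one] at h1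
  rw [Finset.prod_eq_zero (Nat.mem_divisors_self d (Nat.pos_of_mem_divisors hd2).ne') h0, gzeta, map_pow,
    map_natCast, ZMod.pow_card_pow, eq_comm, sub_eq_zero, ← orderOf_dvd_iff_pow_eq_one] at h1
  have hord : orderOf (g : ZMod p) = p - 1 := by
    have := hg.2 0
    rwa [pow_zero, mul_one, zero_add, pow_one] at this
  exact Nat.dvd_antisymm (Nat.dvd_of_mem_divisors hd2) (hord ▸ h1)

/-- The coordinates of `ζ ^ i`. -/
def expCoeff (p i j : ℕ) : ℤ := (X ^ i %ₘ cyclotomic (p - 1) ℤ).coeff j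

theorem pow_eq_sum_expCoeff {R : Type*} [CommRing R] {x : R} (hx : aeval x (cyclotomic (p - 1) ℤ) = 0) (i : ℕ) :
    x ^ i = ∑ j : Fin (Nat.totient (p - 1)), (expCoeff p i j : R) * x ^ (j : ℕ) := by
  have h := Polynomial.aeval_modByMonic_eq_self_of_root (p := (X : ℤ[X]) ^ i) hx
  have hdeg : (X ^ i %ₘ cyclotomic (p - 1) ℤ).natDegree < Nat.totient (p - 1) := by
    rw [← natDegree_cyclotomic (p - 1) ℤ]
    refine natDegree_modByMonic_lt _ (cyclotomic.monic _ _) fun e => ?_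
    have := congrArg natDegree e
    rw [natDegree_cyclotomic, natDegree_one, Nat.totient_eq_zero] at this
    exact (Nat.sub_pos_of_lt hp.out.one_lt).ne' this
  rw [aeval_X_pow] at h
  rw [← h, aeval_eq_sum_range' hdeg, ← Fin.sum_univ_eq_sum_range
    (fun j => (X ^ i %ₘ cyclotomic (p - 1) ℤ).coeff j • x ^ j)]
  simp only [zsmul_eq_mul, expCoeff]

/-- Away from `1` and `-1` the power is not a rational multiple of the first coordinate. -/
theorem exists_expCoeff_ne_zero (hp2 : p ≠ 2) {i : ℕ} (hi : i < p - 1) (h0 : i ≠ 0) (hh : i ≠ (p - 1) / 2) :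
    ∃ j : Fin (Nat.totient (p - 1)), (j : ℕ) ≠ 0 ∧ expCoeff p i j ≠ 0 := by
  by_contra! hall
  haveI : NeZero (p - 1) := ⟨(Nat.sub_pos_of_lt hp.out.one_lt).ne'⟩
  obtain ⟨z, hz⟩ := HasEnoughRootsOfUnity.exists_primitiveRoot ℂ (p - 1)
  have hroot : aeval z (cyclotomic (p - 1) ℤ) = 0 := by
    rw [cyclotomic_eq_minpoly hz (NeZero.pos _)]
    exact minpoly.aeval _ _
  have hr : 0 < Nat.totient (p - 1) := Nat.totient_pos.mpr (NeZero.pos _)
  have e := pow_eq_sum_expCoeff (p := p) hroot i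
  rw [Finset.sum_eq_single ⟨0, hr⟩ (fun j _ hj => by rw [hall j fun h => hj (Fin.ext h), Int.cast_zero, zero_mul])
    (fun h => absurd (Finset.mem_univ _) h), pow_zero, mul_one] at e
  have ha : ((expCoeff p i 0) ^ (p - 1) : ℤ) = 1 := by
    have : ((expCoeff p i 0 : ℤ) : ℂ) ^ (p - 1) = 1 := by rw [← e, ← pow_mul, mul_comm, pow_mul, hz.pow_eq_one,
      one_pow]
    exact_mod_cast this
  have heven : 2 ∣ p - 1 := ((hp.out.odd_of_ne_two hp2).tsub_odd odd_one).two_dvd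
  have hhalf : z ^ ((p - 1) / 2) = -1 :=
    (hz.pow (NeZero.pos _) (Nat.div_mul_cancel heven).symm).eq_neg_one_of_two_right
  rcases Int.isUnit_iff.mp (IsUnit.of_pow_eq_one ha (NeZero.ne _)) with h1 | h1
  · rw [h1, Int.cast_one] at e
    exact hz.pow_ne_one_of_pos_of_lt h0 hi e
  · rw [h1, Int.cast_neg, Int.cast_one, ← hhalf] at e
    exact hh (hz.pow_inj hi (Nat.div_lt_self (NeZero.pos _) one_lt_two) e)

/-- Small combinations of the powers of `ζ` stay apart for large `n`. -/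
theorem eventually_injective_pow (hg : IsGen p g) (K m₀ : ℕ) :
    ∀ᶠ n in Filter.atTop, Function.Injective fun k : Fin (Nat.totient (p - 1)) → Fin K =>
      ((p ^ m₀ : ℕ) : ZMod (p ^ (n + 1))) * ∑ j, (k j : ℕ) • gzeta p g n ^ (j : ℕ) := by
  suffices h : ∀ x : (Fin (Nat.totient (p - 1)) → Fin K) × (Fin (Nat.totient (p - 1)) → Fin K),
      ∀ᶠ n in Filter.atTop, ((p ^ m₀ : ℕ) : ZMod (p ^ (n + 1))) * (∑ j, (x.1 j : ℕ) • gzeta p g n ^ (j : ℕ)) =
        ((p ^ m₀ : ℕ) : ZMod (p ^ (n + 1))) * (∑ j, (x.2 j : ℕ) • gzeta p g n ^ (j : ℕ)) → x.1 = x.2 by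
    filter_upwards [Filter.eventually_all.mpr h] with n hn k k' e
    exact hn (k, k') e
  rintro ⟨k, k'⟩
  rcases eq_or_ne k k' with rfl | hne
  · exact Filter.Eventually.of_forall fun _ _ => rfl
  set f : ℤ[X] := ∑ j : Fin (Nat.totient (p - 1)), C (((k j : ℕ) : ℤ) - (k' j : ℕ)) * X ^ (j : ℕ) with hf
  haveI : NeZero (p - 1) := ⟨(Nat.sub_pos_of_lt hp.out.one_lt).ne'⟩
  obtain ⟨z, hz⟩ := HasEnoughRootsOfUnity.exists_primitiveRoot ℂ (p - 1)
  have hz' := hz.isIntegral (NeZero.pos _)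
  have hf0 : f ≠ 0 := fun e => hne (funext fun j => by
    have h := congrArg (fun q => Polynomial.coeff q (j : ℕ)) e
    simp only [hf, finsetSum_coeff, coeff_C_mul_X_pow, coeff_zero] at h
    rw [Finset.sum_eq_single j (fun i _ hi => if_neg fun e => hi (Fin.ext e.symm))
      (fun h => absurd (Finset.mem_univ _) h), if_pos rfl, sub_eq_zero, Nat.cast_inj] at h
    exact Fin.ext h)
  have hα : aeval z f ≠ 0 := fun e => by
    have hd := minpoly.isIntegrallyClosed_dvd hz' e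
    rw [← cyclotomic_eq_minpoly hz (NeZero.pos _)] at hd
    have := natDegree_le_of_dvd hd hf0
    rw [natDegree_cyclotomic] at this
    have hlt : f.natDegree < Nat.totient (p - 1) := by
      refine (natDegree_lt_iff_degree_lt hf0).mpr ((degree_sum_le _ _).trans_lt ?_)
      rw [Finset.sup_lt_iff (WithBot.bot_lt_coe _)]
      exact fun j _ => (degree_C_mul_X_pow_le _ _).trans_lt (by exact_mod_cast j.2)
    omega
  have hint : IsIntegral ℤ (aeval z f) := by
    have h := (aeval (⟨z, hz'⟩ : integralClosure ℤ ℂ) f).2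
    rwa [Polynomial.aeval_subalgebra_coe] at h
  obtain ⟨m, hm0, hm⟩ := hint.isAlgebraic.exists_nonzero_coeff_and_aeval_eq_zero
    (mem_nonZeroDivisors_of_ne_zero hα)
  have hdvd : cyclotomic (p - 1) ℤ ∣ m.comp f := by
    rw [cyclotomic_eq_minpoly hz (NeZero.pos _)]
    exact minpoly.isIntegrallyClosed_dvd hz' (by rw [aeval_comp, hm])
  filter_upwards [Filter.eventually_gt_atTop ((m.coeff 0).natAbs + m₀)] with n hn e
  exfalso
  set y := aeval (gzeta p g n) f with hy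
  have hy0 : ((p ^ m₀ : ℕ) : ZMod (p ^ (n + 1))) * y = 0 := by
    rw [hy, hf, map_sum, Finset.sum_congr rfl fun j _ => show aeval (gzeta p g n)
        (C (((k j : ℕ) : ℤ) - (k' j : ℕ)) * X ^ (j : ℕ)) =
        (k j : ℕ) • gzeta p g n ^ (j : ℕ) - (k' j : ℕ) • gzeta p g n ^ (j : ℕ) by
      rw [map_mul, aeval_C, algebraMap_int_eq, map_pow, aeval_X, eq_intCast, nsmul_eq_mul, nsmul_eq_mul]
      push_cast
      ring, Finset.sum_sub_distrib, mul_sub, e, sub_self]
  have hmy : aeval y m = 0 := by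
    obtain ⟨q, hq⟩ := hdvd
    rw [hy, ← aeval_comp, hq, map_mul, aeval_gzeta_cyclotomic hg n, zero_mul]
  rw [← X_mul_divX_add m, map_add, map_mul, aeval_X, aeval_C, algebraMap_int_eq, eq_intCast] at hmy
  have hpD : ((((p ^ m₀ : ℕ) : ℤ) * m.coeff 0 : ℤ) : ZMod (p ^ (n + 1))) = 0 := by
    have h := congrArg (((p ^ m₀ : ℕ) : ZMod (p ^ (n + 1))) * ·) hmy
    simp only [mul_add, ← mul_assoc, hy0, zero_mul, zero_add, mul_zero] at h
    rw [Int.cast_mul, Int.cast_natCast]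
    exact h
  rw [ZMod.intCast_zmod_eq_zero_iff_dvd, Nat.cast_pow, Nat.cast_pow, show n + 1 = m₀ + (n + 1 - m₀) by omega,
    pow_add, mul_dvd_mul_iff_left (pow_ne_zero _ (Nat.cast_ne_zero.mpr hp.out.ne_zero)), ← Int.natCast_pow,
    Int.natCast_dvd] at hpD
  have h1 := Nat.le_of_dvd (Int.natAbs_pos.mpr hm0) hpD
  have h2 := Nat.lt_pow_self (n := n + 1 - m₀) hp.out.one_lt
  omega

/-- The same with the factor `p`. -/
theorem eventually_injective (hg : IsGen p g) (K : ℕ) :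
    ∀ᶠ n in Filter.atTop, Function.Injective fun k : Fin (Nat.totient (p - 1)) → Fin K =>
      (p : ZMod (p ^ (n + 1))) * ∑ j, (k j : ℕ) • gzeta p g n ^ (j : ℕ) := by
  simpa using eventually_injective_pow hg K 1

/-- The term `⌊c val(v) / N⌋`. -/
theorem div_eq_floor {N : ℕ} [NeZero N] (c : ℕ) {v : ℕ} {y : ℝ} (hv : v < N) (hy : ∃ z : ℤ, (v : ℝ) / N + z = y) :
    ((c * v / N : ℕ) : ℤ) = ⌊(c : ℝ) * y⌋ - (c : ℤ) * ⌊y⌋ := by
  obtain ⟨z, rfl⟩ := hy
  have hN : (0 : ℝ) < N := Nat.cast_pos.mpr (NeZero.pos N)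
  have h1 : ⌊(v : ℝ) / N⌋ = 0 := Int.floor_eq_zero_iff.mpr
    ⟨by positivity, (div_lt_one hN).mpr (Nat.cast_lt.mpr hv)⟩
  have h2 : ⌊(c : ℝ) * ((v : ℝ) / N)⌋ = ((c * v / N : ℕ) : ℤ) := by
    rw [← Nat.floor_div_eq_div (K := ℝ), Int.natCast_floor_eq_floor (by positivity), Nat.cast_mul,
      mul_div_assoc]
  rw [Int.floor_add_intCast, h1, zero_add, mul_add,
    show (c : ℝ) * (z : ℝ) = (((c : ℤ) * z : ℤ) : ℝ) by push_cast; ring, Int.floor_add_intCast, h2]
  ring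

/-- An integer combination of residues, as a fraction. -/
theorem exists_int_of_combination {N r : ℕ} [NeZero N] (A : Fin r → ℤ) (y : Fin r → ZMod N) (m : Fin r → ℤ)
    {x : ZMod N} (hx : x = ∑ j, (A j : ZMod N) * y j) :
    ∃ z : ℤ, (x.val : ℝ) / N + z = ∑ j, (A j : ℝ) * (((y j).val : ℝ) / N + m j) := by
  set Z : ℤ := ∑ j, A j * (((y j).val : ℤ) + m j * N) with hZ
  have hcast : (Z : ZMod N) = x := by
    rw [hZ, hx]
    push_cast
    simp
  refine ⟨Z / N, ?_⟩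
  have hN : (N : ℝ) ≠ 0 := Nat.cast_ne_zero.mpr (NeZero.ne N)
  have h : ((x.val : ℤ) + (Z / N) * N : ℤ) = Z := by
    rw [← hcast, ZMod.val_intCast, Int.emod_add_ediv_mul]
  have h' := congrArg (fun t : ℤ => (t : ℝ) / N) h
  simp only [hZ] at h'
  push_cast at h'
  rw [add_div, mul_div_cancel_right₀ _ hN, Finset.sum_div] at h'
  rw [h']
  exact Finset.sum_congr rfl fun j _ => by field_simp

/-- The jump of the term of `1`. -/
theorem jump_one {N c v : ℕ} [NeZero N] {a : ℝ} (h1 : a < (v : ℝ) / N) (h2 : (v : ℝ) / N < a + (c : ℝ)⁻¹) {k : ℕ}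
    (hc : 0 < c) (hk : a * c = k) : c * v / N = k := by
  have hN : (0 : ℝ) < N := Nat.cast_pos.mpr (NeZero.pos N)
  have hcR : (0 : ℝ) < c := Nat.cast_pos.mpr hc
  rw [lt_div_iff₀ hN] at h1
  rw [div_lt_iff₀ hN] at h2
  refine Nat.div_eq_of_lt_le ?_ ?_
  · have : ((k * N : ℕ) : ℝ) ≤ ((c * v : ℕ) : ℝ) := by
      push_cast
      rw [← hk]
      nlinarith
    exact_mod_cast this
  · have : ((c * v : ℕ) : ℝ) < (((k + 1) * N : ℕ) : ℝ) := by
      push_cast
      rw [← hk]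
      have := mul_lt_mul_of_pos_left h2 hcR
      rw [show (c : ℝ) * ((a + (c : ℝ)⁻¹) * N) = (a * c + (c : ℝ) * (c : ℝ)⁻¹) * N by ring,
        mul_inv_cancel₀ hcR.ne'] at this
      exact this
    exact_mod_cast this

/-- **The branch coefficients do not all vanish modulo `p`.** -/
theorem exists_sum_ne_zero (hp2 : p ≠ 2) (hg : IsGen p g) {w : ZMod p} (hw : w ^ ((p - 1) / 2) = -1) {c : ℕ}
    (hc : 2 ≤ c) : ∃ n, ∃ β : ZMod (p ^ (n + 1)), IsUnit β ∧
      ∑ i ∈ Finset.range (p - 1), w ^ i * ((c * (β * gzeta p g n ^ i).val / p ^ (n + 1) : ℕ) : ZMod p) ≠ 0 := by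
  have hp1 : 0 < p - 1 := Nat.sub_pos_of_lt hp.out.one_lt
  have hr : 0 < Nat.totient (p - 1) := Nat.totient_pos.mpr hp1
  obtain ⟨h, hh⟩ : ∃ h, h = (p - 1) / 2 := ⟨_, rfl⟩
  rw [← hh] at hw
  have hh0 : 0 < h := by
    have := hp.out.two_le
    omega
  have hhlt : h < p - 1 := by omega
  set others := ((Finset.range (p - 1)).erase 0).erase h with hothers
  have hcR : (2 : ℝ) ≤ c := by exact_mod_cast hc
  -- the point of the crossing
  set s := liouvilleNumber 2
  have hs : Transcendental ℤ s := transcendental_liouvilleNumber le_rfl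
  set x₀ : Fin (Nat.totient (p - 1)) → ℝ := fun j => if (j : ℕ) = 0 then (c : ℝ)⁻¹ else s ^ (j : ℕ) with hx₀
  set L : ℕ → (Fin (Nat.totient (p - 1)) → ℝ) → ℝ := fun i y =>
    ∑ j : Fin (Nat.totient (p - 1)), (expCoeff p i (j : ℕ) : ℝ) * y j with hL
  have hnon : ∀ i ∈ others, ∀ m : ℤ, (c : ℝ) * L i x₀ ≠ m := fun i hi m e => by
    rw [hothers] at hi
    simp only [Finset.mem_erase, Finset.mem_range] at hi
    obtain ⟨j₀, hj₀, hA⟩ := exists_expCoeff_ne_zero hp2 hi.2.2 hi.2.1 (hh ▸ hi.1)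
    set Q : ℤ[X] := ∑ j : Fin (Nat.totient (p - 1)),
      C (if (j : ℕ) = 0 then expCoeff p i j - m else (c : ℤ) * expCoeff p i j) * X ^ (j : ℕ) with hQ
    have hQ0 : Q ≠ 0 := fun e0 => by
      have h := congrArg (fun q => Polynomial.coeff q (j₀ : ℕ)) e0
      simp only [hQ, finsetSum_coeff, coeff_C_mul_X_pow, coeff_zero] at h
      rw [Finset.sum_eq_single j₀ (fun b _ hb => if_neg fun e => hb (Fin.ext e.symm))
        (fun h => absurd (Finset.mem_univ _) h), if_pos rfl, if_neg hj₀] at h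
      exact hA ((mul_eq_zero.mp h).resolve_left (by omega))
    refine hs ⟨Q, hQ0, ?_⟩
    have hterm : ∀ j : Fin (Nat.totient (p - 1)),
        aeval s (C (if (j : ℕ) = 0 then expCoeff p i j - m else (c : ℤ) * expCoeff p i j) * X ^ (j : ℕ)) =
          (c : ℝ) * ((expCoeff p i j : ℝ) * x₀ j) - if (j : ℕ) = 0 then (m : ℝ) else 0 := fun j => by
      rw [map_mul, aeval_C, algebraMap_int_eq, map_pow, aeval_X, hx₀, eq_intCast]
      simp only
      split_ifs with hj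
      · rw [hj, pow_zero, mul_one, Int.cast_sub]
        field_simp
      · push_cast
        ring
    rw [hQ, map_sum, Finset.sum_congr rfl fun j _ => hterm j, Finset.sum_sub_distrib, ← Finset.mul_sum,
      Finset.sum_eq_single ⟨0, hr⟩ (fun j _ hj => if_neg fun e => hj (Fin.ext e))
        (fun h => absurd (Finset.mem_univ _) h), if_pos rfl]
    exact sub_eq_zero.mpr (by simpa only [hL] using e)
  -- no other term jumps nearby
  have hev : ∀ᶠ y in nhds x₀, ∀ i ∈ others, ⌊(c : ℝ) * L i y⌋ = ⌊(c : ℝ) * L i x₀⌋ ∧ ⌊L i y⌋ = ⌊L i x₀⌋ := by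
    have hfloor : ∀ (F : (Fin (Nat.totient (p - 1)) → ℝ) → ℝ), Continuous F → (∀ m : ℤ, F x₀ ≠ m) →
        ∀ᶠ y in nhds x₀, ⌊F y⌋ = ⌊F x₀⌋ := fun F hF hne => by
      filter_upwards [hF.continuousAt.eventually (Ioo_mem_nhds ((Int.floor_le _).lt_of_ne fun e => hne _ e.symm)
        (Int.lt_floor_add_one _))] with y hy
      exact Int.floor_eq_iff.mpr ⟨hy.1.le, hy.2⟩
    have hcont : ∀ i, Continuous (L i) := fun i => by
      rw [hL]
      exact continuous_finsetSum _ fun j _ => continuous_const.mul (continuous_apply j)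
    refine (Filter.eventually_all_finset _).mpr fun i hi =>
      (hfloor _ (continuous_const.mul (hcont i)) (hnon i hi)).and
        (hfloor _ (hcont i) fun m e => hnon i hi (c * m) (by rw [e]; push_cast; rfl))
  obtain ⟨ρ, hρ, hball⟩ := Metric.eventually_nhds_iff.mp hev
  set ε := min (ρ / 3) (2 * (c : ℝ))⁻¹ with hεdef
  have hε : 0 < ε := lt_min (by positivity) (by positivity)
  have hερ : 2 * ε < ρ := by linarith [min_le_left (ρ / 3) (2 * (c : ℝ))⁻¹]
  have hεc : 2 * ε ≤ (c : ℝ)⁻¹ := by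
    have h1 : ε ≤ (2 * (c : ℝ))⁻¹ := min_le_right _ _
    rw [mul_inv] at h1
    linarith
  obtain ⟨K, hK⟩ := exists_nat_gt ((Nat.totient (p - 1) : ℝ) / (4 * ε ^ 2))
  rw [div_lt_iff₀' (by positivity)] at hK
  obtain ⟨n, hn⟩ := (eventually_injective hg K).exists
  haveI : NeZero (p ^ (n + 1)) := ⟨pow_ne_zero _ hp.out.ne_zero⟩
  haveI : Fact (1 < p ^ (n + 1)) := ⟨Nat.one_lt_pow (Nat.succ_ne_zero n) hp.out.one_lt⟩
  refine ⟨n, ?_⟩
  by_contra! hall
  -- a unit on each side of the crossing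
  have hside : ∀ σ : ℝ, (σ = 1 ∨ σ = -1) → ∃ (β : ZMod (p ^ (n + 1))) (y : Fin (Nat.totient (p - 1)) → ℝ),
      IsUnit β ∧ dist y x₀ < ρ ∧ |(β.val : ℝ) / (p ^ (n + 1) : ℕ) - ((c : ℝ)⁻¹ + σ * ε)| < ε ∧
        ∀ i, ((c * (β * gzeta p g n ^ i).val / p ^ (n + 1) : ℕ) : ℤ) =
          ⌊(c : ℝ) * L i y⌋ - (c : ℤ) * ⌊L i y⌋ := fun σ hσ => by
    obtain ⟨b, hb⟩ := exists_near (fun j : Fin (Nat.totient (p - 1)) => gzeta p g n ^ (j : ℕ))
      (p : ZMod (p ^ (n + 1))) (fun j => if (j : ℕ) = 0 then (c : ℝ)⁻¹ + σ * ε else x₀ j) hε hK hn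
    choose m hm using hb
    refine ⟨1 + (p : ZMod (p ^ (n + 1))) * b, fun j => (((1 + (p : ZMod (p ^ (n + 1))) * b) *
      gzeta p g n ^ (j : ℕ)).val : ℝ) / (p ^ (n + 1) : ℕ) + m j, ?_, ?_, ?_, fun i => ?_⟩
    · refine isUnit_of_castHom_ne_zero _ ?_
      rw [map_add, map_mul, map_natCast, map_one, ZMod.natCast_self, zero_mul, add_zero]
      exact one_ne_zero
    · refine (dist_pi_lt_iff hρ).mpr fun j => ?_
      rw [Real.dist_eq]
      have h := hm j
      by_cases hj : (j : ℕ) = 0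
      · simp only [hx₀, if_pos hj] at h ⊢
        rw [abs_lt] at h ⊢
        rcases hσ with rfl | rfl <;> constructor <;> linarith
      · simp only [if_neg hj] at h
        linarith
    · have h := hm ⟨0, hr⟩
      simp only [if_pos, pow_zero, mul_one] at h
      set v := (((1 + (p : ZMod (p ^ (n + 1))) * b).val : ℝ) / (p ^ (n + 1) : ℕ))
      have hv0 : 0 ≤ v := by positivity
      have hv1 : v < 1 := (div_lt_one (Nat.cast_pos.mpr (NeZero.pos _))).mpr (Nat.cast_lt.mpr (ZMod.val_lt _))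
      have hci : (c : ℝ)⁻¹ ≤ 2⁻¹ := inv_anti₀ two_pos hcR
      rw [abs_lt] at h
      have hlo : (-1 : ℝ) < (m ⟨0, hr⟩ : ℤ) := by rcases hσ with rfl | rfl <;> linarith
      have hhi : ((m ⟨0, hr⟩ : ℤ) : ℝ) < 1 := by rcases hσ with rfl | rfl <;> linarith
      have hm0 : m ⟨0, hr⟩ = 0 := by
        have h1 : (-1 : ℤ) < m ⟨0, hr⟩ := by exact_mod_cast hlo
        have h2 : m ⟨0, hr⟩ < 1 := by exact_mod_cast hhi
        omega
      rw [hm0, Int.cast_zero, add_zero] at h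
      exact abs_lt.mpr h
    · refine div_eq_floor c (ZMod.val_lt _) (exists_int_of_combination (fun j : Fin (Nat.totient (p - 1)) =>
        expCoeff p i j) (fun j => (1 + (p : ZMod (p ^ (n + 1))) * b) * gzeta p g n ^ (j : ℕ)) m ?_)
      rw [pow_eq_sum_expCoeff (aeval_gzeta_cyclotomic hg n) i, Finset.mul_sum]
      exact Finset.sum_congr rfl fun j _ => by ring
  obtain ⟨β, y, hβ, hy, hv, hT⟩ := hside 1 (Or.inl rfl)
  obtain ⟨β', y', hβ', hy', hv', hT'⟩ := hside (-1) (Or.inr rfl)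
  rw [abs_lt] at hv hv'
  have hneg : ∀ γ : ZMod (p ^ (n + 1)), IsUnit γ →
      ((γ * gzeta p g n ^ h).val : ℝ) / (p ^ (n + 1) : ℕ) = 1 - (γ.val : ℝ) / (p ^ (n + 1) : ℕ) := fun γ hγ => by
    haveI : NeZero γ := ⟨hγ.ne_zero⟩
    rw [hh, gzeta_pow_half hp2 hg, mul_neg_one, ZMod.val_neg_of_ne_zero, Nat.cast_sub (ZMod.val_lt _).le,
      sub_div, div_self (Nat.cast_ne_zero.mpr (NeZero.ne _))]
  have hci : (c : ℝ) * (c : ℝ)⁻¹ = 1 := mul_inv_cancel₀ (by positivity)
  have hB1 : c * β.val / p ^ (n + 1) = 1 := jump_one (a := (c : ℝ)⁻¹) (by linarith) (by linarith) (by omega)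
    (by rw [mul_comm, hci, Nat.cast_one])
  have hB0 : c * β'.val / p ^ (n + 1) = 0 := by
    have hv0 : (0 : ℝ) < (β'.val : ℝ) / (p ^ (n + 1) : ℕ) := by linarith
    exact jump_one (a := 0) hv0 (by linarith) (by omega) (by simp)
  have hA1 : c * (β * gzeta p g n ^ h).val / p ^ (n + 1) = c - 2 := by
    have hn1 := hneg β hβ
    refine jump_one (a := 1 - 2 * (c : ℝ)⁻¹) (by linarith) (by linarith) (by omega) ?_
    rw [sub_mul, one_mul, mul_assoc, mul_comm _ (c : ℝ), hci, Nat.cast_sub hc]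
    norm_num
  have hA0 : c * (β' * gzeta p g n ^ h).val / p ^ (n + 1) = c - 1 := by
    have hn0 := hneg β' hβ'
    refine jump_one (a := 1 - (c : ℝ)⁻¹) (by linarith) (by linarith) (by omega) ?_
    rw [sub_mul, one_mul, mul_comm _ (c : ℝ), hci, Nat.cast_sub (by omega : 1 ≤ c)]
    norm_num
  have hkey : ∑ i ∈ Finset.range (p - 1), w ^ i * ((c * (β * gzeta p g n ^ i).val / p ^ (n + 1) : ℕ) : ZMod p) -
      ∑ i ∈ Finset.range (p - 1), w ^ i * ((c * (β' * gzeta p g n ^ i).val / p ^ (n + 1) : ℕ) : ZMod p) = 2 := by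
    rw [← Finset.sum_sub_distrib, ← Finset.add_sum_erase _ _ (Finset.mem_range.mpr hp1),
      ← Finset.add_sum_erase _ _ (Finset.mem_erase.mpr ⟨hh0.ne', Finset.mem_range.mpr hhlt⟩), ← hothers,
      Finset.sum_eq_zero fun i hi => ?_, add_zero]
    · rw [pow_zero, pow_zero, mul_one, mul_one, hB1, hB0, hA1, hA0, hw, Nat.cast_sub hc,
        Nat.cast_sub (by omega : 1 ≤ c)]
      push_cast
      ring
    · have e : ((c * (β * gzeta p g n ^ i).val / p ^ (n + 1) : ℕ) : ℤ) =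
          ((c * (β' * gzeta p g n ^ i).val / p ^ (n + 1) : ℕ) : ℤ) := by
        rw [hT, hT', (hball hy i hi).1, (hball hy i hi).2, (hball hy' i hi).1, (hball hy' i hi).2]
      rw [Int.ofNat_inj.mp e, sub_self]
  rw [hall β hβ, hall β' hβ', sub_self] at hkey
  exact (ZMod.natCast_eq_zero_iff 2 p).not.mpr (fun h => hp2 ((Nat.prime_dvd_prime_iff_eq hp.out Nat.prime_two).mp h))
    (by exact_mod_cast hkey.symm)

end FA.IwasawaMinus
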