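import Fermat.Agent.IwasawaMinus.Branch
import Fermat.Agent.IwasawaMinus.Crossing

/-!
# The theorem of Ferrero and Washington

No branch has all its coefficients divisible by `p`.
-/

set_option autoImplicit false
set_option linter.style.haveILetI false

noncomputable section

open Polynomial
open scoped Classical

namespace FA.IwasawaMinus

variable {p : ℕ} [hp : Fact p.Prime] {g : ℕ}

/-- Vanishing modulo `X ^ q - w` of a polynomial of degree below `q (p - 1)`. -/
theorem sum_mul_pow_eq_zero {w : ZMod p} {q m : ℕ} (hq : 0 < q) (a : ℕ → ZMod p)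
    (h : X ^ q - C w ∣ ∑ k ∈ Finset.range (q * m), C (a k) * X ^ k) {k : ℕ} (hk : k < q) :
    ∑ i ∈ Finset.range m, a (i * q + k) * w ^ i = 0 := by
  set R : (ZMod p)[X] := ∑ l ∈ Finset.range q, C (∑ i ∈ Finset.range m, a (i * q + l) * w ^ i) * X ^ l with hR
  have hdiff : X ^ q - C w ∣ (∑ k ∈ Finset.range (q * m), C (a k) * X ^ k) - R := by
    rw [hR, sum_range_mul', Finset.sum_comm, ← Finset.sum_sub_distrib]
    refine Finset.dvd_sum fun l _ => ?_
    rw [map_sum, Finset.sum_mul, ← Finset.sum_sub_distrib]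
    refine Finset.dvd_sum fun i _ => ?_
    rw [map_mul, map_pow, pow_add, mul_comm i q, pow_mul, mul_assoc _ (C w ^ i), ← mul_sub, ← sub_mul]
    exact ((sub_dvd_pow_sub_pow _ _ _).mul_right _).mul_left _
  have hRdvd : X ^ q - C w ∣ R := (dvd_sub_right h).mp hdiff
  have hdeg : R.degree < (X ^ q - C w).degree := by
    rw [degree_X_pow_sub_C hq, hR]
    exact (degree_sum_le _ _).trans_lt ((Finset.sup_lt_iff (WithBot.bot_lt_coe _)).mpr fun l hl =>
      (degree_C_mul_X_pow_le _ _).trans_lt (by exact_mod_cast Finset.mem_range.mp hl))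
  have h0 := congrArg (fun f => coeff f k) (eq_zero_of_dvd_of_degree_lt hRdvd hdeg)
  simp only [hR, finsetSum_coeff, coeff_C_mul_X_pow, coeff_zero] at h0
  rwa [Finset.sum_eq_single k (fun l _ hl => if_neg fun e => hl e.symm)
    (fun h => absurd (Finset.mem_range.mpr hk) h), if_pos rfl] at h0

/-- If all coefficients of a branch are divisible by `p`, its polynomial mod `p` is divisible by `X ^ q - u`. -/
theorem dvd_poly_of_dominant (hg : IsGen p g) (u : (ZMod p)ˣ) {μ lam : ℕ} (hμ : μ ≠ 0)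
    (hD : Dominant (sys hg u) μ lam) (n : ℕ) :
    X ^ p ^ n - C (u : ZMod p) ∣ (poly p g (cOf hg u) n).map (Int.castRingHom (ZMod p)) := by
  set P := (poly p g (cOf hg u) n).map (Int.castRingHom (ZMod p)) with hP
  set π : ℤ_[p] →+* ZMod p := PadicInt.toZMod
  have hmap : (sys hg u n).map π = P.comp (C (u : ZMod p) * (1 + X)) := by
    rw [sys, map_comp, Polynomial.map_map, RingHom.ext_int (π.comp (Int.castRingHom ℤ_[p])) (Int.castRingHom _),
      Polynomial.map_mul, map_C, toZMod_teich, Polynomial.map_add, Polynomial.map_one, map_X]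
  have homega : (omega (p := p) n).map π = X ^ p ^ n := by
    rw [omega, Polynomial.map_sub, Polynomial.map_pow, Polynomial.map_add, Polynomial.map_one, map_X,
      add_pow_char_pow, one_pow, add_sub_cancel_left]
  have h1 : X ^ p ^ n ∣ (sys hg u (max n (p ^ n))).map π := X_pow_dvd_iff.mpr fun j hj => by
    rw [coeff_map, ← RingHom.mem_ker, PadicInt.ker_toZMod, PadicInt.maximalIdeal_eq_span_p,
      Ideal.mem_span_singleton]
    refine (dvd_pow_self (p : ℤ_[p]) ?_).trans (hD.all _ j)
    have := le_max_right n (p ^ n)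
    omega
  have h2 : X ^ p ^ n ∣ (sys hg u n).map π := by
    have h := map_dvd (Polynomial.mapRingHom π) ((sys_compatible hg u).dvd_sub (le_max_left n (p ^ n)))
    rw [coe_mapRingHom, Polynomial.map_sub, homega] at h
    exact (dvd_sub_right h1).mp h
  rw [hmap] at h2
  obtain ⟨Q, hQ⟩ := h2
  have hu : C (u : ZMod p) * C (u : ZMod p)⁻¹ = 1 := by rw [← map_mul, mul_inv_cancel₀ u.ne_zero, map_one]
  have h := congrArg (fun f => f.comp (C (u : ZMod p)⁻¹ * X - 1)) hQ
  simp only [comp_assoc, mul_comp, C_comp, add_comp, one_comp, X_comp, pow_comp, add_sub_cancel, ← mul_assoc,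
    hu, one_mul, comp_X] at h
  rw [h, sub_pow_char_pow, one_pow, mul_pow, ← map_pow, ZMod.pow_card_pow]
  exact Dvd.dvd.mul_right ⟨C (u : ZMod p)⁻¹, by linear_combination hu⟩ _

/-- **The theorem of Ferrero and Washington**: `μ = 0` on every odd branch. -/
theorem mu_eq_zero (hp2 : p ≠ 2) (hg : IsGen p g) {u : (ZMod p)ˣ} (hu : u ∈ oddU p) {μ lam : ℕ}
    (hD : Dominant (sys hg u) μ lam) : μ = 0 := by
  by_contra hμ
  set w := (u : ZMod p) with hwdef
  have hw : w ^ ((p - 1) / 2) = -1 := (Finset.mem_filter.mp hu).2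
  have h2 : (2 : ZMod p) ≠ 0 := by
    intro h
    exact hp2 ((Nat.prime_dvd_prime_iff_eq hp.out Nat.prime_two).mp
      ((ZMod.natCast_eq_zero_iff 2 p).mp (by exact_mod_cast h)))
  have hw1 : w ≠ 1 := fun e => by
    rw [e, one_pow, eq_neg_iff_add_eq_zero, one_add_one_eq_two] at hw
    exact h2 hw
  have hwcard : w ^ (p - 1) = 1 := ZMod.pow_card_sub_one_eq_one u.ne_zero
  set c := cOf hg u with hc
  have hc2 : 2 ≤ c := by
    rw [hc, cOf]
    split_ifs
    · have := hp.out.two_le
      omega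
    · exact hg.1
  obtain ⟨n, β, hβ, hne⟩ := exists_sum_ne_zero hp2 hg hw hc2
  apply hne
  have hq : 0 < p ^ n := pow_pos hp.out.pos n
  set G : ℕ → ℕ → ZMod p := fun k i =>
    w ^ i * ((c * ((g : ZMod (p ^ (n + 1))) ^ k * gzeta p g n ^ i).val / p ^ (n + 1) : ℕ) : ZMod p) with hG
  have hk0 : ∀ k < p ^ n, ∑ i ∈ Finset.range (p - 1), G k i = 0 := fun k hk => by
    have hdvd := dvd_poly_of_dominant hg u hμ hD n
    rw [poly, Polynomial.map_sum, mul_comm (p - 1)] at hdvd
    simp only [Polynomial.map_mul, map_C, Polynomial.map_pow, map_X, Int.coe_castRingHom] at hdvd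
    have h := sum_mul_pow_eq_zero hq (fun k => ((coefE p g c n k : ℤ) : ZMod p)) hdvd hk
    have hgeom : ∑ i ∈ Finset.range (p - 1), w ^ i = 0 := by
      have := geom_sum_mul w (p - 1)
      rw [hwcard, sub_self] at this
      exact (mul_eq_zero.mp this).resolve_right (sub_ne_zero.mpr hw1)
    have hterm : ∀ i, ((coefE p g c n (i * p ^ n + k) : ℤ) : ZMod p) * w ^ i =
        2 * G k i + (1 - (c : ZMod p)) * w ^ i := fun i => by
      have e : (g : ZMod (p ^ (n + 1))) ^ (i * p ^ n + k) =
          (g : ZMod (p ^ (n + 1))) ^ k * gzeta p g n ^ i := by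
        rw [gzeta, ← pow_mul, ← pow_add]
        congr 1
        ring
      rw [hG, coefE, res, e]
      simp only [Int.cast_sub, Int.cast_add, Int.cast_mul, Int.cast_natCast, Int.cast_one, Int.cast_ofNat]
      ring
    rw [Finset.sum_congr rfl fun i _ => hterm i, Finset.sum_add_distrib, ← Finset.mul_sum, ← Finset.mul_sum, hgeom,
      mul_zero, add_zero, mul_eq_zero] at h
    exact h.resolve_left h2
  haveI : NeZero (p ^ (n + 1)) := ⟨pow_ne_zero _ hp.out.ne_zero⟩
  obtain ⟨s, -, hs⟩ := exists_pow_genUnit hg n hβ.unit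
  have hβs : β = (g : ZMod (p ^ (n + 1))) ^ (s % p ^ n) * gzeta p g n ^ (s / p ^ n) := by
    rw [gzeta, ← pow_mul, ← pow_add, Nat.mod_add_div, ← genUnit_val hg n, ← Units.val_pow_eq_pow_val, hs,
      IsUnit.unit_spec]
  have hper : ∀ i, G (s % p ^ n) (i + (p - 1)) = G (s % p ^ n) i := fun i => by
    simp only [hG, pow_add, hwcard, gzeta_pow_card hg, mul_one]
  have hshift := sum_range_shift (G (s % p ^ n)) hper (s / p ^ n)
  rw [hk0 _ (Nat.mod_lt _ hq)] at hshift
  refine ((mul_eq_zero (a := w ^ (s / p ^ n))).mp ?_).resolve_left (pow_ne_zero _ u.ne_zero)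
  rw [Finset.mul_sum, ← hshift]
  refine Finset.sum_congr rfl fun i _ => ?_
  simp only [hG, hβs, pow_add, mul_assoc, mul_comm (gzeta p g n ^ (s / p ^ n))]
  ring

end FA.IwasawaMinus
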