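import Fermat.Agent.IwasawaMinus.Lambda

/-!
# A certificate for `λ = 1`

The first two coefficients of a branch modulo `p`, as sums over the powers of a generator.
-/

set_option autoImplicit false
set_option linter.style.haveILetI false

noncomputable section

open Polynomial
open scoped Classical

namespace FA.IwasawaMinus

/-- `∑ (2 ⌊c r / N⌋ + 1 - c) x` with the multiplier `i` if `b`, along `r ↦ r g`, `x ↦ x w`, modulo `p`. -/
def branchScan (p N g c w : ℕ) (b : Bool) : ℕ → ℕ → ℕ → ℕ → ℕ
  | 0, _, _, _ => 0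
  | t + 1, i, r, x =>
    ((2 * (c * r / N) + 1 + c * (p - 1)) * x * (if b then i else 1) +
      branchScan p N g c w b t (i + 1) (r * g % N) (x * w % p)) % p

/-- The blocks of length `p - 1`. -/
def blockScan (p N g h c w : ℕ) : ℕ → ℕ → ℕ → ℕ
  | 0, _, _ => 0
  | t + 1, i, r => (branchScan p N g c w true (p - 1) i r 1 + blockScan p N g h c w t (i + (p - 1)) (r * h % N)) % p

/-- The test for one residue. -/
def certBranch (p g w : ℕ) : Bool :=
  let c := if g * w % p = 1 then p + 1 else g
  !(branchScan p p g c w false (p - 1) 0 1 1 == 0) ||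
    !(blockScan p (p ^ 2) g (g ^ (p - 1) % p ^ 2) c w p 0 1 == 0)

/-- The certificate. -/
def certLambdaOne (p g : ℕ) : Bool :=
  decide (2 ≤ g) && decide (g % p ≠ 0) && decide (g ^ (p - 1) % p ^ 2 ≠ 1) &&
    (List.range (p - 2)).all (fun i => decide (g ^ (i + 1) % p ≠ 1)) &&
      (List.range p).all fun w => !(w ^ ((p - 1) / 2) % p == p - 1) || certBranch p g w

variable {p : ℕ} [hp : Fact p.Prime] {g : ℕ}

theorem res_succ (n k : ℕ) : res p g n k * g % p ^ (n + 1) = res p g n (k + 1) := by
  haveI : NeZero (p ^ (n + 1)) := ⟨pow_ne_zero _ hp.out.ne_zero⟩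
  simp only [res]
  rw [← ZMod.val_natCast, Nat.cast_mul, ZMod.natCast_zmod_val, ← pow_succ]

theorem branchScan_cast (n c : ℕ) (b : Bool) {w : ℕ} {u : ZMod p} (hw : (w : ZMod p) = u) :
    ∀ (t i x j : ℕ), (x : ZMod p) = u ^ j →
      (branchScan p (p ^ (n + 1)) g c w b t i (res p g n i) x : ZMod p) = ∑ l ∈ Finset.range t,
        ((coefE p g c n (i + l) : ℤ) : ZMod p) * u ^ (j + l) * (if b then ((i + l : ℕ) : ZMod p) else 1) := by
  intro t
  induction t with
  | zero => intros; simp [branchScan]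
  | succ t ih =>
    intro i x j hx
    rw [branchScan, ZMod.natCast_mod, Nat.cast_add, res_succ, ih (i + 1) (x * w % p) (j + 1)
      (by rw [ZMod.natCast_mod, Nat.cast_mul, hx, hw, pow_succ]), Finset.sum_range_succ' _ t, add_comm]
    congr 1
    · refine Finset.sum_congr rfl fun l _ => ?_
      rw [add_right_comm i, add_right_comm j]
      simp only [add_assoc]
    · have hpc : (((p - 1 : ℕ) : ℕ) : ZMod p) = -1 := by
        rw [Nat.cast_sub hp.out.one_le, ZMod.natCast_self, Nat.cast_one, zero_sub]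
      simp only [add_zero, Nat.cast_mul, Nat.cast_add, Nat.cast_one, Nat.cast_ofNat, hx, hpc]
      rw [coefE]
      simp only [Int.cast_sub, Int.cast_add, Int.cast_mul, Int.cast_natCast, Int.cast_one, Int.cast_ofNat]
      cases b <;> simp only [if_true, Bool.false_eq_true, if_false, mul_one] <;> ring

/-- A coefficient of a branch modulo `p`. -/
theorem toZMod_coeff_sys (hg : IsGen p g) (u : (ZMod p)ˣ) (n j : ℕ) :
    PadicInt.toZMod ((sys hg u n).coeff j) = ∑ k ∈ Finset.range ((p - 1) * p ^ n),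
      ((coefE p g (cOf hg u) n k : ℤ) : ZMod p) * (u : ZMod p) ^ k * (k.choose j : ZMod p) := by
  rw [← coeff_map, sys, map_comp, Polynomial.map_map,
    RingHom.ext_int ((PadicInt.toZMod (p := p)).comp (Int.castRingHom ℤ_[p])) (Int.castRingHom _),
    Polynomial.map_mul, map_C, toZMod_teich, Polynomial.map_add, Polynomial.map_one, map_X, poly,
    Polynomial.map_sum]
  simp only [Polynomial.map_mul, Polynomial.map_pow, map_X, map_C, Int.coe_castRingHom, sum_comp, mul_comp,
    pow_comp, X_comp, C_comp, mul_pow, ← map_pow, finsetSum_coeff, coeff_C_mul, coeff_one_add_X_pow]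
  exact Finset.sum_congr rfl fun k _ => (mul_assoc _ _ _).symm

theorem toZMod_eq_zero_of_dvd {x : ℤ_[p]} (h : (p : ℤ_[p]) ∣ x) : PadicInt.toZMod x = 0 := by
  rw [← RingHom.mem_ker, PadicInt.ker_toZMod, PadicInt.maximalIdeal_eq_span_p, Ideal.mem_span_singleton]
  exact h

theorem blockScan_cast (c : ℕ) {w : ℕ} {u : ZMod p} (hw : (w : ZMod p) = u) (hu : u ≠ 0) :
    ∀ (t s : ℕ), (blockScan p (p ^ 2) g (g ^ (p - 1) % p ^ 2) c w t (s * (p - 1)) (res p g 1 (s * (p - 1))) :
        ZMod p) = ∑ l ∈ Finset.range t, ∑ m ∈ Finset.range (p - 1),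
          ((coefE p g c 1 ((s + l) * (p - 1) + m) : ℤ) : ZMod p) * u ^ ((s + l) * (p - 1) + m) *
            ((((s + l) * (p - 1) + m : ℕ)) : ZMod p) := by
  intro t
  induction t with
  | zero => intros; simp [blockScan]
  | succ t ih =>
    intro s
    have hstep : res p g 1 (s * (p - 1)) * (g ^ (p - 1) % p ^ 2) % p ^ 2 = res p g 1 ((s + 1) * (p - 1)) := by
      haveI : NeZero (p ^ (1 + 1)) := ⟨pow_ne_zero _ hp.out.ne_zero⟩
      show _ % p ^ (1 + 1) = _
      rw [← ZMod.val_natCast, Nat.cast_mul, res, ZMod.natCast_zmod_val]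
      simp only [ZMod.natCast_mod, Nat.cast_pow]
      rw [res, ← pow_add, add_one_mul]
    have hone : u ^ (p - 1) = 1 := ZMod.pow_card_sub_one_eq_one hu
    rw [blockScan, ZMod.natCast_mod, Nat.cast_add, hstep, ← add_one_mul, ih (s + 1), Finset.sum_range_succ' _ t,
      add_comm]
    congr 1
    · refine Finset.sum_congr rfl fun l _ => Finset.sum_congr rfl fun m _ => ?_
      rw [add_assoc s 1 l, add_comm 1 l]
    · refine (branchScan_cast 1 c true hw (p - 1) (s * (p - 1)) 1 (s * (p - 1)) ?_).trans ?_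
      · rw [mul_comm, pow_mul, hone, one_pow, Nat.cast_one]
      · exact Finset.sum_congr rfl fun m _ => by rw [add_zero, if_pos rfl]

/-- The certificate is sound. -/
theorem certLambdaOne_spec (hp2 : p ≠ 2) (h : certLambdaOne p g = true) :
    ∃ hg : IsGen p g, ∀ u ∈ oddU p, (p : ℤ_[p]) ∣ (sys hg u 0).coeff 0 → ¬ (p : ℤ_[p]) ∣ (sys hg u 1).coeff 1 := by
  simp only [certLambdaOne, Bool.and_eq_true, decide_eq_true_eq, List.all_eq_true, List.mem_range] at h
  obtain ⟨⟨⟨⟨hg2, hgp⟩, hsq⟩, hmodp⟩, hbr⟩ := h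
  have hp3 : 3 ≤ p := by have := hp.out.two_le; omega
  have hord1 : orderOf (g : ZMod p) = p - 1 := by
    have hg0 : (g : ZMod p) ≠ 0 := fun e =>
      hgp (Nat.mod_eq_zero_of_dvd ((ZMod.natCast_eq_zero_iff _ _).mp e))
    rw [orderOf_eq_iff (by omega)]
    refine ⟨ZMod.pow_card_sub_one_eq_one hg0, fun m hm hm0 e => hmodp (m - 1) (by omega) ?_⟩
    rw [Nat.sub_add_cancel hm0]
    have := congrArg ZMod.val e
    rwa [← Nat.cast_pow, ZMod.val_natCast, ZMod.val_one] at this
  have hord2 : orderOf (g : ZMod (p ^ 2)) = p * (p - 1) := by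
    have hdvd : p - 1 ∣ orderOf (g : ZMod (p ^ 2)) := by
      rw [← hord1, orderOf_dvd_iff_pow_eq_one]
      have h' := congrArg (ZMod.castHom (dvd_pow_self p two_ne_zero) (ZMod p))
        (pow_orderOf_eq_one (g : ZMod (p ^ 2)))
      rwa [map_pow, map_natCast, map_one] at h'
    have hunit : IsUnit (g : ZMod (p ^ 2)) := by
      rw [ZMod.isUnit_iff_coprime]
      refine Nat.Coprime.pow_right _ (Nat.coprime_comm.mp (hp.out.coprime_iff_not_dvd.mpr fun hd => ?_))
      have := pow_orderOf_eq_one (g : ZMod p)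
      rw [hord1, (ZMod.natCast_eq_zero_iff _ _).mpr hd, zero_pow (by omega)] at this
      exact zero_ne_one this
    have htop : orderOf (g : ZMod (p ^ 2)) ∣ p * (p - 1) := by
      rw [← hunit.unit_spec, orderOf_units]
      refine (orderOf_dvd_natCard _).trans ?_
      rw [Nat.card_eq_fintype_card, ZMod.card_units_eq_totient, Nat.totient_prime_pow_succ hp.out 1, pow_one]
    obtain ⟨d, hd⟩ := hdvd
    rw [hd, mul_comm p] at htop
    rcases (Nat.dvd_prime hp.out).mp ((mul_dvd_mul_iff_left (by omega : p - 1 ≠ 0)).mp htop) with rfl | rfl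
    · exfalso
      have e := pow_orderOf_eq_one (g : ZMod (p ^ 2))
      rw [hd, mul_one, ← Nat.cast_pow] at e
      haveI : Fact (1 < p ^ 2) := ⟨Nat.one_lt_pow two_ne_zero hp.out.one_lt⟩
      have := congrArg ZMod.val e
      rw [ZMod.val_natCast, ZMod.val_one] at this
      exact hsq this
    · rw [hd, mul_comm]
  refine ⟨isGen_of_orderOf hp2 hg2 hord2, fun u hu hd0 hd1 => ?_⟩
  set hg := isGen_of_orderOf hp2 hg2 hord2
  set w := (u : ZMod p).val with hwdef
  have hw : (w : ZMod p) = u := ZMod.natCast_zmod_val _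
  have hodd : w ^ ((p - 1) / 2) % p = p - 1 := by
    have e := congrArg ZMod.val (Finset.mem_filter.mp hu).2
    rw [← hw, ← Nat.cast_pow, ZMod.val_natCast] at e
    rw [e, ZMod.val_neg_of_ne_zero, ZMod.val_one]
  have hc : (if g * w % p = 1 then p + 1 else g) = cOf hg u := by
    rw [cOf]
    refine if_congr ?_ rfl rfl
    rw [eq_poleU_iff, ← hw, ← Nat.cast_mul]
    constructor
    · intro e
      rw [← ZMod.natCast_mod, e, Nat.cast_one]
    · intro e
      have := congrArg ZMod.val e
      rwa [ZMod.val_natCast, ZMod.val_one] at this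
  have hb := hbr w (ZMod.val_lt _)
  simp only [hodd, beq_self_eq_true, Bool.not_true, Bool.false_or, certBranch, hc, Bool.or_eq_true,
    Bool.not_eq_true', beq_eq_false_iff_ne, ne_eq] at hb
  rcases hb with hb | hb
  · refine hb ?_
    have h0 : (branchScan p (p ^ (0 + 1)) g (cOf hg u) w false (p - 1) 0 (res p g 0 0) 1 : ZMod p) = 0 := by
      rw [branchScan_cast 0 _ false hw (p - 1) 0 1 0 (by simp), ← toZMod_eq_zero_of_dvd hd0, toZMod_coeff_sys,
        pow_zero, mul_one]
      simp
    have hr : res p g 0 0 = 1 := by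
      haveI : Fact (1 < p ^ (0 + 1)) := ⟨by rw [zero_add, pow_one]; exact hp.out.one_lt⟩
      rw [res, pow_zero, ZMod.val_one]
    rw [hr, zero_add, pow_one, ZMod.natCast_eq_zero_iff] at h0
    exact Nat.eq_zero_of_dvd_of_lt h0 (by
      obtain ⟨m, hm⟩ : ∃ m, p - 1 = m + 1 := ⟨p - 2, by omega⟩
      rw [hm, branchScan]
      exact Nat.mod_lt _ hp.out.pos)
  · refine hb ?_
    have hr : res p g 1 (0 * (p - 1)) = 1 := by
      haveI : Fact (1 < p ^ (1 + 1)) := ⟨Nat.one_lt_pow (by norm_num) hp.out.one_lt⟩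
      rw [res, zero_mul, pow_zero, ZMod.val_one]
    have h1 := blockScan_cast (g := g) (cOf hg u) hw u.ne_zero p 0
    rw [hr, zero_mul] at h1
    have hsum := toZMod_eq_zero_of_dvd hd1
    rw [toZMod_coeff_sys, pow_one, sum_range_mul'] at hsum
    simp only [Nat.choose_one_right] at hsum
    simp only [zero_add] at h1
    rw [hsum, ZMod.natCast_eq_zero_iff] at h1
    exact Nat.eq_zero_of_dvd_of_lt h1 (by
      obtain ⟨m, hm⟩ : ∃ m, p = m + 1 := ⟨p - 1, by omega⟩
      conv_lhs => arg 7; rw [hm]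
      rw [blockScan]
      exact Nat.mod_lt _ hp.out.pos)

theorem certLambdaOne_thirtySeven : certLambdaOne 37 2 = true := by decide +kernel

theorem certLambdaOne_fiftyNine : certLambdaOne 59 2 = true := by decide +kernel

theorem certLambdaOne_sixtySeven : certLambdaOne 67 2 = true := by decide +kernel

theorem certLambdaOne_oneHundredOne : certLambdaOne 101 2 = true := by decide +kernel

theorem certLambdaOne_oneHundredThree : certLambdaOne 103 5 = true := by decide +kernel

theorem certLambdaOne_oneHundredThirtyOne : certLambdaOne 131 2 = true := by decide +kernel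

theorem certLambdaOne_oneHundredFortyNine : certLambdaOne 149 2 = true := by decide +kernel

end FA.IwasawaMinus
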