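import Fermat.Agent.IwasawaMinus.Stickelberger
import Fermat.Agent.AbelianFE.RelativeClassNumber

/-!
# The relative class number at `p`-power levels

For `K = ℚ(ζ_{p^(n+1)})` one has `h = h⁺ Q w ∏_{m ≤ n} ∏_η (-∑_k η^k r_k / (2 p^(m+1)))`, `η` over the values at the
generator of the odd characters of conductor `p^(m+1)`.
-/

set_option autoImplicit false
set_option linter.style.haveILetI false

noncomputable section

open DirichletCharacter NumberField
open scoped Classical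

namespace FA.IwasawaMinus

variable {p : ℕ} [hp : Fact p.Prime] {g : ℕ}

/-- The value `-B_{1,χ}/2` in terms of `χ(g)`. -/
def bval (p g n : ℕ) {R : Type*} [Field R] (η : R) : R :=
  -stickSum p g n η / (2 * ((p ^ (n + 1) : ℕ) : R))

/-- The values at `g` of the odd characters modulo `p^(n+1)`. -/
def oddRoots (R : Type*) [Field R] (p n : ℕ) : Finset R :=
  (Polynomial.nthRootsFinset ((p - 1) * p ^ n) (1 : R)).filter fun η => η ^ ((p - 1) * p ^ n / 2) = -1

/-- The values at `g` of the odd characters of conductor `p^(n+1)`. -/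
def levelRoots (R : Type*) [Field R] (p : ℕ) : ℕ → Finset R
  | 0 => oddRoots R p 0
  | n + 1 => (oddRoots R p (n + 1)).filter fun η => η ^ ((p - 1) * p ^ n) ≠ 1

theorem phi_pos (n : ℕ) : 0 < (p - 1) * p ^ n :=
  Nat.mul_pos (Nat.sub_pos_of_lt hp.out.one_lt) (pow_pos hp.out.pos _)

theorem mem_oddRoots {R : Type*} [Field R] {n : ℕ} {η : R} :
    η ∈ oddRoots R p n ↔ η ^ ((p - 1) * p ^ n) = 1 ∧ η ^ ((p - 1) * p ^ n / 2) = -1 := by
  rw [oddRoots, Finset.mem_filter, Polynomial.mem_nthRootsFinset (phi_pos n)]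

theorem two_dvd_phi (hp2 : p ≠ 2) (n : ℕ) : 2 ∣ (p - 1) * p ^ n :=
  ((hp.out.odd_of_ne_two hp2).tsub_odd odd_one).two_dvd.mul_right _

/-- The generator as a unit. -/
def genUnit (hg : IsGen p g) (n : ℕ) : (ZMod (p ^ (n + 1)))ˣ :=
  ((orderOf_pos_iff.mp (by rw [hg.2 n]; exact phi_pos n) : IsOfFinOrder (g : ZMod (p ^ (n + 1)))).isUnit).unit

theorem genUnit_val (hg : IsGen p g) (n : ℕ) : (genUnit hg n : ZMod (p ^ (n + 1))) = g := IsUnit.unit_spec _

theorem orderOf_genUnit (hg : IsGen p g) (n : ℕ) : orderOf (genUnit hg n) = (p - 1) * p ^ n := by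
  rw [← orderOf_units, genUnit_val, hg.2 n]

theorem card_units_level (n : ℕ) : Nat.card (ZMod (p ^ (n + 1)))ˣ = (p - 1) * p ^ n := by
  haveI : NeZero (p ^ (n + 1)) := ⟨pow_ne_zero _ hp.out.ne_zero⟩
  rw [Nat.card_eq_fintype_card, ZMod.card_units_eq_totient, Nat.totient_prime_pow_succ hp.out, mul_comm]

theorem mem_zpowers_genUnit (hg : IsGen p g) (n : ℕ) (x : (ZMod (p ^ (n + 1)))ˣ) :
    x ∈ Subgroup.zpowers (genUnit hg n) := by
  haveI : NeZero (p ^ (n + 1)) := ⟨pow_ne_zero _ hp.out.ne_zero⟩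
  rw [Subgroup.eq_top_of_card_eq (Subgroup.zpowers (genUnit hg n))
    (by rw [Nat.card_zpowers, orderOf_genUnit, card_units_level])]
  exact Subgroup.mem_top x

theorem exists_pow_genUnit (hg : IsGen p g) (n : ℕ) (x : (ZMod (p ^ (n + 1)))ˣ) :
    ∃ k < (p - 1) * p ^ n, genUnit hg n ^ k = x := by
  haveI : NeZero (p ^ (n + 1)) := ⟨pow_ne_zero _ hp.out.ne_zero⟩
  obtain ⟨k, hk⟩ := (Submonoid.mem_powers_iff _ _).mp
    ((mem_powers_iff_mem_zpowers).mpr (mem_zpowers_genUnit hg n x))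
  exact ⟨k % ((p - 1) * p ^ n), Nat.mod_lt _ (phi_pos n), by rw [← orderOf_genUnit hg n, pow_mod_orderOf, hk]⟩

/-- `-1` is the middle power of the generator. -/
theorem pow_half_eq_neg_one (hp2 : p ≠ 2) (hg : IsGen p g) (n : ℕ) :
    (g : ZMod (p ^ (n + 1))) ^ ((p - 1) * p ^ n / 2) = -1 := by
  haveI : NeZero (p ^ (n + 1)) := ⟨pow_ne_zero _ hp.out.ne_zero⟩
  obtain ⟨k, hk, hk'⟩ := exists_pow_genUnit hg n (-1)
  set φ := (p - 1) * p ^ n
  have h2 : φ ∣ 2 * k := by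
    rw [show φ = orderOf (genUnit hg n) from (orderOf_genUnit hg n).symm, orderOf_dvd_iff_pow_eq_one, mul_comm,
      pow_mul, hk', neg_one_sq]
  have hne : k ≠ 0 := by
    rintro rfl
    haveI : Fact (2 < p ^ (n + 1)) := ⟨lt_of_lt_of_le
      (show 2 < p by have := hp.out.two_le; omega) (Nat.le_self_pow (Nat.succ_ne_zero n) p)⟩
    rw [pow_zero, Units.ext_iff, Units.val_one, Units.val_neg, Units.val_one] at hk'
    exact ZMod.neg_one_ne_one hk'.symm
  obtain ⟨t, ht⟩ := h2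
  have ht1 : t = 1 := by
    rcases t with _ | _ | t
    · omega
    · rfl
    · have : φ * 2 ≤ φ * (t + 1 + 1) := Nat.mul_le_mul_left φ (by omega)
      omega
  rw [ht1, mul_one] at ht
  rw [show φ / 2 = k by omega, ← genUnit_val hg n, ← Units.val_pow_eq_pow_val, hk', Units.val_neg, Units.val_one]

theorem char_ext (hg : IsGen p g) {n : ℕ} {χ χ' : DirichletCharacter ℂ (p ^ (n + 1))}
    (h : χ (g : ZMod (p ^ (n + 1))) = χ' (g : ZMod (p ^ (n + 1)))) : χ = χ' := by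
  haveI : NeZero (p ^ (n + 1)) := ⟨pow_ne_zero _ hp.out.ne_zero⟩
  refine MulChar.ext fun a => ?_
  obtain ⟨k, -, rfl⟩ := exists_pow_genUnit hg n a
  rw [Units.val_pow_eq_pow_val, map_pow, map_pow, genUnit_val, h]

theorem exists_char (hg : IsGen p g) {n : ℕ} {η : ℂ} (hη : η ^ ((p - 1) * p ^ n) = 1) :
    ∃ χ : DirichletCharacter ℂ (p ^ (n + 1)), χ (g : ZMod (p ^ (n + 1))) = η := by
  haveI : NeZero (p ^ (n + 1)) := ⟨pow_ne_zero _ hp.out.ne_zero⟩
  have h0 : η ≠ 0 := fun e => by simp [e, zero_pow (phi_pos (p := p) n).ne'] at hη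
  have hord : orderOf (Units.mk0 η h0) ∣ orderOf (genUnit hg n) := by
    rw [orderOf_genUnit]
    exact orderOf_dvd_iff_pow_eq_one.mpr (Units.ext (by rw [Units.val_pow_eq_pow_val, Units.val_mk0, hη]; rfl))
  refine ⟨MulChar.ofUnitHom (monoidHomOfForallMemZpowers (mem_zpowers_genUnit hg n) hord), ?_⟩
  rw [← genUnit_val hg n, MulChar.ofUnitHom_coe, monoidHomOfForallMemZpowers_apply_gen, Units.val_mk0]

omit hp in
theorem char_gen_pow (hg : IsGen p g) {n : ℕ} (χ : DirichletCharacter ℂ (p ^ (n + 1))) :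
    χ (g : ZMod (p ^ (n + 1))) ^ ((p - 1) * p ^ n) = 1 := by
  rw [← map_pow, ← hg.2 n, pow_orderOf_eq_one, map_one]

theorem odd_iff_gen (hp2 : p ≠ 2) (hg : IsGen p g) {n : ℕ} (χ : DirichletCharacter ℂ (p ^ (n + 1))) :
    χ.Odd ↔ χ (g : ZMod (p ^ (n + 1))) ^ ((p - 1) * p ^ n / 2) = -1 := by
  rw [← map_pow, pow_half_eq_neg_one hp2 hg]
  rfl

/-- `B_{1,χ}` from the powers of the generator. -/
theorem bernoulliOne_eq (hg : IsGen p g) {n : ℕ} [NeZero (p ^ (n + 1))]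
    (χ : DirichletCharacter ℂ (p ^ (n + 1))) :
    FA.AbelianFE.bernoulliOne χ = stickSum p g n (χ (g : ZMod (p ^ (n + 1)))) / ((p ^ (n + 1) : ℕ) : ℂ) := by
  rw [FA.AbelianFE.bernoulliOne, stickSum]
  congr 1
  rw [← Finset.sum_filter_of_ne (p := fun a : ZMod (p ^ (n + 1)) => IsUnit a)
    fun a _ ha => by_contra fun hu => ha (by rw [χ.map_nonunit hu, zero_mul])]
  symm
  refine Finset.sum_bij (fun k _ => (g : ZMod (p ^ (n + 1))) ^ k) (fun k _ => ?_) (fun i hi j hj e => ?_)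
    (fun a ha => ?_) fun k _ => by rw [map_pow]; rfl
  · refine Finset.mem_filter.mpr ⟨Finset.mem_univ _, ?_⟩
    rw [← genUnit_val hg n]
    exact (genUnit hg n).isUnit.pow k
  · rw [Finset.mem_range, ← hg.2 n] at hi hj
    exact pow_injOn_Iio_orderOf hi hj e
  · obtain ⟨k, hk, hk'⟩ := exists_pow_genUnit hg n (Finset.mem_filter.mp ha).2.unit
    refine ⟨k, Finset.mem_range.mpr hk, ?_⟩
    rw [← genUnit_val hg n, ← Units.val_pow_eq_pow_val, hk', IsUnit.unit_spec]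

/-- The factor `-B_{1,χ₀}/2`. -/
def term {N : ℕ} (χ : DirichletCharacter ℂ N) : ℂ :=
  -(FA.AbelianFE.bernoulliOne' χ.conductor χ.primitiveCharacter) / 2

theorem term_of_primitive (hg : IsGen p g) {n : ℕ} {χ : DirichletCharacter ℂ (p ^ (n + 1))} (hχ : χ.IsPrimitive) :
    term χ = bval p g n (χ (g : ZMod (p ^ (n + 1)))) := by
  haveI : NeZero (p ^ (n + 1)) := ⟨pow_ne_zero _ hp.out.ne_zero⟩
  rw [term, FA.AbelianFE.primitive_unique dvd_rfl hχ (changeLevel_self χ) FA.AbelianFE.bernoulliOne',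
    FA.AbelianFE.bernoulliOne'_eq, bernoulliOne_eq hg, bval]
  ring

/-- The product over the odd characters. -/
def oddProduct (p n : ℕ) : ℂ :=
  ∏ χ ∈ (Finset.univ : Finset (DirichletCharacter ℂ (p ^ (n + 1)))).filter (fun χ => χ.Odd), term χ

theorem oddProduct_zero (hp2 : p ≠ 2) (hg : IsGen p g) :
    oddProduct p 0 = ∏ η ∈ levelRoots ℂ p 0, bval p g 0 η := by
  haveI : NeZero (p ^ (0 + 1)) := ⟨pow_ne_zero _ hp.out.ne_zero⟩
  have hprim : ∀ χ : DirichletCharacter ℂ (p ^ (0 + 1)), χ.Odd → χ.IsPrimitive := fun χ hχ => by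
    rcases (Nat.dvd_prime hp.out).mp (χ.conductor_dvd_level.trans (by rw [pow_one])) with h | h
    · have h' : χ (-1) = -1 := hχ
      rw [χ.eq_one_iff_conductor_eq_one.mpr h, MulChar.one_apply isUnit_one.neg] at h'
      norm_num at h'
    · rw [isPrimitive_def, h, pow_one]
  refine Finset.prod_bij (fun χ _ => χ (g : ZMod (p ^ (0 + 1)))) (fun χ hχ => ?_) (fun χ _ χ' _ e => char_ext hg e)
    (fun η hη => ?_) fun χ hχ => term_of_primitive hg (hprim χ (Finset.mem_filter.mp hχ).2)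
  · exact mem_oddRoots.mpr ⟨char_gen_pow hg χ, (odd_iff_gen hp2 hg χ).mp (Finset.mem_filter.mp hχ).2⟩
  · obtain ⟨h1, h2⟩ := mem_oddRoots.mp hη
    obtain ⟨χ, rfl⟩ := exists_char hg h1
    exact ⟨χ, Finset.mem_filter.mpr ⟨Finset.mem_univ _, (odd_iff_gen hp2 hg χ).mpr h2⟩, rfl⟩

/-- Conductor below the level, at the generator. -/
theorem conductor_dvd_iff_gen (hg : IsGen p g) {n : ℕ} (χ : DirichletCharacter ℂ (p ^ (n + 1 + 1))) :
    χ.conductor ∣ p ^ (n + 1) ↔ χ (g : ZMod (p ^ (n + 1 + 1))) ^ ((p - 1) * p ^ n) = 1 := by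
  haveI : NeZero (p ^ (n + 1 + 1)) := ⟨pow_ne_zero _ hp.out.ne_zero⟩
  have hd : p ^ (n + 1) ∣ p ^ (n + 1 + 1) := pow_dvd_pow p (Nat.le_succ _)
  rw [← mem_conductorSet_iff_conductor_dvd χ hd, mem_conductorSet_iff]
  constructor
  · rintro ⟨h, χ₀, rfl⟩
    rw [← genUnit_val hg (n + 1), changeLevel_eq_cast_of_dvd _ h, genUnit_val,
      ← ZMod.castHom_apply (h := h) (R := ZMod (p ^ (n + 1))), map_natCast, char_gen_pow hg χ₀]
  · intro h
    refine (factorsThrough_iff_ker_unitsMap hd).mpr fun u hu => MonoidHom.mem_ker.mpr (Units.ext ?_)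
    obtain ⟨k, -, rfl⟩ := exists_pow_genUnit hg (n + 1) u
    rw [MonoidHom.mem_ker, map_pow, Units.ext_iff, Units.val_pow_eq_pow_val, ZMod.unitsMap_val, genUnit_val,
      Units.val_one, ← ZMod.castHom_apply (h := hd) (R := ZMod (p ^ (n + 1))), map_natCast,
      ← orderOf_dvd_iff_pow_eq_one, hg.2 n] at hu
    obtain ⟨t, rfl⟩ := hu
    rw [MulChar.coe_toUnitHom, Units.val_pow_eq_pow_val, map_pow, genUnit_val, pow_mul, h, one_pow, Units.val_one]

theorem oddProduct_succ (hp2 : p ≠ 2) (hg : IsGen p g) (n : ℕ) :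
    oddProduct p (n + 1) = oddProduct p n * ∏ η ∈ levelRoots ℂ p (n + 1), bval p g (n + 1) η := by
  haveI : NeZero (p ^ (n + 1)) := ⟨pow_ne_zero _ hp.out.ne_zero⟩
  haveI : NeZero (p ^ (n + 1 + 1)) := ⟨pow_ne_zero _ hp.out.ne_zero⟩
  have hd : p ^ (n + 1) ∣ p ^ (n + 1 + 1) := pow_dvd_pow p (Nat.le_succ _)
  have hneg : ∀ χ₀ : DirichletCharacter ℂ (p ^ (n + 1)), changeLevel hd χ₀ (-1) = χ₀ (-1) := fun χ₀ => by
    show changeLevel hd χ₀ ((-1 : (ZMod (p ^ (n + 1 + 1)))ˣ) : ZMod (p ^ (n + 1 + 1))) = _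
    rw [changeLevel_eq_cast_of_dvd _ hd, Units.val_neg, Units.val_one,
      ← ZMod.castHom_apply (h := hd) (R := ZMod (p ^ (n + 1))), map_neg, map_one]
  have hprim : ∀ χ : DirichletCharacter ℂ (p ^ (n + 1 + 1)), ¬ χ.conductor ∣ p ^ (n + 1) → χ.IsPrimitive :=
    fun χ h => by
    obtain ⟨j, hj, hc⟩ := (Nat.dvd_prime_pow hp.out).mp χ.conductor_dvd_level
    rcases Nat.lt_or_ge j (n + 1 + 1) with hlt | hge
    · exact absurd (hc ▸ pow_dvd_pow p (Nat.lt_succ_iff.mp hlt)) h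
    · rw [isPrimitive_def, hc, le_antisymm hj hge]
  rw [oddProduct, ← Finset.prod_filter_mul_prod_filter_not _ (fun χ => χ.conductor ∣ p ^ (n + 1))]
  congr 1
  · symm
    refine Finset.prod_bij (fun χ₀ _ => changeLevel hd χ₀) (fun χ₀ h => ?_)
      (fun _ _ _ _ e => changeLevel_injective hd e) (fun χ h => ?_) fun χ₀ _ => ?_
    · refine Finset.mem_filter.mpr ⟨Finset.mem_filter.mpr ⟨Finset.mem_univ _, ?_⟩, ?_⟩
      · show changeLevel hd χ₀ (-1) = -1
        rw [hneg]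
        exact (Finset.mem_filter.mp h).2
      · rw [conductor_changeLevel]
        exact χ₀.conductor_dvd_level
    · obtain ⟨h1, h2⟩ := Finset.mem_filter.mp h
      obtain ⟨_, χ₀, rfl⟩ := (mem_conductorSet_iff_conductor_dvd χ hd).mpr h2
      refine ⟨χ₀, Finset.mem_filter.mpr ⟨Finset.mem_univ _, ?_⟩, rfl⟩
      show χ₀ (-1) = -1
      rw [← hneg]
      exact (Finset.mem_filter.mp h1).2
    · haveI : NeZero χ₀.conductor := ⟨χ₀.conductor_ne_zero⟩
      rw [term, term, FA.AbelianFE.primitive_unique (χ₀.conductor_dvd_level.trans hd)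
        χ₀.primitiveCharacter_isPrimitive (χ := changeLevel hd χ₀)
        (by rw [changeLevel_trans _ χ₀.conductor_dvd_level hd, changeLevel_primitiveCharacter])
        FA.AbelianFE.bernoulliOne']
  · refine Finset.prod_bij (fun χ _ => χ (g : ZMod (p ^ (n + 1 + 1)))) (fun χ hχ => ?_)
      (fun χ _ χ' _ e => char_ext hg e) (fun η hη => ?_)
      fun χ hχ => term_of_primitive hg (hprim χ (Finset.mem_filter.mp hχ).2)
    · obtain ⟨h1, h2⟩ := Finset.mem_filter.mp hχ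
      exact Finset.mem_filter.mpr ⟨mem_oddRoots.mpr ⟨char_gen_pow hg χ,
        (odd_iff_gen hp2 hg χ).mp (Finset.mem_filter.mp h1).2⟩, fun e => h2 ((conductor_dvd_iff_gen hg χ).mpr e)⟩
    · obtain ⟨h0, h3⟩ := Finset.mem_filter.mp hη
      obtain ⟨h1, h2⟩ := mem_oddRoots.mp h0
      obtain ⟨χ, rfl⟩ := exists_char hg h1
      exact ⟨χ, Finset.mem_filter.mpr ⟨Finset.mem_filter.mpr ⟨Finset.mem_univ _, (odd_iff_gen hp2 hg χ).mpr h2⟩,
        fun e => h3 ((conductor_dvd_iff_gen hg χ).mp e)⟩, rfl⟩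

theorem oddProduct_eq (hp2 : p ≠ 2) (hg : IsGen p g) (n : ℕ) :
    oddProduct p n = ∏ m ∈ Finset.range (n + 1), ∏ η ∈ levelRoots ℂ p m, bval p g m η := by
  induction n with
  | zero => rw [Finset.prod_range_one, oddProduct_zero hp2 hg]
  | succ n ih => rw [oddProduct_succ hp2 hg, ih, Finset.prod_range_succ _ (n + 1)]

set_option backward.isDefEq.respectTransparency false in
/-- **The formula at level `p^(n+1)`.** -/
theorem classNumber_eq (hp2 : p ≠ 2) (hg : IsGen p g) (n : ℕ) (K : Type*) [Field K] [NumberField K]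
    [IsCyclotomicExtension {p ^ (n + 1)} ℚ K] [IsCMField K] :
    (classNumber K : ℂ) = classNumber (maximalRealSubfield K) * (IsCMField.indexRealUnits K : ℂ) *
      Units.torsionOrder K * ∏ m ∈ Finset.range (n + 1), ∏ η ∈ levelRoots ℂ p m, bval p g m η := by
  haveI : NeZero (p ^ (n + 1)) := ⟨pow_ne_zero _ hp.out.ne_zero⟩
  haveI : IsAbelianGalois ℚ K := IsCyclotomicExtension.isAbelianGalois {p ^ (n + 1)} ℚ K
  have h := FA.AbelianFE.relativeClassNumber_eq (p ^ (n + 1)) K K (AlgHom.id ℚ K)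
  rw [h, ← oddProduct_eq hp2 hg n, oddProduct]
  congr 1
  refine Finset.prod_congr (Finset.filter_congr fun χ _ => and_iff_right ?_) fun _ _ => rfl
  refine (FA.AbelianZeta.mem_fieldChars_iff _ _ _).mpr fun σ hσ => ?_
  have h1 : σ = 1 := AlgEquiv.ext fun x =>
    (IntermediateField.mem_fixingSubgroup_iff _ _).mp hσ x ⟨x, rfl⟩
  rw [h1, map_one, Units.val_one, map_one]

end FA.IwasawaMinus
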