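import Fermat.Agent.IwasawaMinus.Crossing

/-!
# A jump inside one coset

Two units which differ in the single term of `g^0` among the translates by `g^(M j)`, `M = p^(n - m₀)`,
`0 ≤ j < (p - 1)/2 · p^(m₀)`.
-/

set_option autoImplicit false
set_option linter.style.haveILetI false

noncomputable section

open Polynomial
open scoped Classical

namespace FA.IwasawaMinus

variable {p : ℕ} [hp : Fact p.Prime] {g : ℕ}

/-- The coordinates of `ζ ^ i`, with `±1` written by the first one. -/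
def coordCoeff (p i j : ℕ) : ℤ :=
  if i = 0 then (if j = 0 then 1 else 0)
  else if i = (p - 1) / 2 then (if j = 0 then -1 else 0) else expCoeff p i j

theorem pow_eq_sum_coordCoeff (hp2 : p ≠ 2) (hg : IsGen p g) (n i : ℕ) :
    gzeta p g n ^ i = ∑ j : Fin (Nat.totient (p - 1)),
      (coordCoeff p i j : ZMod (p ^ (n + 1))) * gzeta p g n ^ (j : ℕ) := by
  have hr : 0 < Nat.totient (p - 1) := Nat.totient_pos.mpr (Nat.sub_pos_of_lt hp.out.one_lt)
  unfold coordCoeff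
  split_ifs with h0 hh
  · subst h0
    rw [Finset.sum_eq_single ⟨0, hr⟩ (fun j _ hj => by
      rw [if_neg fun e => hj (Fin.ext e), Int.cast_zero, zero_mul]) (fun h => absurd (Finset.mem_univ _) h)]
    simp
  · subst hh
    rw [gzeta_pow_half hp2 hg, Finset.sum_eq_single ⟨0, hr⟩ (fun j _ hj => by
      rw [if_neg fun e => hj (Fin.ext e), Int.cast_zero, zero_mul]) (fun h => absurd (Finset.mem_univ _) h)]
    simp
  · exact pow_eq_sum_expCoeff (aeval_gzeta_cyclotomic hg n) i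

/-- The linear form of `ζ ^ i`. -/
def coordForm (p i : ℕ) (y : Fin (Nat.totient (p - 1)) → ℝ) : ℝ :=
  ∑ j : Fin (Nat.totient (p - 1)), (coordCoeff p i (j : ℕ) : ℝ) * y j

/-- The point of the crossing. -/
def crossPoint (p c : ℕ) : Fin (Nat.totient (p - 1)) → ℝ :=
  fun j => if (j : ℕ) = 0 then (c : ℝ)⁻¹ else liouvilleNumber 2 ^ (j : ℕ)

theorem cross_ne_int (hp2 : p ≠ 2) {c : ℕ} (hc : c ≠ 0) (hpc : ¬ p ∣ c) {m₀ i σ : ℕ} (hi : i < p - 1)
    (hσ : σ < p ^ m₀) (hbad : ¬ (σ = 0 ∧ (i = 0 ∨ i = (p - 1) / 2))) (z : ℤ) :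
    (c : ℝ) * (coordForm p i (crossPoint p c) + (σ : ℝ) / (p ^ m₀ : ℕ)) ≠ z := fun e => by
  have hP : ((p ^ m₀ : ℕ) : ℝ) ≠ 0 := Nat.cast_ne_zero.mpr (pow_ne_zero _ hp.out.ne_zero)
  have hcR : (c : ℝ) ≠ 0 := Nat.cast_ne_zero.mpr hc
  have hr : 0 < Nat.totient (p - 1) := Nat.totient_pos.mpr (Nat.sub_pos_of_lt hp.out.one_lt)
  by_cases hpm : i = 0 ∨ i = (p - 1) / 2
  · have hσ0 : σ ≠ 0 := fun h => hbad ⟨h, hpm⟩
    have hdiv : ∀ k : ℤ, ((c * σ : ℕ) : ℝ) = (p ^ m₀ : ℕ) * (k : ℝ) → False := fun k hk => by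
      have hdvd : ((p ^ m₀ : ℕ) : ℤ) ∣ ((c * σ : ℕ) : ℤ) := Dvd.intro k (by exact_mod_cast hk.symm)
      exact hσ0 (Nat.eq_zero_of_dvd_of_lt ((Nat.Coprime.pow_left m₀
        (hp.out.coprime_iff_not_dvd.mpr hpc)).dvd_of_dvd_mul_left (Int.natCast_dvd_natCast.mp hdvd)) hσ)
    have h0 : ∀ s : ℤ, (∀ j : Fin (Nat.totient (p - 1)), coordCoeff p i j = if (j : ℕ) = 0 then s else 0) →
        coordForm p i (crossPoint p c) = s * (c : ℝ)⁻¹ := fun s hs => by
      rw [coordForm, Finset.sum_eq_single ⟨0, hr⟩ (fun j _ hj => by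
        rw [hs, if_neg fun e => hj (Fin.ext e), Int.cast_zero, zero_mul]) (fun h => absurd (Finset.mem_univ _) h),
        hs, crossPoint, if_pos rfl, if_pos rfl]
    rcases hpm with rfl | rfl
    · rw [h0 1 fun j => by simp [coordCoeff], Int.cast_one, one_mul, mul_add, mul_inv_cancel₀ hcR] at e
      refine hdiv (z - 1) ?_
      field_simp at e
      push_cast at e ⊢
      linarith
    · have hh0 : (p - 1) / 2 ≠ 0 := by
        have := hp.out.two_le
        omega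
      rw [h0 (-1) fun j => by simp [coordCoeff, hh0], Int.cast_neg, Int.cast_one, neg_mul, one_mul, mul_add,
        mul_neg, mul_inv_cancel₀ hcR] at e
      refine hdiv (z + 1) ?_
      field_simp at e
      push_cast at e ⊢
      linarith
  push Not at hpm
  obtain ⟨j₀, hj₀, hA⟩ := exists_expCoeff_ne_zero hp2 hi hpm.1 hpm.2
  set P := p ^ m₀ with hPdef
  set Q : ℤ[X] := ∑ j : Fin (Nat.totient (p - 1)),
    C (if (j : ℕ) = 0 then (P : ℤ) * coordCoeff p i j + (c : ℤ) * σ - (P : ℤ) * z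
      else (P : ℤ) * c * coordCoeff p i j) * X ^ (j : ℕ) with hQ
  have hQ0 : Q ≠ 0 := fun e0 => by
    have h := congrArg (fun q => Polynomial.coeff q (j₀ : ℕ)) e0
    simp only [hQ, finsetSum_coeff, coeff_C_mul_X_pow, coeff_zero] at h
    rw [Finset.sum_eq_single j₀ (fun b _ hb => if_neg fun e => hb (Fin.ext e.symm))
      (fun h => absurd (Finset.mem_univ _) h), if_pos rfl, if_neg hj₀, coordCoeff, if_neg hpm.1, if_neg hpm.2] at h
    refine hA ((mul_eq_zero.mp h).resolve_left (mul_ne_zero ?_ (Nat.cast_ne_zero.mpr hc)))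
    exact Nat.cast_ne_zero.mpr (pow_ne_zero _ hp.out.ne_zero)
  have hs : Transcendental ℤ (liouvilleNumber 2) := by simpa using transcendental_liouvilleNumber (m := 2) le_rfl
  refine hs ⟨Q, hQ0, ?_⟩
  have hterm : ∀ j : Fin (Nat.totient (p - 1)), aeval (liouvilleNumber 2)
      (C (if (j : ℕ) = 0 then (P : ℤ) * coordCoeff p i j + (c : ℤ) * σ - (P : ℤ) * z
        else (P : ℤ) * c * coordCoeff p i j) * X ^ (j : ℕ)) =
      (P : ℝ) * c * ((coordCoeff p i j : ℝ) * crossPoint p c j) +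
        if (j : ℕ) = 0 then (c : ℝ) * σ - (P : ℝ) * z else 0 := fun j => by
    rw [map_mul, aeval_C, algebraMap_int_eq, map_pow, aeval_X, crossPoint, eq_intCast]
    split_ifs with hj
    · rw [hj, pow_zero, mul_one]
      push_cast
      field_simp
      ring
    · push_cast
      ring
  rw [hQ, map_sum, Finset.sum_congr rfl fun j _ => hterm j, Finset.sum_add_distrib, ← Finset.mul_sum,
    Finset.sum_eq_single ⟨0, hr⟩ (fun j _ hj => if_neg fun e => hj (Fin.ext e))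
      (fun h => absurd (Finset.mem_univ _) h), if_pos rfl, ← coordForm]
  field_simp at e
  linarith

/-- `g ^ (M j)` is `ζ ^ j` up to a multiple of `p ^ (n + 1 - m₀)`. -/
theorem exists_pow_eq_add (hg : IsGen p g) {n m₀ : ℕ} (hn : m₀ ≤ n) (j : ℕ) :
    ∃ t : ℕ, (g : ZMod (p ^ (n + 1))) ^ (p ^ (n - m₀) * j) =
      gzeta p g n ^ j + ((p ^ (n + 1 - m₀) : ℕ) : ZMod (p ^ (n + 1))) * (t : ZMod (p ^ (n + 1))) := by
  haveI : NeZero (p ^ (n + 1)) := ⟨pow_ne_zero _ hp.out.ne_zero⟩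
  set n' := n - m₀ with hn'
  rw [show n + 1 - m₀ = n' + 1 by omega]
  set x := (g : ZMod (p ^ (n + 1))) ^ (p ^ n' * j) - gzeta p g n ^ j
  have hdvd : p ^ (n' + 1) ∣ p ^ (n + 1) := pow_dvd_pow p (by omega)
  have h0 : ZMod.castHom hdvd (ZMod (p ^ (n' + 1))) x = 0 := by
    rw [map_sub, map_pow, map_natCast, map_pow, gzeta, map_pow, map_natCast, sub_eq_zero, pow_mul]
    congr 1
    obtain ⟨q, hq⟩ : p - 1 ∣ p ^ m₀ - 1 := by simpa using Nat.sub_dvd_pow_sub_pow p 1 m₀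
    have h1 : ((g : ZMod (p ^ (n' + 1))) ^ p ^ n') ^ (p - 1) = 1 := gzeta_pow_card hg n'
    have hp1 : 1 ≤ p ^ m₀ := Nat.one_le_pow _ _ hp.out.pos
    rw [show p ^ n = p ^ n' * ((p - 1) * q + 1) by
      rw [← hq, Nat.sub_add_cancel hp1, ← pow_add]; congr 1; omega, pow_mul _ (p ^ n'), pow_add _ ((p - 1) * q),
      pow_mul _ (p - 1), h1, one_pow, one_mul, pow_one]
  rw [← ZMod.natCast_zmod_val x, map_natCast, ZMod.natCast_eq_zero_iff] at h0
  obtain ⟨t, ht⟩ := h0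
  exact ⟨t, by rw [← Nat.cast_mul, ← ht, ZMod.natCast_zmod_val, add_sub_cancel]⟩

/-- **The single jump.** -/
theorem eventually_single_jump (hp2 : p ≠ 2) (hg : IsGen p g) {c : ℕ} (hc : 2 ≤ c) (hpc : ¬ p ∣ c) {m₀ : ℕ}
    (hm₀ : 1 ≤ m₀) :
    ∀ᶠ n in Filter.atTop, ∃ β β' : ZMod (p ^ (n + 1)), IsUnit β ∧ IsUnit β' ∧
      c * β.val / p ^ (n + 1) = 1 ∧ c * β'.val / p ^ (n + 1) = 0 ∧
      ∀ j, 0 < j → j < (p - 1) / 2 * p ^ m₀ →
        c * (β * (g : ZMod (p ^ (n + 1))) ^ (p ^ (n - m₀) * j)).val / p ^ (n + 1) =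
          c * (β' * (g : ZMod (p ^ (n + 1))) ^ (p ^ (n - m₀) * j)).val / p ^ (n + 1) := by
  have hp1 : 0 < p - 1 := Nat.sub_pos_of_lt hp.out.one_lt
  have hr : 0 < Nat.totient (p - 1) := Nat.totient_pos.mpr hp1
  have hcR : (2 : ℝ) ≤ c := by exact_mod_cast hc
  set good := ((Finset.range (p - 1)) ×ˢ (Finset.range (p ^ m₀))).filter
    fun x => ¬ (x.2 = 0 ∧ (x.1 = 0 ∨ x.1 = (p - 1) / 2)) with hgood
  set Φ : ℕ × ℕ → (Fin (Nat.totient (p - 1)) → ℝ) → ℝ := fun x y => coordForm p x.1 y + (x.2 : ℝ) / (p ^ m₀ : ℕ)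
    with hΦ
  have hnon : ∀ x ∈ good, ∀ m : ℤ, (c : ℝ) * Φ x (crossPoint p c) ≠ m := fun x hx m => by
    obtain ⟨hmem, hb⟩ := Finset.mem_filter.mp hx
    obtain ⟨h1, h2⟩ := Finset.mem_product.mp hmem
    exact cross_ne_int hp2 (by omega) hpc (Finset.mem_range.mp h1) (Finset.mem_range.mp h2) hb m
  have hev : ∀ᶠ y in nhds (crossPoint p c), ∀ x ∈ good,
      ⌊(c : ℝ) * Φ x y⌋ = ⌊(c : ℝ) * Φ x (crossPoint p c)⌋ ∧ ⌊Φ x y⌋ = ⌊Φ x (crossPoint p c)⌋ := by
    have hfloor : ∀ (G : (Fin (Nat.totient (p - 1)) → ℝ) → ℝ), Continuous G →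
        (∀ m : ℤ, G (crossPoint p c) ≠ m) → ∀ᶠ y in nhds (crossPoint p c), ⌊G y⌋ = ⌊G (crossPoint p c)⌋ :=
      fun G hG hne => by
        filter_upwards [hG.continuousAt.eventually (Ioo_mem_nhds ((Int.floor_le _).lt_of_ne fun e => hne _ e.symm)
          (Int.lt_floor_add_one _))] with y hy
        exact Int.floor_eq_iff.mpr ⟨hy.1.le, hy.2⟩
    have hcont : ∀ x, Continuous (Φ x) := fun x => by
      rw [hΦ]
      exact (continuous_finsetSum _ fun j _ => continuous_const.mul (continuous_apply j)).add continuous_const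
    exact (Filter.eventually_all_finset _).mpr fun x hx =>
      (hfloor _ (continuous_const.mul (hcont x)) (hnon x hx)).and
        (hfloor _ (hcont x) fun m e => hnon x hx (c * m) (by rw [e]; push_cast; rfl))
  obtain ⟨ρ, hρ, hball⟩ := Metric.eventually_nhds_iff.mp hev
  set ε := min (ρ / 3) (2 * (c : ℝ))⁻¹ with hεdef
  have hε : 0 < ε := lt_min (by positivity) (by positivity)
  have hερ : 2 * ε < ρ := by linarith [min_le_left (ρ / 3) (2 * (c : ℝ))⁻¹]
  have hεc : 2 * ε ≤ (c : ℝ)⁻¹ := by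
    have h1 : ε ≤ (2 * (c : ℝ))⁻¹ := min_le_right _ _
    rw [mul_inv] at h1
    linarith
  obtain ⟨K, hK⟩ := exists_nat_gt ((Nat.totient (p - 1) : ℝ) / (4 * ε ^ 2))
  rw [div_lt_iff₀' (by positivity)] at hK
  filter_upwards [eventually_injective_pow hg K m₀, Filter.eventually_ge_atTop m₀] with n hsep hn
  haveI : NeZero (p ^ (n + 1)) := ⟨pow_ne_zero _ hp.out.ne_zero⟩
  haveI : Fact (1 < p ^ (n + 1)) := ⟨Nat.one_lt_pow (Nat.succ_ne_zero n) hp.out.one_lt⟩
  set N := p ^ (n + 1) with hN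
  have hNP : p ^ m₀ * p ^ (n + 1 - m₀) = N := by rw [hN, ← pow_add]; congr 1; omega
  have hside : ∀ τ : ℝ, (τ = 1 ∨ τ = -1) → ∃ (β : ZMod N) (y : Fin (Nat.totient (p - 1)) → ℝ),
      IsUnit β ∧ dist y (crossPoint p c) < ρ ∧ |(β.val : ℝ) / N - ((c : ℝ)⁻¹ + τ * ε)| < ε ∧
        ∀ (i t : ℕ), i < p - 1 →
          ((c * (β * (gzeta p g n ^ i + ((p ^ (n + 1 - m₀) : ℕ) : ZMod N) * (t : ZMod N))).val / N : ℕ) : ℤ) =
            ⌊(c : ℝ) * Φ (i, t % p ^ m₀) y⌋ - (c : ℤ) * ⌊Φ (i, t % p ^ m₀) y⌋ := fun τ hτ => by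
    obtain ⟨b, hb⟩ := exists_near (fun j : Fin (Nat.totient (p - 1)) => gzeta p g n ^ (j : ℕ))
      ((p ^ m₀ : ℕ) : ZMod N) (fun j => if (j : ℕ) = 0 then (c : ℝ)⁻¹ + τ * ε else crossPoint p c j) hε hK hsep
    choose m hm using hb
    refine ⟨1 + ((p ^ m₀ : ℕ) : ZMod N) * b, fun j => (((1 + ((p ^ m₀ : ℕ) : ZMod N) * b) *
      gzeta p g n ^ (j : ℕ)).val : ℝ) / N + m j, ?_, ?_, ?_, fun i t hi => ?_⟩
    · refine isUnit_of_castHom_ne_zero _ ?_
      rw [map_add, map_mul, map_natCast, map_one, Nat.cast_pow, ZMod.natCast_self, zero_pow (by omega), zero_mul,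
        add_zero]
      exact one_ne_zero
    · refine (dist_pi_lt_iff hρ).mpr fun j => ?_
      rw [Real.dist_eq]
      have h := hm j
      by_cases hj : (j : ℕ) = 0
      · simp only [crossPoint, if_pos hj] at h ⊢
        rw [abs_lt] at h ⊢
        rcases hτ with rfl | rfl <;> constructor <;> linarith
      · simp only [if_neg hj] at h
        linarith
    · have h := hm ⟨0, hr⟩
      simp only [if_pos, pow_zero, mul_one] at h
      set v := (((1 + ((p ^ m₀ : ℕ) : ZMod N) * b).val : ℝ) / N)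
      have hv0 : 0 ≤ v := by positivity
      have hv1 : v < 1 := (div_lt_one (Nat.cast_pos.mpr (NeZero.pos _))).mpr (Nat.cast_lt.mpr (ZMod.val_lt _))
      have hci : (c : ℝ)⁻¹ ≤ 2⁻¹ := inv_anti₀ two_pos hcR
      rw [abs_lt] at h
      have hlo : (-1 : ℝ) < (m ⟨0, hr⟩ : ℤ) := by rcases hτ with rfl | rfl <;> linarith
      have hhi : ((m ⟨0, hr⟩ : ℤ) : ℝ) < 1 := by rcases hτ with rfl | rfl <;> linarith
      have hm0 : m ⟨0, hr⟩ = 0 := by
        have h1 : (-1 : ℤ) < m ⟨0, hr⟩ := by exact_mod_cast hlo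
        have h2 : m ⟨0, hr⟩ < 1 := by exact_mod_cast hhi
        omega
      rw [hm0, Int.cast_zero, add_zero] at h
      exact abs_lt.mpr h
    · refine div_eq_floor c (ZMod.val_lt _) ?_
      set β := 1 + ((p ^ m₀ : ℕ) : ZMod N) * b
      set a := p ^ (n + 1 - m₀)
      have hβa : β * ((a : ZMod N) * (t : ZMod N)) = ((a * (t % p ^ m₀) : ℕ) : ZMod N) := by
        have h0 : ((p ^ m₀ : ℕ) : ZMod N) * (a : ZMod N) = 0 := by rw [← Nat.cast_mul, hNP, ZMod.natCast_self]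
        conv_lhs => arg 2; arg 2; rw [← Nat.mod_add_div t (p ^ m₀)]
        simp only [β]
        push_cast at h0 ⊢
        linear_combination (((t / p ^ m₀ : ℕ) : ZMod N) + b * ((t % p ^ m₀ : ℕ) : ZMod N) +
          b * (p : ZMod N) ^ m₀ * ((t / p ^ m₀ : ℕ) : ZMod N)) * h0
      obtain ⟨z, hz⟩ := exists_int_of_combination (fun j : Fin (Nat.totient (p - 1)) => coordCoeff p i j)
        (fun j => β * gzeta p g n ^ (j : ℕ)) m (x := β * gzeta p g n ^ i) (by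
          rw [pow_eq_sum_coordCoeff hp2 hg n i, Finset.mul_sum]
          exact Finset.sum_congr rfl fun j _ => by ring)
      obtain ⟨d, hd⟩ : (N : ℤ) ∣ ((β * gzeta p g n ^ i).val : ℤ) + ((a * (t % p ^ m₀) : ℕ) : ℤ) -
          ((β * (gzeta p g n ^ i + (a : ZMod N) * (t : ZMod N))).val : ℤ) := by
        rw [← ZMod.intCast_zmod_eq_zero_iff_dvd]
        rw [Int.cast_sub, Int.cast_add, Int.cast_natCast, Int.cast_natCast, Int.cast_natCast, ZMod.natCast_zmod_val,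
          ZMod.natCast_zmod_val, mul_add, hβa, sub_self]
      refine ⟨z + d, ?_⟩
      have hN0 : (N : ℝ) ≠ 0 := Nat.cast_ne_zero.mpr (NeZero.ne N)
      have hd' := congrArg (fun x : ℤ => (x : ℝ) / N) hd
      simp only [Int.cast_sub, Int.cast_add, Int.cast_mul, Int.cast_natCast, Nat.cast_mul] at hd'
      rw [mul_div_cancel_left₀ _ hN0, sub_div, add_div] at hd'
      have hsig : ((t % p ^ m₀ : ℕ) : ℝ) / (p ^ m₀ : ℕ) = (a : ℝ) * ((t % p ^ m₀ : ℕ) : ℝ) / N := by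
        rw [← hNP, Nat.cast_mul, mul_comm ((p ^ m₀ : ℕ) : ℝ), mul_div_mul_left]
        exact Nat.cast_ne_zero.mpr (pow_ne_zero _ hp.out.ne_zero)
      simp only [hΦ, coordForm]
      rw [← hz, hsig]
      rw [Int.cast_add]
      linarith
  obtain ⟨β, y, hβ, hy, hv, hT⟩ := hside 1 (Or.inl rfl)
  obtain ⟨β', y', hβ', hy', hv', hT'⟩ := hside (-1) (Or.inr rfl)
  rw [abs_lt] at hv hv'
  have hci : (c : ℝ) * (c : ℝ)⁻¹ = 1 := mul_inv_cancel₀ (by positivity)
  refine ⟨β, β', hβ, hβ', jump_one (a := (c : ℝ)⁻¹) (by linarith) (by linarith) (by omega)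
      (by rw [mul_comm, hci, Nat.cast_one]), ?_, fun j hj0 hj => ?_⟩
  · have hv0 : (0 : ℝ) < (β'.val : ℝ) / N := by linarith
    exact jump_one (a := 0) hv0 (by linarith) (by omega) (by simp)
  obtain ⟨t, ht⟩ := exists_pow_eq_add hg hn j
  have hperiod : gzeta p g n ^ j = gzeta p g n ^ (j % (p - 1)) := pow_eq_pow_mod j (gzeta_pow_card hg n)
  have hi := Nat.mod_lt j hp1
  have hmem : (j % (p - 1), t % p ^ m₀) ∈ good := by
    refine Finset.mem_filter.mpr ⟨Finset.mem_product.mpr ⟨Finset.mem_range.mpr hi,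
      Finset.mem_range.mpr (Nat.mod_lt _ (pow_pos hp.out.pos _))⟩, ?_⟩
    rintro ⟨hσ, hpm⟩
    obtain ⟨q, hq⟩ := Nat.dvd_of_mod_eq_zero hσ
    have hsq : (g : ZMod N) ^ (p ^ (n - m₀) * j * 2) = 1 := by
      rw [pow_mul, ht, hq, Nat.cast_mul, ← mul_assoc, ← Nat.cast_mul, mul_comm (p ^ (n + 1 - m₀)), hNP,
        ZMod.natCast_self, zero_mul, add_zero, hperiod]
      rcases hpm with h | h <;> simp only at h <;> rw [h]
      · simp
      · rw [gzeta_pow_half hp2 hg, neg_one_sq]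
    rw [← orderOf_dvd_iff_pow_eq_one, hN, hg.2 n, show (p - 1) * p ^ n = p ^ (n - m₀) * ((p - 1) * p ^ m₀) by
      rw [mul_left_comm, ← pow_add]; congr 2; omega, mul_assoc,
      mul_dvd_mul_iff_left (pow_ne_zero _ hp.out.ne_zero)] at hsq
    have hlt : j * 2 < (p - 1) * p ^ m₀ := by
      calc j * 2 < (p - 1) / 2 * p ^ m₀ * 2 := Nat.mul_lt_mul_of_pos_right hj two_pos
        _ = (p - 1) / 2 * 2 * p ^ m₀ := by ring
        _ ≤ (p - 1) * p ^ m₀ := Nat.mul_le_mul_right _ (Nat.div_mul_le_self _ _)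
    exact absurd (Nat.le_of_dvd (by omega) hsq) (not_le.mpr hlt)
  have e : ((c * (β * (g : ZMod N) ^ (p ^ (n - m₀) * j)).val / N : ℕ) : ℤ) =
      ((c * (β' * (g : ZMod N) ^ (p ^ (n - m₀) * j)).val / N : ℕ) : ℤ) := by
    rw [ht, hperiod, hT _ t hi, hT' _ t hi, (hball hy _ hmem).1, (hball hy _ hmem).2, (hball hy' _ hmem).1,
      (hball hy' _ hmem).2]
  exact Int.ofNat_inj.mp e

end FA.IwasawaMinus
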