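import Mathlib.FieldTheory.KummerExtension
import Mathlib.FieldTheory.Finite.Basic
import Mathlib.NumberTheory.Padics.Complex
import Mathlib.RingTheory.Valuation.ValuationSubring

/-!
# Roots of unity of `p`-power order in characteristic `ℓ`, and the residue field of `ℚ̄_ℓ`

Over the field with `ℓ ^ (p - 1)!` elements a root of unity `e` of order dividing `(p - 1) p^n` has degree
`p ^ (n - m₀)`, `p ^ m₀` the exact power of `p` dividing `ℓ ^ (p - 1)! - 1`.
-/

set_option autoImplicit false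
set_option linter.style.haveILetI false

noncomputable section

open Polynomial

namespace FA.IwasawaMinus

variable (p ℓ : ℕ)

/-- The order of the field. -/
def fieldSize : ℕ := ℓ ^ (p - 1).factorial

/-- The bound `m₀`. -/
def stableLevel : ℕ := padicValNat p (fieldSize p ℓ - 1)

variable {p ℓ} [hp : Fact p.Prime] [hl : Fact ℓ.Prime]

omit hp in
theorem one_lt_fieldSize : 1 < fieldSize p ℓ := Nat.one_lt_pow (Nat.factorial_pos _).ne' hl.out.one_lt

omit hp in
theorem dvd_fieldSize_sub_one {d : ℕ} (hd : Nat.Coprime ℓ d) (h : d.totient ≤ p - 1) (h0 : 0 < d) :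
    d ∣ fieldSize p ℓ - 1 := by
  obtain ⟨q, hq⟩ : d.totient ∣ (p - 1).factorial := Nat.dvd_factorial (Nat.totient_pos.mpr h0) h
  have he : ℓ ^ d.totient ≡ 1 [MOD d] := Nat.ModEq.pow_totient hd
  have := he.pow q
  rw [one_pow, ← pow_mul, ← hq] at this
  exact (Nat.modEq_iff_dvd' (Nat.one_le_pow _ _ hl.out.pos)).mp this.symm

theorem one_le_stableLevel (hne : ℓ ≠ p) : 1 ≤ stableLevel p ℓ := by
  refine one_le_padicValNat_of_dvd (by have := one_lt_fieldSize (p := p) (ℓ := ℓ); omega) ?_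
  exact dvd_fieldSize_sub_one ((Nat.coprime_primes hl.out hp.out).mpr hne)
    (Nat.totient_prime hp.out).le hp.out.pos

section CharL

variable {K : Type*} [Field K] [CharP K ℓ]

/-- The field with `fieldSize` elements. -/
def baseField (p ℓ : ℕ) [Fact ℓ.Prime] (K : Type*) [Field K] [CharP K ℓ] : Subfield K :=
  (iterateFrobenius K ℓ (p - 1).factorial).eqLocusField (RingHom.id K)

omit hp in
theorem mem_baseField {x : K} : x ∈ baseField p ℓ K ↔ x ^ fieldSize p ℓ = x := by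
  rw [baseField, RingHom.mem_eqLocusField, iterateFrobenius_def, RingHom.id_apply, fieldSize]

theorem mem_baseField_of_pow {x : K} (hx : x ^ ((p - 1) * p ^ stableLevel p ℓ) = 1) :
    x ∈ baseField p ℓ K := by
  have hp1 : 0 < p - 1 := Nat.sub_pos_of_lt hp.out.one_lt
  have hfin : IsOfFinOrder x :=
    isOfFinOrder_iff_pow_eq_one.mpr ⟨_, Nat.mul_pos hp1 (pow_pos hp.out.pos _), hx⟩
  set d := orderOf x with hd
  have hd0 : 0 < d := hfin.orderOf_pos
  have hcop : Nat.Coprime ℓ d := by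
    refine hl.out.coprime_iff_not_dvd.mpr fun ⟨e, he⟩ => ?_
    have h1 : (x ^ e) ^ ℓ = 1 := by rw [← pow_mul, mul_comm, ← he, hd, pow_orderOf_eq_one]
    have h2 : x ^ e = 1 := by
      have h3 : (x ^ e - 1) ^ ℓ = 0 := by rw [sub_pow_char, h1, one_pow, sub_self]
      exact sub_eq_zero.mp ((pow_eq_zero_iff hl.out.ne_zero).mp h3)
    have h4 := Nat.le_of_dvd (Nat.pos_of_ne_zero fun h => by rw [h, mul_zero] at he; omega)
      (orderOf_dvd_of_pow_eq_one h2)
    rw [← hd, he] at h4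
    have := Nat.pos_of_ne_zero (fun h : e = 0 => by rw [h, mul_zero] at he; omega)
    have := hl.out.two_le
    nlinarith
  have hdvd : d ∣ (p - 1) * p ^ stableLevel p ℓ := orderOf_dvd_of_pow_eq_one hx
  have hcop2 : Nat.Coprime (p - 1) (p ^ stableLevel p ℓ) := by
    refine Nat.Coprime.pow_right _ (Nat.coprime_comm.mp (hp.out.coprime_iff_not_dvd.mpr fun h => ?_))
    have := Nat.le_of_dvd hp1 h
    omega
  have hsplit : d = Nat.gcd d (p - 1) * Nat.gcd d (p ^ stableLevel p ℓ) := by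
    rw [← hcop2.gcd_mul, Nat.gcd_eq_left hdvd]
  have hQ : d ∣ fieldSize p ℓ - 1 := by
    rw [hsplit]
    refine Nat.Coprime.mul_dvd_of_dvd_of_dvd (Nat.Coprime.coprime_dvd_left (Nat.gcd_dvd_right _ _)
      (hcop2.coprime_dvd_right (Nat.gcd_dvd_right _ _))) ?_ ((Nat.gcd_dvd_right _ _).trans pow_padicValNat_dvd)
    refine dvd_fieldSize_sub_one (hcop.coprime_dvd_right (Nat.gcd_dvd_left _ _)) ?_ (Nat.gcd_pos_of_pos_left _ hd0)
    exact (Nat.totient_le _).trans (Nat.le_of_dvd hp1 (Nat.gcd_dvd_right _ _))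
  rw [mem_baseField]
  have h := orderOf_dvd_iff_pow_eq_one.mp hQ
  calc x ^ fieldSize p ℓ = x ^ (fieldSize p ℓ - 1 + 1) := by
        rw [Nat.sub_add_cancel (one_lt_fieldSize (p := p) (ℓ := ℓ)).le]
    _ = x := by rw [pow_succ, h, one_mul]

omit hp in
theorem pow_fieldSize_sub_one {x : K} (hx : x ∈ baseField p ℓ K) (h0 : x ≠ 0) : x ^ (fieldSize p ℓ - 1) = 1 := by
  rw [mem_baseField] at hx
  refine mul_right_cancel₀ h0 ?_
  rw [← pow_succ, Nat.sub_add_cancel (one_lt_fieldSize (p := p) (ℓ := ℓ)).le, hx, one_mul]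

variable {e : K} {n : ℕ}

/-- No element of the base field has the order of `e`. -/
theorem not_mem_baseField (he : e ^ ((p - 1) * p ^ n) = 1) (he' : e ^ ((p - 1) * p ^ (n - 1)) ≠ 1)
    (hn : stableLevel p ℓ < n) : e ∉ baseField p ℓ K := fun hmem => by
  obtain ⟨k, rfl⟩ : ∃ k, n = k + 1 := ⟨n - 1, by omega⟩
  have he0 : e ≠ 0 := fun h => by
    rw [h, zero_pow (Nat.mul_ne_zero (Nat.sub_pos_of_lt hp.out.one_lt).ne' (pow_ne_zero _ hp.out.ne_zero))] at he
    exact zero_ne_one he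
  have hord : orderOf (e ^ (p - 1)) = p ^ (k + 1) :=
    orderOf_eq_prime_pow (by rw [← pow_mul]; simpa using he') (by rw [← pow_mul]; exact he)
  have hdvd : p ^ (k + 1) ∣ fieldSize p ℓ - 1 := hord ▸ orderOf_dvd_of_pow_eq_one (by
    rw [← pow_mul, mul_comm, pow_mul, pow_fieldSize_sub_one hmem he0, one_pow])
  have := (padicValNat_dvd_iff_le (by have := one_lt_fieldSize (p := p) (ℓ := ℓ); omega)).mp hdvd
  rw [stableLevel] at hn
  omega

/-- **The powers below `p ^ (n - m₀)` are independent over the base field.** -/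
theorem coeff_eq_zero_of_sum (hp2 : p ≠ 2) (hne : ℓ ≠ p) (he : e ^ ((p - 1) * p ^ n) = 1)
    (he' : e ^ ((p - 1) * p ^ (n - 1)) ≠ 1) (hn : stableLevel p ℓ < n) (C₀ : ℕ → baseField p ℓ K)
    (hsum : ∑ r ∈ Finset.range (p ^ (n - stableLevel p ℓ)), (C₀ r : K) * e ^ r = 0) {r : ℕ}
    (hr : r < p ^ (n - stableLevel p ℓ)) : C₀ r = 0 := by
  set m₀ := stableLevel p ℓ with hm₀
  set M := p ^ (n - m₀) with hM
  have h1 := one_le_stableLevel (p := p) (ℓ := ℓ) hne
  have hMP : (p - 1) * p ^ n = M * ((p - 1) * p ^ m₀) := by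
    rw [hM, mul_left_comm, ← pow_add]
    congr 2
    omega
  set a : baseField p ℓ K := ⟨e ^ M, mem_baseField_of_pow (by rw [← pow_mul, ← hm₀, ← hMP, he])⟩
  have hirr : Irreducible (X ^ M - C a) := by
    refine X_pow_sub_C_irreducible_of_prime_pow hp.out hp2 (n - m₀) fun b hb => he' ?_
    have hb' : (b : K) ^ p = e ^ M := congrArg (fun x : baseField p ℓ K => (x : K)) hb
    have hb0 : (b : K) ≠ 0 := fun h => by
      rw [h, zero_pow hp.out.ne_zero, eq_comm] at hb'
      have := congrArg (· ^ ((p - 1) * p ^ m₀)) hb'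
      simp only [← pow_mul, ← hMP, he, zero_pow (Nat.mul_ne_zero (Nat.sub_pos_of_lt hp.out.one_lt).ne'
        (pow_ne_zero _ hp.out.ne_zero))] at this
      exact one_ne_zero this
    obtain ⟨q, hq⟩ : p ^ m₀ ∣ fieldSize p ℓ - 1 := pow_padicValNat_dvd
    have hQ0 : fieldSize p ℓ - 1 ≠ 0 := by have := one_lt_fieldSize (p := p) (ℓ := ℓ); omega
    have hq' : ¬ p ∣ q := fun ⟨t, ht⟩ => pow_succ_padicValNat_not_dvd (p := p) hQ0
      (Dvd.intro t (by rw [← stableLevel, ← hm₀, hq, ht, pow_succ, ← mul_assoc]))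
    -- the order of `(b ^ (p - 1))` divides `p ^ m₀`
    have hy1 : ((b : K) ^ (p - 1)) ^ p ^ (m₀ + 1) = 1 := by
      rw [← pow_mul, pow_succ, ← mul_assoc, pow_mul, ← pow_mul (b : K), mul_comm ((p - 1) * p ^ m₀) p, pow_mul,
        hb', ← pow_mul, ← hMP, he]
    have hy2 : ((b : K) ^ (p - 1)) ^ p ^ m₀ = 1 := by
      have hy3 : orderOf ((b : K) ^ (p - 1)) ∣ p ^ m₀ * q := orderOf_dvd_of_pow_eq_one (by
        rw [← hq, ← pow_mul, mul_comm, pow_mul, pow_fieldSize_sub_one b.2 hb0, one_pow])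
      refine orderOf_dvd_iff_pow_eq_one.mp (Nat.Coprime.dvd_of_dvd_mul_right ?_ hy3)
      exact Nat.Coprime.coprime_dvd_left (orderOf_dvd_of_pow_eq_one hy1)
        (Nat.Coprime.pow_left _ (hp.out.coprime_iff_not_dvd.mpr hq'))
    have hexp : (p - 1) * p ^ (n - 1) = M * ((p - 1) * p ^ (m₀ - 1)) := by
      rw [hM, mul_left_comm, ← pow_add]
      congr 2
      omega
    rw [hexp, pow_mul, ← hb', ← pow_mul, mul_left_comm, ← pow_succ', Nat.sub_add_cancel h1, pow_mul, hy2]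
  set G : (baseField p ℓ K)[X] := ∑ r ∈ Finset.range M, C (C₀ r) * X ^ r with hG
  have hmin := minpoly.eq_of_irreducible_of_monic hirr (x := e) (by
    rw [map_sub, map_pow, aeval_X, aeval_C]
    exact sub_self _) (monic_X_pow_sub_C a (by rw [hM]; exact pow_ne_zero _ hp.out.ne_zero))
  have hdvd : X ^ M - C a ∣ G := by
    rw [hmin]
    refine minpoly.dvd _ _ ?_
    rw [hG, map_sum, Finset.sum_congr rfl fun r _ => show aeval e (C (C₀ r) * X ^ r) = (C₀ r : K) * e ^ r by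
      rw [map_mul, aeval_C, map_pow, aeval_X]; rfl]
    exact hsum
  have hdeg : G.degree < (X ^ M - C a).degree := by
    rw [degree_X_pow_sub_C (by rw [hM]; exact pow_pos hp.out.pos _), hG]
    exact (degree_sum_le _ _).trans_lt ((Finset.sup_lt_iff (WithBot.bot_lt_coe _)).mpr fun l hl =>
      (degree_C_mul_X_pow_le _ _).trans_lt (by exact_mod_cast Finset.mem_range.mp hl))
  have h0 := congrArg (fun f => coeff f r) (eq_zero_of_dvd_of_degree_lt hdvd hdeg)
  simp only [hG, finsetSum_coeff, coeff_C_mul_X_pow, coeff_zero] at h0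
  rwa [Finset.sum_eq_single r (fun l _ hl => if_neg fun e => hl e.symm)
    (fun h => absurd (Finset.mem_range.mpr hr) h), if_pos rfl] at h0

end CharL

/-- The elements of norm at most one in `ℚ̄_ℓ`. -/
def unitBall (ℓ : ℕ) [Fact ℓ.Prime] : ValuationSubring (PadicAlgCl ℓ) :=
  { carrier := {x | ‖x‖ ≤ 1}
    one_mem' := norm_one.le
    mul_mem' := fun {x y} hx hy => (norm_mul x y).trans_le (mul_le_one₀ hx (norm_nonneg _) hy)
    zero_mem' := norm_zero.trans_le zero_le_one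
    add_mem' := fun {x y} hx hy => (IsUltrametricDist.norm_add_le_max x y).trans (max_le hx hy)
    neg_mem' := fun {x} hx => (norm_neg x).trans_le hx
    mem_or_inv_mem' := fun x => by
      rcases le_total ‖x‖ 1 with h | h
      · exact Or.inl h
      · exact Or.inr ((norm_inv x).trans_le (inv_le_one_of_one_le₀ h)) }

theorem mem_unitBall {x : PadicAlgCl ℓ} : x ∈ unitBall ℓ ↔ ‖x‖ ≤ 1 := Iff.rfl

theorem residue_eq_zero_iff (x : unitBall ℓ) :
    IsLocalRing.residue (unitBall ℓ) x = 0 ↔ ‖(x : PadicAlgCl ℓ)‖ < 1 := by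
  rw [IsLocalRing.residue_eq_zero_iff, IsLocalRing.mem_maximalIdeal, mem_nonunits_iff]
  constructor
  · intro h
    by_contra hlt
    refine h ?_
    have h1 : ‖(x : PadicAlgCl ℓ)‖ = 1 := le_antisymm x.2 (not_lt.mp hlt)
    have hne : (x : PadicAlgCl ℓ) ≠ 0 := fun h => by rw [h, norm_zero] at h1; exact zero_ne_one h1
    refine IsUnit.of_mul_eq_one ⟨(x : PadicAlgCl ℓ)⁻¹, mem_unitBall.mpr (by rw [norm_inv, h1, inv_one])⟩ ?_
    exact Subtype.ext (mul_inv_cancel₀ hne)
  · rintro h ⟨u, rfl⟩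
    have h1 := congrArg (fun t : unitBall ℓ => ‖(t : PadicAlgCl ℓ)‖) u.mul_inv
    simp only [MulMemClass.coe_mul, norm_mul, OneMemClass.coe_one, norm_one] at h1
    have h2 : ‖((↑u⁻¹ : unitBall ℓ) : PadicAlgCl ℓ)‖ ≤ 1 := (↑u⁻¹ : unitBall ℓ).2
    nlinarith [norm_nonneg ((u : unitBall ℓ) : PadicAlgCl ℓ)]

instance charP_residueField : CharP (IsLocalRing.ResidueField (unitBall ℓ)) ℓ := by
  refine (CharP.charP_iff_prime_eq_zero hl.out).mpr ?_
  rw [← map_natCast (IsLocalRing.residue (unitBall ℓ)), residue_eq_zero_iff]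
  have h : ((ℓ : unitBall ℓ) : PadicAlgCl ℓ) = algebraMap ℚ_[ℓ] (PadicAlgCl ℓ) (ℓ : ℚ_[ℓ]) := by
    rw [map_natCast]; rfl
  rw [h, norm_algebraMap', Padic.norm_p]
  exact inv_lt_one_of_one_lt₀ (by exact_mod_cast hl.out.one_lt)

end FA.IwasawaMinus
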