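import Fermat.Agent.IwasawaMinus.EllCrossing
import Fermat.Agent.IwasawaMinus.Residue
import Fermat.Agent.IwasawaMinus.Growth

/-!
# The values at characters of high conductor are `ℓ`-adic units
-/

set_option autoImplicit false
set_option linter.style.haveILetI false

noncomputable section

open Polynomial
open scoped Classical

namespace FA.IwasawaMinus

variable {p : ℕ} [hp : Fact p.Prime] {g : ℕ}

theorem exists_isGen_odd (hp2 : p ≠ 2) : ∃ g, IsGen p g ∧ Odd g := by
  obtain ⟨g, hg⟩ := exists_isGen (p := p) hp2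
  rcases Nat.even_or_odd g with hev | hodd
  · refine ⟨g + p ^ 2, isGen_of_orderOf hp2 (le_add_right hg.1) ?_, hev.add_odd (hp.out.odd_of_ne_two hp2).pow⟩
    rw [Nat.cast_add, ZMod.natCast_self, add_zero]
    have h := hg.2 1
    rw [pow_one, mul_comm (p - 1)] at h
    exact h
  · exact ⟨g, hg, hodd⟩

/-- The folded coefficient. -/
def halfE (p g n k : ℕ) : ℤ := ((g * res p g n k / p ^ (n + 1) : ℕ) : ℤ) - ((g - 1) / 2 : ℕ)

omit hp in
theorem coefE_eq_two_mul_halfE (hodd : Odd g) (n k : ℕ) : coefE p g g n k = 2 * halfE p g n k := by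
  obtain ⟨m, rfl⟩ := hodd
  rw [coefE, halfE, show (2 * m + 1 - 1) / 2 = m by omega]
  push_cast
  ring

theorem gen_pow_half (hp2 : p ≠ 2) (hg : IsGen p g) (n : ℕ) :
    (g : ZMod (p ^ (n + 1))) ^ ((p - 1) / 2 * p ^ n) = -1 := by
  rw [← Nat.mul_div_right_comm ((hp.out.odd_of_ne_two hp2).tsub_odd odd_one).two_dvd, pow_half_eq_neg_one hp2 hg n]

theorem not_dvd_gen (hg : IsGen p g) : ¬ p ∣ g := fun h =>
  gen_ne_zero hg ((ZMod.natCast_eq_zero_iff _ _).mpr h)

/-- The folded coefficient is odd. -/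
theorem halfE_add_half (hp2 : p ≠ 2) (hg : IsGen p g) (hodd : Odd g) (n k : ℕ) :
    halfE p g n (k + (p - 1) / 2 * p ^ n) = -halfE p g n k := by
  haveI : NeZero (p ^ (n + 1)) := ⟨pow_ne_zero _ hp.out.ne_zero⟩
  haveI : Fact (1 < p ^ (n + 1)) := ⟨Nat.one_lt_pow (Nat.succ_ne_zero n) hp.out.one_lt⟩
  set N := p ^ (n + 1) with hN
  have hunit : IsUnit ((g : ZMod N) ^ k) := by
    refine IsUnit.pow k ?_
    rw [ZMod.isUnit_iff_coprime]
    exact Nat.Coprime.pow_right _ (Nat.coprime_comm.mp (hp.out.coprime_iff_not_dvd.mpr (not_dvd_gen hg)))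
  haveI : NeZero ((g : ZMod N) ^ k) := ⟨hunit.ne_zero⟩
  set r := res p g n k with hr
  have hr' : res p g n (k + (p - 1) / 2 * p ^ n) = N - r := by
    have hh : (g : ZMod N) ^ ((p - 1) / 2 * p ^ n) = -1 := gen_pow_half hp2 hg n
    show ((g : ZMod N) ^ (k + (p - 1) / 2 * p ^ n)).val = N - ((g : ZMod N) ^ k).val
    rw [pow_add, hh, mul_neg_one, ZMod.val_neg_of_ne_zero]
  have hrN : r < N := res_lt n k
  have hs : g * r % N ≠ 0 := fun h => by
    have hd : N ∣ g * r := Nat.dvd_of_mod_eq_zero h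
    have hco : Nat.Coprime N g := Nat.Coprime.pow_left _ (hp.out.coprime_iff_not_dvd.mpr (not_dvd_gen hg))
    have h0 : r = 0 := Nat.eq_zero_of_dvd_of_lt (hco.dvd_of_dvd_mul_left hd) hrN
    exact hunit.ne_zero ((ZMod.val_eq_zero _).mp h0)
  have hq := Nat.div_add_mod (g * r) N
  have hsN := Nat.mod_lt (g * r) (NeZero.pos N)
  set q := g * r / N
  set s := g * r % N
  have hs1 : (1 : ℤ) ≤ s := by
    have : 1 ≤ s := Nat.one_le_iff_ne_zero.mpr hs
    exact_mod_cast this
  have hqg : q + 1 ≤ g := by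
    by_contra hcon
    have h1 : N * g ≤ N * q := Nat.mul_le_mul_left _ (by omega)
    have h2 : g * r ≤ g * N := Nat.mul_le_mul_left _ hrN.le
    have h3 : 0 < s := Nat.pos_of_ne_zero hs
    rw [mul_comm g N] at h2
    omega
  have hqdef : g * r / N = q := rfl
  clear_value q s
  have hdiv : g * (N - r) / N = g - 1 - q := by
    have hqz : (N : ℤ) * q + s = (g : ℤ) * r := by exact_mod_cast hq
    have hsz : (s : ℤ) < N := by exact_mod_cast hsN
    refine Nat.div_eq_of_lt_le ?_ ?_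
    · zify [hrN.le, show 1 ≤ g by omega, show q ≤ g - 1 by omega]
      nlinarith
    · zify [hrN.le, show 1 ≤ g by omega, show q ≤ g - 1 by omega]
      nlinarith
  obtain ⟨m, hm⟩ := hodd
  rw [halfE, halfE, hr', ← hN, hdiv, ← hr, hqdef, show (g - 1) / 2 = m by omega, Nat.cast_sub (by omega : q ≤ g - 1),
    show g - 1 = 2 * m by omega]
  push_cast
  ring

variable {ℓ : ℕ} [hl : Fact ℓ.Prime]

/-- The folded sum. -/
def foldSum (p g n : ℕ) {R : Type*} [CommRing R] (η : R) : R :=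
  ∑ k ∈ Finset.range ((p - 1) / 2 * p ^ n), (halfE p g n k : R) * η ^ k

/-- The folded sum is the value. -/
theorem mul_foldSum (hp2 : p ≠ 2) (hg : IsGen p g) (hodd : Odd g) {n : ℕ} {η : PadicAlgCl ℓ}
    (h1 : η ^ ((p - 1) * p ^ n) = 1) (h2 : η ^ ((p - 1) * p ^ n / 2) = -1) :
    η * foldSum p g n η = -((g : PadicAlgCl ℓ) * η - 1) * bval p g n η := by
  have hne : η ≠ 1 := fun e => by
    rw [e, one_pow] at h2
    exact two_ne_zero (α := PadicAlgCl ℓ) (by linear_combination h2)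
  have hval := poly_value hg h1 hne (c := g) (s := 1) (pow_one _).symm
  have haev : aeval η (poly p g g n) = 4 * foldSum p g n η := by
    rw [poly, map_sum, show (p - 1) * p ^ n = (p - 1) / 2 * p ^ n + (p - 1) / 2 * p ^ n by
      rw [← add_mul, ← two_mul, Nat.mul_div_cancel' ((hp.out.odd_of_ne_two hp2).tsub_odd odd_one).two_dvd],
      Finset.sum_range_add, foldSum, Finset.mul_sum, ← Finset.sum_add_distrib]
    refine Finset.sum_congr rfl fun k _ => ?_
    rw [Nat.mul_div_right_comm ((hp.out.odd_of_ne_two hp2).tsub_odd odd_one).two_dvd] at h2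
    simp only [map_mul, map_pow, aeval_X, aeval_C, coefE_eq_two_mul_halfE hodd,
      add_comm ((p - 1) / 2 * p ^ n) k, halfE_add_half hp2 hg hodd, pow_add, h2]
    rw [RingHom.ext_int (algebraMap ℤ (PadicAlgCl ℓ)) (Int.castRingHom _)]
    simp only [Int.coe_castRingHom]
    push_cast
    ring
  simp only [aeval_def, algebraMap_int_eq] at haev hval
  rw [RingHom.ext_int (algebraMap ℤ (PadicAlgCl ℓ)) (Int.castRingHom _)] at haev
  rw [haev, pow_one] at hval
  have hN : ((p ^ (n + 1) : ℕ) : PadicAlgCl ℓ) ≠ 0 := Nat.cast_ne_zero.mpr (pow_ne_zero _ hp.out.ne_zero)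
  refine mul_left_cancel₀ (mul_ne_zero (show (4 : PadicAlgCl ℓ) ≠ 0 by norm_num) hN) ?_
  rw [bval]
  field_simp
  linear_combination (1 / 2 : PadicAlgCl ℓ) * hval

/-- **The folded sum in characteristic `ℓ` does not vanish.** -/
theorem eventually_foldSum_ne_zero (hp2 : p ≠ 2) (hne : ℓ ≠ p) (hg : IsGen p g) (hodd : Odd g)
    (K : Type*) [Field K] [CharP K ℓ] :
    ∀ᶠ n in Filter.atTop, ∀ e : K, e ^ ((p - 1) * p ^ n) = 1 → e ^ ((p - 1) * p ^ (n - 1)) ≠ 1 →
      e ^ ((p - 1) / 2 * p ^ n) = -1 → foldSum p g n e ≠ 0 ∧ (g : K) * e ≠ 1 := by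
  set m₀ := stableLevel p ℓ with hm₀
  filter_upwards [eventually_single_jump hp2 hg hg.1 (not_dvd_gen hg) (one_le_stableLevel (p := p) (ℓ := ℓ) hne),
    Filter.eventually_gt_atTop m₀] with n hjump hn e he he' hhalf
  have hnat : ∀ k : ℕ, (k : K) ∈ baseField p ℓ K := fun k => natCast_mem _ k
  refine ⟨fun hB => ?_, fun hge => not_mem_baseField he he' hn ?_⟩
  swap
  · rw [eq_inv_of_mul_eq_one_right hge]
    exact inv_mem (hnat g)
  obtain ⟨β, β', hβ, hβ', hT1, hT0, hT⟩ := hjump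
  haveI : NeZero (p ^ (n + 1)) := ⟨pow_ne_zero _ hp.out.ne_zero⟩
  set M := p ^ (n - m₀) with hM
  set J := (p - 1) / 2 * p ^ m₀ with hJ
  have hMJ : (p - 1) / 2 * p ^ n = M * J := by
    rw [hM, hJ, mul_left_comm, ← pow_add]
    congr 2
    omega
  set a := e ^ M with ha
  have hamem : a ∈ baseField p ℓ K := mem_baseField_of_pow (by
    rw [ha, ← pow_mul, show M * ((p - 1) * p ^ m₀) = (p - 1) * p ^ n by
      rw [hM, mul_left_comm, ← pow_add]; congr 2; omega]
    exact he)
  set G : ℕ → K := fun k => ∑ j ∈ Finset.range J, a ^ j * (halfE p g n (k + j * M) : K) with hG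
  have hGr : ∀ r < M, G r = 0 := fun r hr => by
    have hmem : ∀ k, G k ∈ baseField p ℓ K := fun k =>
      sum_mem fun j _ => mul_mem (pow_mem hamem j) (intCast_mem _ _)
    have h := coeff_eq_zero_of_sum (p := p) (ℓ := ℓ) hp2 hne he he' hn (fun k => ⟨G k, hmem k⟩) ?_ hr
    · exact congrArg (fun x : baseField p ℓ K => (x : K)) h
    rw [foldSum, hMJ, sum_range_mul'] at hB
    rw [← hB, Finset.sum_comm]
    refine Finset.sum_congr rfl fun r _ => ?_
    simp only [hG, Finset.sum_mul]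
    refine Finset.sum_congr rfl fun j _ => ?_
    rw [add_comm (j * M) r, pow_add, mul_comm j, pow_mul, ← ha]
    ring
  have haJ : a ^ J = -1 := by rw [ha, ← pow_mul, ← hMJ, hhalf]
  have he0 : e ≠ 0 := fun h => by
    rw [h, zero_pow (phi_pos n).ne'] at he
    exact zero_ne_one he
  have hG0 : ∀ k, G k = 0 := fun k => by
    have hk : k = k % M + (k / M) * M := by rw [mul_comm]; exact (Nat.mod_add_div k M).symm
    set r := k % M
    set t := k / M
    have hper : ∀ j, a ^ (j + J) * (halfE p g n (r + (j + J) * M) : K) =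
        a ^ j * (halfE p g n (r + j * M) : K) := fun j => by
      rw [pow_add, haJ, show r + (j + J) * M = r + j * M + (p - 1) / 2 * p ^ n by rw [hMJ]; ring,
        halfE_add_half hp2 hg hodd]
      push_cast
      ring
    have hshift := sum_range_shift (fun j => a ^ j * (halfE p g n (r + j * M) : K)) hper t
    refine (mul_eq_zero.mp (?_ : a ^ t * G k = 0)).resolve_left (pow_ne_zero _ (pow_ne_zero _ he0))
    rw [← hGr r (Nat.mod_lt _ (pow_pos hp.out.pos _)), hG]
    simp only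
    rw [← hshift, Finset.mul_sum]
    refine Finset.sum_congr rfl fun j _ => ?_
    rw [hk, show r + t * M + j * M = r + (j + t) * M by ring, pow_add]
    ring
  have hval : ∀ γ : ZMod (p ^ (n + 1)), IsUnit γ → ∑ j ∈ Finset.range J, a ^ j *
      ((((g * (γ * (g : ZMod (p ^ (n + 1))) ^ (M * j)).val / p ^ (n + 1) : ℕ) : ℤ) - ((g - 1) / 2 : ℕ) : ℤ) : K) = 0 :=
    fun γ hγ => by
      obtain ⟨k, -, hk⟩ := exists_pow_genUnit hg n hγ.unit
      rw [← hG0 k, hG]
      refine Finset.sum_congr rfl fun j _ => ?_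
      have e : (g : ZMod (p ^ (n + 1))) ^ (k + j * M) = γ * (g : ZMod (p ^ (n + 1))) ^ (M * j) := by
        rw [pow_add _ k, mul_comm j]
        congr 1
        rw [← genUnit_val hg n, ← Units.val_pow_eq_pow_val, hk, IsUnit.unit_spec]
      rw [halfE, res, e]
  have hJpos : 0 < J := by
    have := hp.out.two_le
    exact Nat.mul_pos (by omega) (pow_pos hp.out.pos _)
  have h1 := hval β hβ
  have h2 := hval β' hβ'
  obtain ⟨J', hJ'⟩ : ∃ J', J = J' + 1 := ⟨J - 1, by omega⟩
  rw [hJ', Finset.sum_range_succ'] at h1 h2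
  have hsame : ∀ j ∈ Finset.range J', g * (β * (g : ZMod (p ^ (n + 1))) ^ (M * (j + 1))).val / p ^ (n + 1) =
      g * (β' * (g : ZMod (p ^ (n + 1))) ^ (M * (j + 1))).val / p ^ (n + 1) := fun j hj =>
    hT (j + 1) (Nat.succ_pos j) (by rw [hJ']; exact Nat.succ_lt_succ (Finset.mem_range.mp hj))
  rw [Finset.sum_congr rfl fun j hj => by rw [hsame j hj]] at h1
  simp only [mul_zero, pow_zero, mul_one, one_mul, hT1, hT0] at h1 h2
  push_cast at h1 h2
  exact one_ne_zero (α := K) (by linear_combination h1 - h2)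

theorem norm_natCast_eq_one {k : ℕ} (h : ¬ ℓ ∣ k) : ‖(k : PadicAlgCl ℓ)‖ = 1 := norm_natCast_of_not_dvd h

/-- **Washington: the values are units.** -/
theorem eventually_norm_bval_eq_one (hp2 : p ≠ 2) (hne : ℓ ≠ p) (hg : IsGen p g) (hodd : Odd g) :
    ∀ᶠ k in Filter.atTop, ∀ η ∈ levelRoots (PadicAlgCl ℓ) p (k + 1), ‖bval p g (k + 1) η‖ = 1 := by
  have hev := eventually_foldSum_ne_zero (g := g) hp2 hne hg hodd (IsLocalRing.ResidueField (unitBall ℓ))
  filter_upwards [(Filter.tendsto_add_atTop_nat 1).eventually hev] with k hk η hη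
  rw [levelRoots, Finset.mem_filter, mem_oddRoots] at hη
  obtain ⟨⟨h1, h2⟩, h3⟩ := hη
  have hn1 : ‖η‖ = 1 := norm_eq_one_of_pow h1 (phi_pos (k + 1)).ne'
  set e : unitBall ℓ := ⟨η, mem_unitBall.mpr hn1.le⟩
  set π := IsLocalRing.residue (unitBall ℓ)
  have hhalf : η ^ ((p - 1) / 2 * p ^ (k + 1)) = -1 := by
    rwa [← Nat.mul_div_right_comm ((hp.out.odd_of_ne_two hp2).tsub_odd odd_one).two_dvd]
  have hπ : π e ^ ((p - 1) * p ^ k) ≠ 1 := fun h => by
    set x := η ^ ((p - 1) * p ^ k) with hx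
    have hxp : IsPrimitiveRoot x p := by
      refine IsPrimitiveRoot.iff_orderOf.mpr (orderOf_eq_prime ?_ h3)
      rw [hx, ← pow_mul, mul_assoc, ← pow_succ, h1]
    have hev1 := congrArg (Polynomial.eval 1) (X_pow_sub_one_eq_prod hp.out.pos hxp)
    rw [← map_pow, ← sub_eq_zero, ← map_one π, ← map_sub, residue_eq_zero_iff] at h
    have hlt : ‖x - 1‖ < 1 := h
    have hprime : ‖(p : PadicAlgCl ℓ)‖ = 1 :=
      norm_natCast_eq_one fun hd => hne ((Nat.prime_dvd_prime_iff_eq hl.out hp.out).mp hd)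
    have hphi := eval_one_cyclotomic_prime (R := PadicAlgCl ℓ) (p := p)
    rw [cyclotomic_eq_prod_X_sub_primitiveRoots hxp, eval_prod] at hphi
    have hn := congrArg (fun t => ‖t‖) hphi
    simp only [norm_prod, eval_sub, eval_X, eval_C, hprime] at hn
    refine absurd hn (ne_of_lt ?_)
    have hmem : x ∈ primitiveRoots p (PadicAlgCl ℓ) := (mem_primitiveRoots hp.out.pos).mpr hxp
    rw [← Finset.mul_prod_erase _ _ hmem, norm_sub_rev]
    refine mul_lt_one_of_nonneg_of_lt_one_left (norm_nonneg _) hlt (Finset.prod_le_one (fun _ _ => norm_nonneg _)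
      fun z hz => ?_)
    have hz1 : ‖z‖ = 1 := norm_eq_one_of_pow
      ((mem_primitiveRoots hp.out.pos).mp (Finset.mem_of_mem_erase hz)).pow_eq_one hp.out.ne_zero
    rw [sub_eq_add_neg]
    exact (IsUltrametricDist.norm_add_le_max (1 : PadicAlgCl ℓ) (-z)).trans
      (max_le norm_one.le (by rw [norm_neg, hz1]))
  obtain ⟨hB, hge⟩ := hk (π e) (by rw [← map_pow, show e ^ ((p - 1) * p ^ (k + 1)) = 1 from Subtype.ext h1, map_one])
    (by rwa [Nat.add_sub_cancel]) (by
      rw [← map_pow, show e ^ ((p - 1) / 2 * p ^ (k + 1)) = -1 from Subtype.ext hhalf, map_neg, map_one])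
  have key : ∀ x : unitBall ℓ, π x ≠ 0 → ‖(x : PadicAlgCl ℓ)‖ = 1 := fun x hx =>
    le_antisymm x.2 (not_lt.mp fun h => hx ((residue_eq_zero_iff x).mpr h))
  have hB' := key (foldSum p g (k + 1) e) (by
    rw [foldSum, map_sum]
    simpa [foldSum] using hB)
  have hge' := key ((g : unitBall ℓ) * e - 1) (by
    rw [map_sub, map_mul, map_natCast, map_one, sub_ne_zero]
    exact hge)
  have hcoe : ((foldSum p g (k + 1) e : unitBall ℓ) : PadicAlgCl ℓ) = foldSum p g (k + 1) η := by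
    rw [foldSum, foldSum]
    push_cast
    rfl
  rw [hcoe] at hB'
  push_cast at hge'
  have h := congrArg (fun t => ‖t‖) (mul_foldSum (g := g) hp2 hg hodd h1 h2)
  simp only [norm_mul, norm_neg, hn1, hB', one_mul] at h
  rw [show ‖(g : PadicAlgCl ℓ) * η - 1‖ = 1 from hge', one_mul] at h
  exact h.symm

end FA.IwasawaMinus
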