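import Fermat.Agent.IwasawaMinus.MuZero
import Fermat.Agent.IwasawaMinus.Growth

/-!
# The invariant `λ` and the first two coefficients

If the constant term of a branch is divisible by `p` the exponent of `h / h⁺` rises at every level; if moreover just
one constant term is, exactly once, and its linear term is not, it rises by exactly one.
-/

set_option autoImplicit false
set_option linter.style.haveILetI false

noncomputable section

open NumberField Polynomial
open scoped Classical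

namespace FA.IwasawaMinus

variable {p : ℕ} [hp : Fact p.Prime] {g : ℕ}

theorem inv_p_pos : (0 : ℝ) < (p : ℝ)⁻¹ := inv_pos.mpr (Nat.cast_pos.mpr hp.out.pos)

theorem inv_p_lt_one : (p : ℝ)⁻¹ < 1 :=
  inv_lt_one_of_one_lt₀ (show (1 : ℝ) < (p : ℝ) by exact_mod_cast hp.out.one_lt)

/-- Some constant term is divisible by `p` as soon as the exponent at level one is positive. -/
theorem exists_dvd_coeff_zero (hp2 : p ≠ 2) (hg : IsGen p g) (K : Type*) [Field K] [NumberField K]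
    [IsCyclotomicExtension {p ^ (0 + 1)} ℚ K] (h : 0 < minusExp p K) :
    ∃ u ∈ oddU p, (p : ℤ_[p]) ∣ (sys hg u 0).coeff 0 := by
  by_contra! hno
  have hprod : ∏ u ∈ oddU p, ‖(sys hg u 0).coeff 0‖ = 1 := Finset.prod_eq_one fun u hu =>
    le_antisymm (PadicInt.norm_le_one _) (not_lt.mp fun hlt => hno u hu ((PadicInt.norm_lt_one_iff_dvd _).mp hlt))
  rw [← ratio_zero_eq hp2 hg, ← zpow_minusExp hp2 hg 0 K] at hprod
  exact ((zpow_lt_zpow_iff_right_of_lt_one₀ (inv_p_pos (p := p)) inv_p_lt_one (n := 0)).mpr h).ne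
    (hprod.trans (zpow_zero _).symm)

/-- **Growth at every level.** -/
theorem minusExp_succ_ge (hp2 : p ≠ 2) (hg : IsGen p g) {u₀ : (ZMod p)ˣ} (hu₀ : u₀ ∈ oddU p)
    (h0 : (p : ℤ_[p]) ∣ (sys hg u₀ 0).coeff 0) (k : ℕ) (K L : Type*) [Field K] [NumberField K] [Field L]
    [NumberField L] [IsCyclotomicExtension {p ^ (k + 1)} ℚ K] [IsCyclotomicExtension {p ^ (k + 1 + 1)} ℚ L] :
    minusExp p K + 1 ≤ minusExp p L := by
  haveI : NeZero (p ^ (k + 1)) := ⟨pow_ne_zero _ hp.out.ne_zero⟩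
  obtain ⟨z, hz⟩ := HasEnoughRootsOfUnity.exists_primitiveRoot (PadicAlgCl p) (p ^ (k + 1))
  have hle : ∀ (u : (ZMod p)ˣ) (ζ : PadicAlgCl p), ζ ∈ primitiveRoots (p ^ (k + 1)) (PadicAlgCl p) →
      ‖ev (ζ - 1) (sys hg u (k + 1))‖ ≤ if u = u₀ then ‖z - 1‖ else 1 := fun u ζ hζ => by
    have hζ' := (mem_primitiveRoots (NeZero.pos _)).mp hζ
    have hρ : ‖ζ - 1‖ = ‖z - 1‖ := (pow_left_inj₀ (norm_nonneg _) (norm_nonneg _) (phi_pos k).ne').mp
      ((norm_sub_one_pow hζ').trans (norm_sub_one_pow hz).symm)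
    have hρ1 : ‖ζ - 1‖ < 1 := norm_sub_one_lt hζ'
    split_ifs with hu
    · subst hu
      rw [← hρ]
      refine norm_ev_le (norm_nonneg _) fun j => ?_
      rcases Nat.eq_zero_or_pos j with rfl | hj
      · have hd : (p : ℤ_[p]) ^ 1 ∣ (sys hg u (k + 1)).coeff 0 :=
          ((sys_compatible hg u).dvd_coeff_iff (Nat.zero_le _) (show 1 ≤ 0 + 1 - 0 by omega)).mpr
            (by rwa [pow_one])
        rw [pow_zero, mul_one]
        refine ((norm_emb_le_pow hd).trans_eq (pow_one _)).trans ?_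
        rw [← norm_sub_one_pow hζ']
        exact pow_le_of_le_one (norm_nonneg _) hρ1.le (phi_pos k).ne'
      · rw [norm_emb]
        calc ‖(sys hg u (k + 1)).coeff j‖ * ‖ζ - 1‖ ^ j ≤ 1 * ‖ζ - 1‖ ^ j :=
              mul_le_mul_of_nonneg_right (PadicInt.norm_le_one _) (pow_nonneg (norm_nonneg _) _)
          _ ≤ ‖ζ - 1‖ := by rw [one_mul]; exact pow_le_of_le_one (norm_nonneg _) hρ1.le hj.ne'
    · refine norm_ev_le zero_le_one fun j => ?_
      rw [norm_emb]
      exact mul_le_one₀ (PadicInt.norm_le_one _) (pow_nonneg (norm_nonneg _) _)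
        (pow_le_one₀ (norm_nonneg _) hρ1.le)
  have hP : ‖∏ η ∈ levelRoots (PadicAlgCl p) p (k + 1), bval p g (k + 1) η‖ * (p : ℝ)⁻¹ ≤ (p : ℝ)⁻¹ := by
    rw [norm_level_mul_eq hp2 hg]
    calc ∏ u ∈ oddU p, ∏ ζ ∈ primitiveRoots (p ^ (k + 1)) (PadicAlgCl p), ‖ev (ζ - 1) (sys hg u (k + 1))‖
        ≤ ∏ u ∈ oddU p, ∏ _ζ ∈ primitiveRoots (p ^ (k + 1)) (PadicAlgCl p), if u = u₀ then ‖z - 1‖ else 1 :=
          Finset.prod_le_prod (fun u _ => Finset.prod_nonneg fun _ _ => norm_nonneg _) fun u _ =>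
            Finset.prod_le_prod (fun _ _ => norm_nonneg _) fun ζ hζ => hle u ζ hζ
      _ = (p : ℝ)⁻¹ := by
          rw [Finset.prod_eq_single_of_mem u₀ hu₀ fun u _ hu => by simp [hu], Finset.prod_const, if_pos rfl,
            hz.card_primitiveRoots, Nat.totient_prime_pow_succ hp.out, mul_comm, norm_sub_one_pow hz]
  refine (zpow_le_zpow_iff_right_of_lt_one₀ (inv_p_pos (p := p)) inv_p_lt_one).mp ?_
  rw [zpow_minusExp hp2 hg (k + 1), zpow_add₀ inv_p_pos.ne', zpow_one, zpow_minusExp hp2 hg k, ratio, ratio,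
    Finset.prod_range_succ _ (k + 1), norm_mul, pow_succ _ (k + 1)]
  calc (p : ℝ)⁻¹ ^ (k + 1) * (p : ℝ)⁻¹ *
        (‖∏ m ∈ Finset.range (k + 1), ∏ η ∈ levelRoots (PadicAlgCl p) p m, bval p g m η‖ *
          ‖∏ η ∈ levelRoots (PadicAlgCl p) p (k + 1), bval p g (k + 1) η‖)
      = (p : ℝ)⁻¹ ^ (k + 1) * ‖∏ m ∈ Finset.range (k + 1), ∏ η ∈ levelRoots (PadicAlgCl p) p m, bval p g m η‖ *
          (‖∏ η ∈ levelRoots (PadicAlgCl p) p (k + 1), bval p g (k + 1) η‖ * (p : ℝ)⁻¹) := by ring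
    _ ≤ _ := mul_le_mul_of_nonneg_left hP (by positivity)

/-- **One irregular branch with `λ = 1`.** -/
theorem minusExp_succ_eq (hp2 : p ≠ 2) (hg : IsGen p g) (K₀ : Type*) [Field K₀] [NumberField K₀]
    [IsCyclotomicExtension {p ^ (0 + 1)} ℚ K₀] (h0 : minusExp p K₀ = 1)
    (hcert : ∀ u ∈ oddU p, (p : ℤ_[p]) ∣ (sys hg u 0).coeff 0 → ¬ (p : ℤ_[p]) ∣ (sys hg u 1).coeff 1)
    (k : ℕ) (K L : Type*) [Field K] [NumberField K] [Field L] [NumberField L]
    [IsCyclotomicExtension {p ^ (k + 1)} ℚ K] [IsCyclotomicExtension {p ^ (k + 1 + 1)} ℚ L] :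
    minusExp p L = minusExp p K + 1 := by
  set lam : (ZMod p)ˣ → ℕ := fun u => if (p : ℤ_[p]) ∣ (sys hg u 0).coeff 0 then 1 else 0 with hlam
  have hD : ∀ u ∈ oddU p, Dominant (sys hg u) 0 (lam u) := fun u hu => by
    simp only [hlam]
    split_ifs with hd
    · refine ⟨fun n hn => ⟨by rw [pow_zero]; exact one_dvd _, fun hdvd => hcert u hu hd ?_⟩, fun n j hn hj => ?_,
        fun n j => by rw [Nat.zero_min, pow_zero]; exact one_dvd _⟩
      · simpa using ((sys_compatible hg u).dvd_coeff_iff (show 1 ≤ n by omega)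
          (show 0 + 1 ≤ 1 + 1 - 1 by omega)).mp hdvd
      · obtain rfl : j = 0 := by omega
        exact ((sys_compatible hg u).dvd_coeff_iff (Nat.zero_le n) (show 0 + 1 ≤ 0 + 1 - 0 by omega)).mpr
          (by rwa [zero_add, pow_one])
    · exact dominant_zero (sys_compatible hg u) hd
  have hsum : ∑ u ∈ oddU p, lam u = 1 := by
    have hprod : ∏ u ∈ oddU p, ‖(sys hg u 0).coeff 0‖ = (p : ℝ)⁻¹ := by
      rw [← ratio_zero_eq hp2 hg, ← zpow_minusExp hp2 hg 0 K₀, h0, zpow_one]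
    have hle : ∏ u ∈ oddU p, ‖(sys hg u 0).coeff 0‖ ≤ ∏ u ∈ oddU p, (p : ℝ)⁻¹ ^ lam u :=
      Finset.prod_le_prod (fun _ _ => norm_nonneg _) fun u _ => by
        simp only [hlam]
        split_ifs with hd
        · rw [← norm_emb]
          exact norm_emb_le_pow (by rwa [pow_one])
        · rw [pow_zero]
          exact PadicInt.norm_le_one _
    rw [hprod, Finset.prod_pow_eq_pow_sum] at hle
    have h1 : ∑ u ∈ oddU p, lam u ≤ 1 := by
      conv_lhs at hle => rw [← pow_one ((p : ℝ)⁻¹)]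
      exact (pow_le_pow_iff_right_of_lt_one₀ inv_p_pos inv_p_lt_one).mp hle
    have h2 : ∑ u ∈ oddU p, lam u ≠ 0 := fun h => by
      obtain ⟨u, hu, hd⟩ := exists_dvd_coeff_zero hp2 hg K₀ (by rw [h0]; exact one_pos)
      have := Finset.sum_eq_zero_iff.mp h u hu
      simp [hlam, hd] at this
    omega
  have h := minusExp_succ hp2 hg (μ := fun _ => 0) hD (k := k) (fun u _ => ?_) K L
  · rw [h, Finset.sum_const_zero, zero_mul, zero_add, hsum, Nat.cast_one]
  · simp only [hlam]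
    have h3 : 2 ≤ p - 1 := by
      have := hp.out.two_le
      omega
    have h4 : 2 * 1 ≤ (p - 1) * p ^ k := Nat.mul_le_mul h3 (pow_pos hp.out.pos k)
    split_ifs <;> omega

end FA.IwasawaMinus
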