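import Mathlib.NumberTheory.Padics.Complex
import Mathlib.NumberTheory.Padics.RingHoms
import Mathlib.RingTheory.Polynomial.Basic
import Mathlib.Analysis.Normed.Group.Ultra

/-!
# Compatible systems of polynomials over `ℤ_p`

Polynomials `H n`, each congruent to the next modulo `(1 + X)^(p^n) - 1`, have at `ζ - 1`, `ζ` a root of unity of
order `p^n` with `n` large, the absolute value `|p|^μ |ζ - 1|^λ` for two fixed natural numbers `μ`, `λ`, unless all
their values vanish: the coefficient of `X^j` of `H n` is stable modulo `p^(n + 1 - j)`.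
-/

set_option autoImplicit false

noncomputable section

open Polynomial

namespace FA.IwasawaMinus

variable {p : ℕ} [hp : Fact p.Prime]

/-- The embedding of `ℤ_p`. -/
def emb : ℤ_[p] →+* PadicAlgCl p := (algebraMap ℚ_[p] (PadicAlgCl p)).comp PadicInt.Coe.ringHom

theorem norm_emb (a : ℤ_[p]) : ‖emb a‖ = ‖a‖ :=
  (PadicAlgCl.norm_extends p (a : ℚ_[p])).trans (PadicInt.padic_norm_e_of_padicInt a)

theorem norm_emb_le_pow {a : ℤ_[p]} {k : ℕ} (h : (p : ℤ_[p]) ^ k ∣ a) : ‖emb a‖ ≤ (p : ℝ)⁻¹ ^ k := by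
  obtain ⟨b, rfl⟩ := h
  rw [norm_emb, norm_mul, norm_pow, PadicInt.norm_p]
  exact mul_le_of_le_one_right (by positivity) (PadicInt.norm_le_one b)

theorem norm_emb_eq_pow {a : ℤ_[p]} {k : ℕ} (h : (p : ℤ_[p]) ^ k ∣ a) (h' : ¬ (p : ℤ_[p]) ^ (k + 1) ∣ a) :
    ‖emb a‖ = (p : ℝ)⁻¹ ^ k := by
  obtain ⟨b, rfl⟩ := h
  rw [pow_succ, mul_dvd_mul_iff_left (pow_ne_zero _ (Nat.cast_ne_zero.mpr hp.out.ne_zero))] at h'
  have hb : ‖b‖ = 1 := by
    refine le_antisymm (PadicInt.norm_le_one b) (not_lt.mp fun hlt => h' ?_)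
    rwa [PadicInt.norm_lt_one_iff_dvd] at hlt
  rw [norm_emb, norm_mul, norm_pow, PadicInt.norm_p, hb, mul_one]

/-- Membership in `(p, X) ^ k`, coefficientwise. -/
def Deep (k : ℕ) (f : ℤ_[p][X]) : Prop := ∀ j, (p : ℤ_[p]) ^ (k - j) ∣ f.coeff j

theorem Deep.mul {k l : ℕ} {f g : ℤ_[p][X]} (hf : Deep k f) (hg : Deep l g) : Deep (k + l) (f * g) := fun j => by
  rw [coeff_mul]
  refine Finset.dvd_sum fun x hx => ?_
  rw [Finset.HasAntidiagonal.mem_antidiagonal] at hx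
  refine (pow_dvd_pow _ (show k + l - j ≤ (k - x.1) + (l - x.2) by omega)).trans ?_
  rw [pow_add]
  exact mul_dvd_mul (hf _) (hg _)

theorem deep_zero (f : ℤ_[p][X]) : Deep 0 f := fun j => by simp

theorem deep_one {f : ℤ_[p][X]} (h : (p : ℤ_[p]) ∣ f.coeff 0) : Deep 1 f := fun j => by
  rcases j with _ | j
  · simpa using h
  · simp

/-- `(1 + X) ^ (p ^ n) - 1`. -/
def omega (n : ℕ) : ℤ_[p][X] := (1 + X) ^ (p ^ n) - 1

theorem deep_omega (n : ℕ) : Deep (n + 1) (omega (p := p) n) := by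
  induction n with
  | zero =>
    refine deep_one ?_
    simp [omega]
  | succ n ih =>
    have e : omega (p := p) (n + 1) = omega n * ∑ i ∈ Finset.range p, ((1 + X) ^ (p ^ n)) ^ i := by
      rw [omega, omega, mul_geom_sum, ← pow_mul, ← pow_succ]
    rw [e]
    refine ih.mul (deep_one ?_)
    rw [coeff_zero_eq_eval_zero, eval_finsetSum]
    simp

theorem omega_dvd_succ (n : ℕ) : omega (p := p) n ∣ omega (n + 1) := by
  rw [omega, omega, pow_succ, pow_mul]
  exact sub_one_dvd_pow_sub_one _ _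

/-- A compatible system. -/
def Compatible (H : ℕ → ℤ_[p][X]) : Prop := ∀ n, omega n ∣ H (n + 1) - H n

variable {H : ℕ → ℤ_[p][X]}

theorem Compatible.dvd_sub (hH : Compatible H) {n n' : ℕ} (h : n ≤ n') : omega n ∣ H n' - H n := by
  induction n', h using Nat.le_induction with
  | base => simp
  | succ m hm ih =>
    have hdvd : omega (p := p) n ∣ omega m := by
      clear ih
      induction m, hm using Nat.le_induction with
      | base => exact dvd_rfl
      | succ k _ ihk => exact ihk.trans (omega_dvd_succ k)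
    rw [show H (m + 1) - H n = H (m + 1) - H m + (H m - H n) by ring]
    exact dvd_add (hdvd.trans (hH m)) ih

theorem Compatible.dvd_coeff_sub (hH : Compatible H) {n n' : ℕ} (h : n ≤ n') (j : ℕ) :
    (p : ℤ_[p]) ^ (n + 1 - j) ∣ (H n').coeff j - (H n).coeff j := by
  obtain ⟨g, hg⟩ := hH.dvd_sub h
  rw [← coeff_sub, hg]
  have := ((deep_omega (p := p) n).mul (deep_zero g)) j
  rwa [add_zero] at this

/-- Divisibility of a stable coefficient does not depend on the level. -/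
theorem Compatible.dvd_coeff_iff (hH : Compatible H) {n n' : ℕ} (h : n ≤ n') {j k : ℕ} (hk : k ≤ n + 1 - j) :
    (p : ℤ_[p]) ^ k ∣ (H n').coeff j ↔ (p : ℤ_[p]) ^ k ∣ (H n).coeff j :=
  dvd_iff_dvd_of_dvd_sub ((pow_dvd_pow _ hk).trans (hH.dvd_coeff_sub h j))

/-- A coefficient of exact valuation `μ`, stable. -/
def Witness (H : ℕ → ℤ_[p][X]) (μ j : ℕ) : Prop :=
  ∃ n, j + μ ≤ n ∧ (p : ℤ_[p]) ^ μ ∣ (H n).coeff j ∧ ¬ (p : ℤ_[p]) ^ (μ + 1) ∣ (H n).coeff j

/-- The shape of the coefficients from `μ` and `λ`. -/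
structure Dominant (H : ℕ → ℤ_[p][X]) (μ lam : ℕ) : Prop where
  main : ∀ n, lam + μ ≤ n → (p : ℤ_[p]) ^ μ ∣ (H n).coeff lam ∧ ¬ (p : ℤ_[p]) ^ (μ + 1) ∣ (H n).coeff lam
  below : ∀ n j, lam + μ ≤ n → j < lam → (p : ℤ_[p]) ^ (μ + 1) ∣ (H n).coeff j
  all : ∀ n j, (p : ℤ_[p]) ^ (min μ (n + 1 - j)) ∣ (H n).coeff j

theorem dvd_or_witness (n j k : ℕ) (hk : k ≤ n + 1 - j) :
    (p : ℤ_[p]) ^ k ∣ (H n).coeff j ∨ ∃ μ < k, Witness H μ j := by
  induction k with
  | zero => exact Or.inl (by simp)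
  | succ k ih =>
    rcases ih (by omega) with h | ⟨μ, hμ, hw⟩
    · by_cases h' : (p : ℤ_[p]) ^ (k + 1) ∣ (H n).coeff j
      · exact Or.inl h'
      · exact Or.inr ⟨k, lt_add_one k, n, by omega, h, h'⟩
    · exact Or.inr ⟨μ, hμ.trans (lt_add_one k), hw⟩

theorem exists_dominant (hH : Compatible H) (h : ∃ μ j, Witness H μ j) : ∃ μ lam, Dominant H μ lam := by
  classical
  refine ⟨Nat.find h, Nat.find (Nat.find_spec h), ?_⟩
  set μ := Nat.find h with hμ
  set lam := Nat.find (Nat.find_spec h) with hlam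
  obtain ⟨n₁, hn₁, hd, hnd⟩ := Nat.find_spec (Nat.find_spec h)
  have hsucc : ∀ n, lam + μ ≤ n → ∀ k ≤ μ + 1,
      ((p : ℤ_[p]) ^ k ∣ (H n).coeff lam ↔ (p : ℤ_[p]) ^ k ∣ (H n₁).coeff lam) := fun n hn k hk => by
    rcases le_total n n₁ with h' | h'
    · exact (hH.dvd_coeff_iff h' (by omega)).symm
    · exact hH.dvd_coeff_iff h' (by omega)
  refine ⟨fun n hn => ⟨(hsucc n hn μ (by omega)).mpr hd, fun h' => hnd ((hsucc n hn _ le_rfl).mp h')⟩,
    fun n j hn hj => ?_, fun n j => ?_⟩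
  · rcases dvd_or_witness (H := H) n j (μ + 1) (by omega) with h' | ⟨μ', hμ', hw⟩
    · exact h'
    · rcases Nat.lt_succ_iff_lt_or_eq.mp hμ' with h' | h'
      · exact absurd ⟨j, hw⟩ (Nat.find_min h h')
      · subst h'
        exact absurd hw (Nat.find_min (Nat.find_spec h) hj)
  · rcases dvd_or_witness (H := H) n j (min μ (n + 1 - j)) (min_le_right _ _) with h' | ⟨μ', hμ', hw⟩
    · exact h'
    · exact absurd ⟨j, hw⟩ (Nat.find_min h (hμ'.trans_le (min_le_left _ _)))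

theorem dominant_zero (hH : Compatible H) (h : ¬ (p : ℤ_[p]) ∣ (H 0).coeff 0) : Dominant H 0 0 where
  main n _ := ⟨by simp, fun h' => h (by
    rw [zero_add] at h'
    simpa using (hH.dvd_coeff_iff (Nat.zero_le n) (show 1 ≤ 0 + 1 - 0 by omega)).mp h')⟩
  below n j _ hj := absurd hj (Nat.not_lt_zero j)
  all n j := by simp

/-- Evaluation. -/
def ev (x : PadicAlgCl p) (f : ℤ_[p][X]) : PadicAlgCl p := f.eval₂ emb x

theorem ev_eq_of_dvd {x : PadicAlgCl p} {n : ℕ} (hx : (1 + x) ^ (p ^ n) = 1) {f g : ℤ_[p][X]}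
    (h : omega n ∣ f - g) : ev x f = ev x g := by
  obtain ⟨q, hq⟩ := h
  have := congrArg (eval₂ emb x) hq
  rw [eval₂_sub, eval₂_mul, omega, eval₂_sub, eval₂_pow, eval₂_add, eval₂_one, eval₂_X, hx, sub_self, zero_mul,
    sub_eq_zero] at this
  exact this

theorem norm_ev_le {x : PadicAlgCl p} {f : ℤ_[p][X]} {B : ℝ} (hB : 0 ≤ B)
    (h : ∀ j, ‖emb (f.coeff j)‖ * ‖x‖ ^ j ≤ B) : ‖ev x f‖ ≤ B := by
  rw [ev, eval₂_eq_sum_range]
  refine IsUltrametricDist.norm_sum_le_of_forall_le_of_nonneg hB fun j _ => ?_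
  rw [norm_mul, norm_pow]
  exact h j

/-- A system with a value other than `0` has a witness. -/
theorem exists_witness (hH : Compatible H) {n₀ : ℕ} {x : PadicAlgCl p} (hx : (1 + x) ^ (p ^ n₀) = 1)
    (hx1 : ‖x‖ < 1) (hne : ev x (H n₀) ≠ 0) : ∃ μ j, Witness H μ j := by
  by_contra hno
  push Not at hno
  set r := max ‖x‖ (p : ℝ)⁻¹ with hr
  have hr0 : 0 ≤ r := le_max_of_le_left (norm_nonneg x)
  have hr1 : r < 1 := max_lt hx1 (inv_lt_one_of_one_lt₀ (by exact_mod_cast hp.out.one_lt))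
  obtain ⟨N, hN⟩ := exists_pow_lt_of_lt_one (norm_pos_iff.mpr hne) hr1
  have hb : ‖ev x (H (max n₀ N))‖ ≤ r ^ N := by
    refine norm_ev_le (pow_nonneg hr0 _) fun j => ?_
    obtain h | ⟨μ, -, hw⟩ := dvd_or_witness (H := H) (max n₀ N) j _ le_rfl
    · calc ‖emb ((H (max n₀ N)).coeff j)‖ * ‖x‖ ^ j
          ≤ r ^ (max n₀ N + 1 - j) * r ^ j := by
            refine mul_le_mul ((norm_emb_le_pow h).trans (pow_le_pow_left₀ (by positivity) (le_max_right _ _) _))
              (pow_le_pow_left₀ (norm_nonneg _) (le_max_left _ _) _) (pow_nonneg (norm_nonneg _) _)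
              (pow_nonneg hr0 _)
        _ ≤ r ^ N := by
            rw [← pow_add]
            exact pow_le_pow_of_le_one hr0 hr1.le (by omega)
    · exact absurd hw (hno μ j)
  rw [ev_eq_of_dvd hx (hH.dvd_sub (le_max_left n₀ N))] at hb
  exact (not_le.mpr hN) hb

/-- **The absolute value at roots of unity of high order.** -/
theorem norm_ev_eq (hH : Compatible H) {μ lam : ℕ} (hD : Dominant H μ lam) {n φ : ℕ} (hφ : lam < φ)
    {x : PadicAlgCl p} (hx : (1 + x) ^ (p ^ n) = 1) (hxφ : ‖x‖ ^ φ = (p : ℝ)⁻¹) :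
    ‖ev x (H n)‖ = (p : ℝ)⁻¹ ^ μ * ‖x‖ ^ lam := by
  set ρ := ‖x‖ with hρ
  have hπ0 : (0 : ℝ) < (p : ℝ)⁻¹ := inv_pos.mpr (by exact_mod_cast hp.out.pos)
  have hπ1 : (p : ℝ)⁻¹ < 1 := inv_lt_one_of_one_lt₀ (by exact_mod_cast hp.out.one_lt)
  have hρ0 : 0 < ρ := (norm_nonneg x).lt_of_ne fun e => by
    rw [hρ, ← e, zero_pow (by omega)] at hxφ
    linarith
  have hρ1 : ρ < 1 := not_le.mp fun h => absurd ((one_le_pow₀ h (n := φ)).trans hxφ.le) (not_le.mpr hπ1)
  set E := μ * φ + lam with hE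
  set n' := max n (E + μ + 1) with hn'
  rw [← ev_eq_of_dvd hx (hH.dvd_sub (le_max_left n (E + μ + 1))), ← hn']
  have hlam : lam + μ ≤ n' := by omega
  set f := H n' with hf
  have hmain : ‖emb (f.coeff lam) * x ^ lam‖ = ρ ^ E := by
    rw [norm_mul, norm_pow, norm_emb_eq_pow (hD.main n' hlam).1 (hD.main n' hlam).2, hE, pow_add, mul_comm μ φ,
      pow_mul, hxφ]
  have hrest : ‖ev x (f.erase lam)‖ ≤ ρ ^ (E + 1) := by
    refine norm_ev_le (by positivity) fun j => ?_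
    rcases eq_or_ne j lam with rfl | hj
    · rw [coeff_erase, if_pos rfl, map_zero, norm_zero, zero_mul]
      positivity
    rw [coeff_erase, if_neg hj]
    have key : ∀ k, (p : ℤ_[p]) ^ k ∣ f.coeff j → E + 1 ≤ k * φ + j →
        ‖emb (f.coeff j)‖ * ρ ^ j ≤ ρ ^ (E + 1) := fun k hk hle => by
      refine (mul_le_mul_of_nonneg_right (norm_emb_le_pow hk) (by positivity)).trans ?_
      rw [← hxφ, ← pow_mul, ← pow_add, mul_comm φ]
      exact pow_le_pow_of_le_one hρ0.le hρ1.le hle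
    rcases lt_or_gt_of_ne hj with hlt | hgt
    · exact key _ (hD.below n' j hlam hlt) (by rw [add_mul, one_mul]; omega)
    · refine key _ (hD.all n' j) ?_
      rcases le_total μ (n' + 1 - j) with h | h
      · rw [min_eq_left h]
        omega
      · rw [min_eq_right h]
        have : n' + 1 - j ≤ (n' + 1 - j) * φ := Nat.le_mul_of_pos_right _ (by omega)
        omega
  have hsplit : ev x f = emb (f.coeff lam) * x ^ lam + ev x (f.erase lam) := by
    conv_lhs => rw [← monomial_add_erase f lam]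
    rw [ev, eval₂_add, eval₂_monomial]
    rfl
  have hlt : ‖ev x (f.erase lam)‖ < ‖emb (f.coeff lam) * x ^ lam‖ :=
    hmain.symm ▸ hrest.trans_lt (pow_lt_pow_right_of_lt_one₀ hρ0 hρ1 (lt_add_one E))
  rw [hsplit, IsUltrametricDist.norm_add_eq_max_of_norm_ne_norm hlt.ne', max_eq_left hlt.le, hmain, hE, pow_add,
    mul_comm μ φ, pow_mul, hxφ]

end FA.IwasawaMinus
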