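import Mathlib.RingTheory.ZMod.UnitsCyclic
import Mathlib.Algebra.Polynomial.AlgebraMap
import Mathlib.RingTheory.RootsOfUnity.PrimitiveRoots
import Mathlib.NumberTheory.Basic

/-!
# Regularised Stickelberger polynomials

With `g` a generator modulo every power of `p`, `r_k = g ^ k mod p^(n+1)` and an integer `c` prime to `p`, the
polynomials `∑_k (2 ⌊c r_k / p^(n+1)⌋ + 1 - c) X ^ k` are compatible as `n` grows, and at a root of unity `η ≠ 1`
they are a multiple of `∑_k η ^ k r_k`.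
-/

set_option autoImplicit false
set_option linter.style.haveILetI false

noncomputable section

open Polynomial

namespace FA.IwasawaMinus

variable {p : ℕ} [hp : Fact p.Prime]

/-- A generator modulo every power of `p`. -/
def IsGen (p g : ℕ) : Prop := 2 ≤ g ∧ ∀ n, orderOf (g : ZMod (p ^ (n + 1))) = (p - 1) * p ^ n

/-- A number of order `p (p - 1)` modulo `p ^ 2` is a generator. -/
theorem isGen_of_orderOf (hp2 : p ≠ 2) {g : ℕ} (hg2 : 2 ≤ g)
    (hord2 : orderOf (g : ZMod (p ^ 2)) = p * (p - 1)) : IsGen p g := by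
  have hp3 : 3 ≤ p := by have := hp.out.two_le; omega
  have hunit : IsUnit (g : ZMod (p ^ 2)) :=
    (orderOf_pos_iff.mp (by rw [hord2]; exact Nat.mul_pos hp.out.pos (by omega))).isUnit
  refine ⟨hg2, fun n => ?_⟩
  -- the order modulo `p`
  have hmodp : ∀ k, (g : ZMod p) ^ k = 1 → p - 1 ∣ k := fun k hk => by
    have h1 : (g : ZMod (p ^ 2)) ^ (k * p) = 1 := by
      obtain ⟨a, ha⟩ : (p : ℤ) ∣ (g : ℤ) ^ k - 1 := by
        rw [← ZMod.intCast_zmod_eq_zero_iff_dvd]
        push_cast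
        rw [hk, sub_self]
      have h2 : ((g : ℤ) ^ k) ^ p ≡ 1 ^ p [ZMOD ((p : ℤ) ^ 2)] := by
        rw [Int.modEq_iff_dvd, dvd_sub_comm]
        simpa using dvd_sub_pow_of_dvd_sub (R := ℤ) (p := p) ⟨a, ha⟩ 1
      rw [← pow_mul, one_pow, show ((p : ℤ) ^ 2) = ((p ^ 2 : ℕ) : ℤ) by push_cast; rfl,
        ← ZMod.intCast_eq_intCast_iff] at h2
      push_cast at h2
      exact h2
    rw [← orderOf_dvd_iff_pow_eq_one, hord2, mul_comm k p] at h1
    exact (mul_dvd_mul_iff_left hp.out.ne_zero).mp h1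
  obtain ⟨a, ha⟩ : (p : ℤ) ∣ (g : ℤ) ^ (p - 1) - 1 := by
    rw [← ZMod.intCast_zmod_eq_zero_iff_dvd]
    push_cast
    rw [sub_eq_zero]
    refine ZMod.pow_card_sub_one_eq_one fun e => ?_
    have hdvd : p ∣ g := (ZMod.natCast_eq_zero_iff _ _).mp e
    have hu' : IsUnit (g : ZMod (p ^ 2)) := hunit
    rw [ZMod.isUnit_iff_coprime, Nat.coprime_pow_right_iff two_pos, Nat.coprime_comm,
      hp.out.coprime_iff_not_dvd] at hu'
    exact hu' hdvd
  have ha' : ¬ (p : ℤ) ∣ a := fun h => by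
    have h1 : (g : ZMod (p ^ 2)) ^ (p - 1) = 1 := by
      have h2 : (((g : ℤ) ^ (p - 1) - 1 : ℤ) : ZMod (p ^ 2)) = 0 := by
        rw [ZMod.intCast_zmod_eq_zero_iff_dvd, ha]
        push_cast
        rw [pow_two]
        exact mul_dvd_mul_left _ h
      push_cast at h2
      exact sub_eq_zero.mp h2
    rw [← orderOf_dvd_iff_pow_eq_one, hord2] at h1
    exact absurd (Nat.le_of_dvd (by omega) h1) (not_le.mpr (lt_mul_left (by omega) hp.out.one_lt))
  have hpow : (g : ZMod (p ^ (n + 1))) ^ (p - 1) = 1 + (p : ZMod (p ^ (n + 1))) * (a : ZMod (p ^ (n + 1))) := by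
    have h := congrArg (Int.cast : ℤ → ZMod (p ^ (n + 1))) ha
    push_cast at h
    linear_combination h
  have hord : orderOf ((g : ZMod (p ^ (n + 1))) ^ (p - 1)) = p ^ n := by
    rw [hpow]
    exact ZMod.orderOf_one_add_mul_prime hp.out hp2 a ha' n
  have hdvd : p - 1 ∣ orderOf (g : ZMod (p ^ (n + 1))) := by
    refine hmodp _ ?_
    have h := congrArg (ZMod.castHom (dvd_pow_self p (Nat.succ_ne_zero n)) (ZMod p))
      (pow_orderOf_eq_one (g : ZMod (p ^ (n + 1))))
    rwa [map_pow, map_natCast, map_one] at h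
  rw [orderOf_pow' _ (by omega), Nat.gcd_eq_right hdvd] at hord
  rw [← hord, Nat.mul_div_cancel' hdvd]

theorem exists_isGen (hp2 : p ≠ 2) : ∃ g, IsGen p g := by
  haveI := ZMod.isCyclic_units_of_prime_pow p hp.out hp2 2
  obtain ⟨u, hu⟩ := IsCyclic.exists_ofOrder_eq_natCard (α := (ZMod (p ^ 2))ˣ)
  rw [Nat.card_eq_fintype_card, ZMod.card_units_eq_totient, Nat.totient_prime_pow_succ hp.out 1, pow_one] at hu
  set g := (u : ZMod (p ^ 2)).val with hg
  have hp3 : 3 ≤ p := by have := hp.out.two_le; omega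
  have hcast : (g : ZMod (p ^ 2)) = u := ZMod.natCast_zmod_val _
  have hord2 : orderOf (g : ZMod (p ^ 2)) = p * (p - 1) := by rw [hcast, orderOf_units, hu]
  refine ⟨g, isGen_of_orderOf hp2 ?_ hord2⟩
  haveI : Fact (1 < p ^ 2) := ⟨Nat.one_lt_pow two_ne_zero hp.out.one_lt⟩
  have h0 : g ≠ 0 := fun e => u.ne_zero (by rw [← hcast, e, Nat.cast_zero])
  have h1 : g ≠ 1 := fun e => by
    rw [e, Nat.cast_one, orderOf_one] at hord2
    have h := Nat.eq_one_of_mul_eq_one_right hord2.symm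
    omega
  omega

variable {g : ℕ}

/-- The residue of `g ^ k`. -/
def res (p g n k : ℕ) : ℕ := ((g : ZMod (p ^ (n + 1))) ^ k).val

/-- The coefficient. -/
def coefE (p g c n k : ℕ) : ℤ := 2 * ((c * res p g n k / p ^ (n + 1) : ℕ) : ℤ) + 1 - c

/-- The Stickelberger polynomial. -/
def poly (p g c n : ℕ) : ℤ[X] := ∑ k ∈ Finset.range ((p - 1) * p ^ n), C (coefE p g c n k) * X ^ k

theorem res_lt (n k : ℕ) : res p g n k < p ^ (n + 1) :=
  haveI : NeZero (p ^ (n + 1)) := ⟨pow_ne_zero _ hp.out.ne_zero⟩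
  ZMod.val_lt _

theorem sum_range_mul' {M : Type*} [AddCommMonoid M] (f : ℕ → M) (a b : ℕ) :
    ∑ i ∈ Finset.range (a * b), f i = ∑ j ∈ Finset.range b, ∑ k ∈ Finset.range a, f (j * a + k) := by
  induction b with
  | zero => simp
  | succ b ih => rw [Nat.mul_succ, Finset.sum_range_add, ih, Finset.sum_range_succ, mul_comm a b]

/-- Hermite's identity, doubled. -/
theorem two_mul_sum_div {c : ℕ} (hc : ¬ p ∣ c) (q : ℕ) :
    2 * ∑ i ∈ Finset.range p, (((q + c * i) / p : ℕ) : ℤ) = 2 * q + ((c : ℤ) - 1) * (p - 1) := by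
  have hinj : Set.InjOn (fun i => (q + c * i) % p) (Finset.range p : Set ℕ) := by
    intro i hi j hj e
    rw [Finset.coe_range, Set.mem_Iio] at hi hj
    have h : c * i ≡ c * j [MOD p] := Nat.ModEq.add_left_cancel' q e
    have h' := Nat.ModEq.cancel_left_of_coprime (hp.out.coprime_iff_not_dvd.mpr hc) h
    rwa [Nat.ModEq, Nat.mod_eq_of_lt hi, Nat.mod_eq_of_lt hj] at h'
  have hperm : ∑ i ∈ Finset.range p, (q + c * i) % p = ∑ i ∈ Finset.range p, i := by
    rw [← Finset.sum_image (g := fun i => (q + c * i) % p) (f := fun i => i) hinj,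
      Finset.eq_of_subset_of_card_le (Finset.image_subset_iff.mpr fun i _ =>
        Finset.mem_range.mpr (Nat.mod_lt _ hp.out.pos)) (by rw [Finset.card_image_of_injOn hinj])]
  have hsum : ∀ i, ((q + c * i : ℕ) : ℤ) = (p : ℤ) * (((q + c * i) / p : ℕ) : ℤ) + (((q + c * i) % p : ℕ) : ℤ) :=
    fun i => by exact_mod_cast (Nat.div_add_mod _ _).symm
  have h := Finset.sum_congr (s₁ := Finset.range p) rfl fun i _ => hsum i
  rw [Finset.sum_add_distrib, ← Finset.mul_sum, ← Nat.cast_sum (Finset.range p) fun i => (q + c * i) % p, hperm]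
    at h
  push_cast at h
  rw [Finset.sum_add_distrib, Finset.sum_const, Finset.card_range, nsmul_eq_mul, ← Finset.mul_sum] at h
  have hg : 2 * (∑ i ∈ Finset.range p, (i : ℤ)) = (p : ℤ) * (p - 1) := by
    have := Finset.sum_range_id_mul_two p
    have h' : ((∑ i ∈ Finset.range p, i : ℕ) : ℤ) * 2 = ((p * (p - 1) : ℕ) : ℤ) := by exact_mod_cast this
    rw [Nat.cast_sum, Nat.cast_mul, Nat.cast_sub hp.out.one_le, Nat.cast_one] at h'
    linarith
  refine mul_left_cancel₀ (Nat.cast_ne_zero.mpr hp.out.ne_zero : (p : ℤ) ≠ 0) ?_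
  push_cast
  linear_combination (-2 : ℤ) * h + ((c : ℤ) - 1) * hg

/-- The lifts of one residue are all its translates. -/
theorem sum_coefE (hg : IsGen p g) {c : ℕ} (hc : ¬ p ∣ c) (n k : ℕ) :
    ∑ j ∈ Finset.range p, coefE p g c (n + 1) (j * ((p - 1) * p ^ n) + k) = coefE p g c n k := by
  haveI : NeZero (p ^ (n + 1)) := ⟨pow_ne_zero _ hp.out.ne_zero⟩
  haveI : NeZero (p ^ (n + 1 + 1)) := ⟨pow_ne_zero _ hp.out.ne_zero⟩
  set N := p ^ (n + 1) with hN
  set φ := (p - 1) * p ^ n with hφ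
  have hp1 : 0 < p - 1 := Nat.sub_pos_of_lt hp.out.one_lt
  have hφ0 : 0 < φ := Nat.mul_pos hp1 (pow_pos hp.out.pos _)
  have hmod : ∀ j, res p g (n + 1) (j * φ + k) % N = res p g n k := fun j => by
    have h1 : ((g : ZMod N) ^ φ) = 1 := by rw [hφ, ← hg.2 n, pow_orderOf_eq_one]
    have h2 : ((res p g (n + 1) (j * φ + k) : ℕ) : ZMod N) = (g : ZMod N) ^ k := by
      rw [res, ZMod.natCast_val,
        ← ZMod.castHom_apply (h := (pow_dvd_pow p (by omega) : N ∣ p ^ (n + 1 + 1))) (R := ZMod N), map_pow,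
        map_natCast, pow_add, mul_comm j, pow_mul, h1, one_pow, one_mul]
    rw [show res p g n k = ((g : ZMod N) ^ k).val from rfl, ← h2, ZMod.val_natCast]
  have hlt : ∀ j, res p g (n + 1) (j * φ + k) / N < p := fun j => by
    rw [Nat.div_lt_iff_lt_mul (NeZero.pos N), hN]
    exact (res_lt _ _).trans_eq (by ring)
  have heq : ∀ j, res p g (n + 1) (j * φ + k) = res p g n k + res p g (n + 1) (j * φ + k) / N * N := fun j => by
    conv_lhs => rw [← Nat.mod_add_div (res p g (n + 1) (j * φ + k)) N, hmod, mul_comm N]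
  have hinj : Set.InjOn (fun j => res p g (n + 1) (j * φ + k) / N) (Finset.range p : Set ℕ) := by
    intro i hi j hj e
    rw [Finset.coe_range, Set.mem_Iio] at hi hj
    have h : res p g (n + 1) (i * φ + k) = res p g (n + 1) (j * φ + k) := by
      rw [heq i, heq j]
      exact congrArg (fun t => res p g n k + t * N) e
    have hk : (g : ZMod (p ^ (n + 1 + 1))) ^ (i * φ + k) = (g : ZMod (p ^ (n + 1 + 1))) ^ (j * φ + k) :=
      ZMod.val_injective _ h
    have hu : IsUnit (g : ZMod (p ^ (n + 1 + 1))) :=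
      (orderOf_pos_iff.mp (by rw [hg.2 (n + 1)]; exact Nat.mul_pos hp1 (pow_pos hp.out.pos _))).isUnit
    have hk' : (g : ZMod (p ^ (n + 1 + 1))) ^ (i * φ) = (g : ZMod (p ^ (n + 1 + 1))) ^ (j * φ) :=
      (hu.pow k).mul_right_cancel ((pow_add _ _ _).symm.trans (hk.trans (pow_add _ _ _)))
    have hmodeq := (IsOfFinOrder.pow_eq_pow_iff_modEq (orderOf_pos_iff.mp
      (by rw [hg.2 (n + 1)]; exact Nat.mul_pos hp1 (pow_pos hp.out.pos _)))).mp hk'
    rw [hg.2 (n + 1), pow_succ, ← mul_assoc, ← hφ, mul_comm i, mul_comm j] at hmodeq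
    have h' := Nat.ModEq.mul_left_cancel' hφ0.ne' hmodeq
    rwa [Nat.ModEq, Nat.mod_eq_of_lt hi, Nat.mod_eq_of_lt hj] at h'
  have himage : (Finset.range p).image (fun j => res p g (n + 1) (j * φ + k) / N) = Finset.range p :=
    Finset.eq_of_subset_of_card_le (Finset.image_subset_iff.mpr fun j _ => Finset.mem_range.mpr (hlt j))
      (by rw [Finset.card_image_of_injOn hinj])
  have hterm : ∀ j, coefE p g c (n + 1) (j * φ + k) =
      (fun i => 2 * (((c * res p g n k / N + c * i) / p : ℕ) : ℤ) + 1 - c)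
        (res p g (n + 1) (j * φ + k) / N) := fun j => by
    show coefE p g c (n + 1) (j * φ + k) = _
    rw [coefE]
    conv_lhs => rw [heq j, mul_add, ← mul_assoc, pow_succ p (n + 1), ← hN, ← Nat.div_div_eq_div_mul,
      Nat.add_mul_div_right _ _ (NeZero.pos N)]
  rw [Finset.sum_congr rfl fun j _ => hterm j, ← Finset.sum_image
    (g := fun j => res p g (n + 1) (j * φ + k) / N)
    (f := fun i => 2 * (((c * res p g n k / N + c * i) / p : ℕ) : ℤ) + 1 - c) hinj, himage,
    Finset.sum_sub_distrib, Finset.sum_add_distrib, ← Finset.mul_sum, two_mul_sum_div hc, Finset.sum_const,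
    Finset.sum_const, Finset.card_range, coefE, ← hN]
  simp only [nsmul_eq_mul, mul_one]
  ring

/-- **Compatibility.** -/
theorem poly_compatible (hg : IsGen p g) {c : ℕ} (hc : ¬ p ∣ c) (n : ℕ) :
    X ^ ((p - 1) * p ^ n) - 1 ∣ poly p g c (n + 1) - poly p g c n := by
  set φ := (p - 1) * p ^ n with hφ
  have e : poly p g c n = ∑ j ∈ Finset.range p, ∑ k ∈ Finset.range φ,
      C (coefE p g c (n + 1) (j * φ + k)) * X ^ k := by
    rw [Finset.sum_comm, poly]
    refine Finset.sum_congr rfl fun k _ => ?_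
    rw [← Finset.sum_mul, ← map_sum, sum_coefE hg hc]
  rw [e, poly, show (p - 1) * p ^ (n + 1) = φ * p by rw [hφ, pow_succ]; ring, sum_range_mul',
    ← Finset.sum_sub_distrib]
  refine Finset.dvd_sum fun j _ => ?_
  rw [← Finset.sum_sub_distrib]
  refine Finset.dvd_sum fun k _ => ?_
  rw [pow_add, ← mul_sub, show X ^ (j * φ) * X ^ k - X ^ k = ((X ^ φ) ^ j - 1) * (X ^ k : ℤ[X]) by
    rw [← pow_mul, mul_comm φ]; ring]
  exact ((sub_one_dvd_pow_sub_one _ _).mul_right _).mul_left _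

theorem sum_range_shift {R : Type*} [AddCommGroup R] (F : ℕ → R) {φ : ℕ} (hF : ∀ k, F (k + φ) = F k) (s : ℕ) :
    ∑ k ∈ Finset.range φ, F (k + s) = ∑ k ∈ Finset.range φ, F k := by
  induction s with
  | zero => simp
  | succ s ih =>
    rw [← ih]
    have h1 := Finset.sum_range_succ (fun k => F (k + s)) φ
    have h2 := Finset.sum_range_succ' (fun k => F (k + s)) φ
    rw [h1, zero_add] at h2
    have e : F (φ + s) = F s := by rw [add_comm, hF]
    rw [e, add_left_inj] at h2
    rw [h2]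
    exact Finset.sum_congr rfl fun k _ => congrArg F (by ring)

/-- `∑ η ^ k r_k`. -/
def stickSum (p g n : ℕ) {R : Type*} [CommRing R] (η : R) : R :=
  ∑ k ∈ Finset.range ((p - 1) * p ^ n), η ^ k * (res p g n k : R)

/-- **The value at a root of unity.** -/
theorem poly_value (hg : IsGen p g) {R : Type*} [Field R] {n : ℕ} {η : R}
    (hη : η ^ ((p - 1) * p ^ n) = 1) (hη1 : η ≠ 1) {c s : ℕ}
    (hs : (c : ZMod (p ^ (n + 1))) = (g : ZMod (p ^ (n + 1))) ^ s) :
    η ^ s * ((p ^ (n + 1) : ℕ) : R) * aeval η (poly p g c n) =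
      2 * ((c : R) * η ^ s - 1) * stickSum p g n η := by
  haveI : NeZero (p ^ (n + 1)) := ⟨pow_ne_zero _ hp.out.ne_zero⟩
  set φ := (p - 1) * p ^ n with hφ
  set N := p ^ (n + 1) with hN
  have hgφ : (g : ZMod N) ^ φ = 1 := by rw [hφ, ← hg.2 n, pow_orderOf_eq_one]
  have hdiv : ∀ k, (N : ℤ) * ((c * res p g n k / N : ℕ) : ℤ) = (c * res p g n k : ℕ) - (res p g n (k + s) : ℤ) :=
    fun k => by
      have h : c * res p g n k % N = res p g n (k + s) := by
        have e : ((c * res p g n k : ℕ) : ZMod N) = (g : ZMod N) ^ (k + s) := by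
          rw [Nat.cast_mul, hs, res, ZMod.natCast_zmod_val, ← pow_add, add_comm]
        rw [show res p g n (k + s) = ((g : ZMod N) ^ (k + s)).val from rfl, ← e, ZMod.val_natCast]
      have h' := Nat.div_add_mod (c * res p g n k) N
      rw [h] at h'
      have h'' : ((N * (c * res p g n k / N) + res p g n (k + s) : ℕ) : ℤ) = ((c * res p g n k : ℕ) : ℤ) :=
        congrArg Nat.cast h'
      push_cast at h''
      push_cast
      linarith
  have hterm : ∀ k, η ^ s * (N : R) * (((coefE p g c n k : ℤ) : R) * η ^ k) =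
      2 * (c : R) * η ^ s * (η ^ k * (res p g n k : R)) - 2 * (η ^ (k + s) * (res p g n (k + s) : R)) +
        (N : R) * (1 - (c : R)) * η ^ s * η ^ k := fun k => by
    have h := congrArg (Int.cast : ℤ → R) (hdiv k)
    push_cast at h
    rw [coefE, ← hN]
    push_cast
    rw [pow_add]
    linear_combination (2 * η ^ s * η ^ k) * h
  have hgeom : ∑ k ∈ Finset.range φ, η ^ k = 0 := by
    have h := geom_sum_mul η φ
    rw [hη, sub_self] at h
    exact (mul_eq_zero.mp h).resolve_right (sub_ne_zero.mpr hη1)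
  have hshift := sum_range_shift (fun k => η ^ k * (res p g n k : R)) (φ := φ) (fun k => by
    simp only [res, pow_add, hη, hgφ, mul_one]) s
  rw [poly, map_sum, Finset.mul_sum]
  simp only [map_mul, map_pow, aeval_X, eq_intCast, map_intCast]
  rw [Finset.sum_congr rfl fun k _ => hterm k, Finset.sum_add_distrib, Finset.sum_sub_distrib, ← Finset.mul_sum,
    ← Finset.mul_sum, ← Finset.mul_sum, hshift, hgeom, stickSum, ← hφ]
  ring

end FA.IwasawaMinus
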