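import Fermat.Agent.IwasawaMinus.Characters
import Fermat.Agent.IwasawaMinus.Roots
import Mathlib.NumberTheory.Cyclotomic.PrimitiveRoots

/-!
# The relative class number formula inside an algebraic closure of `ℚ_p`

Both sides of the formula lie in `ℚ(ζ_{(p-1)p^n})`, so it may be read through any embedding of that field.
-/

set_option autoImplicit false
set_option linter.style.haveILetI false

noncomputable section

open NumberField
open scoped Classical

namespace FA.IwasawaMinus

variable {p : ℕ} [hp : Fact p.Prime] {g : ℕ}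

/-- Images of roots of unity. -/
theorem image_nthRootsFinset {R S : Type*} [Field R] [Field S] (f : R →+* S) {m : ℕ} (hm : 0 < m) {z : R}
    (hz : IsPrimitiveRoot z m) :
    (Polynomial.nthRootsFinset m (1 : R)).image f = Polynomial.nthRootsFinset m (1 : S) := by
  refine Finset.eq_of_subset_of_card_le (Finset.image_subset_iff.mpr fun x hx => ?_) ?_
  · rw [Polynomial.mem_nthRootsFinset hm] at hx ⊢
    rw [← map_pow, hx, map_one]
  · rw [Finset.card_image_of_injective _ f.injective, hz.card_nthRootsFinset,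
      (hz.map_of_injective f.injective).card_nthRootsFinset]

theorem image_oddRoots {R S : Type*} [Field R] [Field S] (f : R →+* S) {m : ℕ} {z : R}
    (hz : IsPrimitiveRoot z ((p - 1) * p ^ m)) : (oddRoots R p m).image f = oddRoots S p m := by
  rw [oddRoots, oddRoots, ← image_nthRootsFinset f (phi_pos m) hz, Finset.filter_image]
  congr 1
  exact Finset.filter_congr fun x _ => ⟨fun h => by rw [← map_pow, h, map_neg, map_one],
    fun h => f.injective (by rw [map_pow, h, map_neg, map_one])⟩

theorem image_levelRoots {R S : Type*} [Field R] [Field S] (f : R →+* S) {m : ℕ} {z : R}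
    (hz : IsPrimitiveRoot z ((p - 1) * p ^ m)) : (levelRoots R p m).image f = levelRoots S p m := by
  rcases m with _ | m
  · exact image_oddRoots f hz
  · rw [levelRoots, levelRoots, ← image_oddRoots f hz, Finset.filter_image]
    congr 1
    exact Finset.filter_congr fun x _ => not_congr ⟨fun h => by rw [← map_pow, h, map_one],
      fun h => f.injective (by rw [map_pow, h, map_one])⟩

omit hp in
theorem map_bval {R S : Type*} [Field R] [Field S] (f : R →+* S) (n : ℕ) (η : R) :
    f (bval p g n η) = bval p g n (f η) := by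
  simp only [bval, stickSum, map_div₀, map_neg, map_sum, map_mul, map_pow, map_natCast, map_ofNat]

theorem map_product {R S : Type*} [Field R] [Field S] (f : R →+* S) {n : ℕ} {z : R}
    (hz : IsPrimitiveRoot z ((p - 1) * p ^ n)) :
    f (∏ m ∈ Finset.range (n + 1), ∏ η ∈ levelRoots R p m, bval p g m η) =
      ∏ m ∈ Finset.range (n + 1), ∏ η ∈ levelRoots S p m, bval p g m η := by
  rw [map_prod]
  refine Finset.prod_congr rfl fun m hm => ?_
  obtain ⟨d, hd⟩ : (p - 1) * p ^ m ∣ (p - 1) * p ^ n :=
    mul_dvd_mul_left _ (pow_dvd_pow p (Nat.lt_succ_iff.mp (Finset.mem_range.mp hm)))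
  have hzm : IsPrimitiveRoot (z ^ d) ((p - 1) * p ^ m) := hz.pow (phi_pos n) (hd.trans (mul_comm _ _))
  rw [map_prod, ← image_levelRoots f hzm, Finset.prod_image fun x _ y _ e => f.injective e]
  exact Finset.prod_congr rfl fun η _ => map_bval f m η

/-- **The formula in an algebraically closed field.** -/
theorem classNumber_algClosed (S : Type*) [Field S] [CharZero S] [IsAlgClosed S] (hp2 : p ≠ 2) (hg : IsGen p g)
    (n : ℕ) (K : Type*) [Field K] [NumberField K] [IsCyclotomicExtension {p ^ (n + 1)} ℚ K] [IsCMField K] :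
    (classNumber K : S) = classNumber (maximalRealSubfield K) *
      (IsCMField.indexRealUnits K : S) * Units.torsionOrder K *
        ∏ m ∈ Finset.range (n + 1), ∏ η ∈ levelRoots (S) p m, bval p g m η := by
  haveI : NeZero ((p - 1) * p ^ n) := ⟨(phi_pos n).ne'⟩
  haveI : NeZero (((p - 1) * p ^ n : ℕ) : ℚ) := ⟨Nat.cast_ne_zero.mpr (phi_pos n).ne'⟩
  haveI : IsCyclotomicExtension {(p - 1) * p ^ n} ℚ (CyclotomicField ((p - 1) * p ^ n) ℚ) :=
    CyclotomicField.isCyclotomicExtension _ ℚ
  haveI : NumberField (CyclotomicField ((p - 1) * p ^ n) ℚ) :=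
    IsCyclotomicExtension.numberField {(p - 1) * p ^ n} ℚ _
  let σ : CyclotomicField ((p - 1) * p ^ n) ℚ →ₐ[ℚ] ℂ := IsAlgClosed.lift
  let ι : CyclotomicField ((p - 1) * p ^ n) ℚ →ₐ[ℚ] S := IsAlgClosed.lift
  have hz := IsCyclotomicExtension.zeta_spec ((p - 1) * p ^ n) ℚ (CyclotomicField ((p - 1) * p ^ n) ℚ)
  have h := classNumber_eq hp2 hg n K
  have hL : (classNumber K : CyclotomicField ((p - 1) * p ^ n) ℚ) = classNumber (maximalRealSubfield K) *
      (IsCMField.indexRealUnits K : CyclotomicField ((p - 1) * p ^ n) ℚ) * Units.torsionOrder K *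
        ∏ m ∈ Finset.range (n + 1), ∏ η ∈ levelRoots (CyclotomicField ((p - 1) * p ^ n) ℚ) p m, bval p g m η := by
    apply σ.toRingHom.injective
    rw [map_mul, map_mul, map_mul, map_natCast, map_natCast, map_natCast, map_natCast,
      map_product σ.toRingHom hz]
    exact h
  have h2 := congrArg ι.toRingHom hL
  rw [map_mul, map_mul, map_mul, map_natCast, map_natCast, map_natCast, map_natCast,
    map_product ι.toRingHom hz] at h2
  exact h2

/-- **The formula over `ℚ_p`.** -/
theorem classNumber_padic (hp2 : p ≠ 2) (hg : IsGen p g) (n : ℕ) (K : Type*) [Field K] [NumberField K]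
    [IsCyclotomicExtension {p ^ (n + 1)} ℚ K] [IsCMField K] :
    (classNumber K : PadicAlgCl p) = classNumber (maximalRealSubfield K) *
      (IsCMField.indexRealUnits K : PadicAlgCl p) * Units.torsionOrder K *
        ∏ m ∈ Finset.range (n + 1), ∏ η ∈ levelRoots (PadicAlgCl p) p m, bval p g m η :=
  classNumber_algClosed (PadicAlgCl p) hp2 hg n K

/-- No value vanishes. -/
theorem bval_ne_zero (hp2 : p ≠ 2) (hg : IsGen p g) {m : ℕ} {η : PadicAlgCl p}
    (hη : η ∈ levelRoots (PadicAlgCl p) p m) : bval p g m η ≠ 0 := fun h0 => by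
  haveI : NeZero (p ^ (m + 1)) := ⟨pow_ne_zero _ hp.out.ne_zero⟩
  haveI : NeZero ((p ^ (m + 1) : ℕ) : ℚ) := ⟨Nat.cast_ne_zero.mpr (NeZero.ne _)⟩
  haveI : IsCyclotomicExtension {p ^ (m + 1)} ℚ (CyclotomicField (p ^ (m + 1)) ℚ) :=
    CyclotomicField.isCyclotomicExtension _ ℚ
  haveI : NumberField (CyclotomicField (p ^ (m + 1)) ℚ) := IsCyclotomicExtension.numberField {p ^ (m + 1)} ℚ _
  haveI : IsCMField (CyclotomicField (p ^ (m + 1)) ℚ) :=
    IsCyclotomicExtension.Rat.isCMField _ (S := {p ^ (m + 1)}) ⟨_, rfl, lt_of_lt_of_le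
      (show 2 < p by have := hp.out.two_le; omega) (Nat.le_self_pow (Nat.succ_ne_zero m) p)⟩
  have h := classNumber_padic hp2 hg m (CyclotomicField (p ^ (m + 1)) ℚ)
  rw [Finset.prod_eq_zero (Finset.self_mem_range_succ m) (Finset.prod_eq_zero hη h0), mul_zero,
    Nat.cast_eq_zero] at h
  exact (classNumber_pos _).ne' h

end FA.IwasawaMinus
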